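import Fermat.Agent.TwoAdic.Final.Ring
import Fermat.Agent.TwoAdic.Scalar.Occurs
import Fermat.Agent.EigenSystems.Occurs

/-!
# Points of the final ring occur; descent of occurring systems along field extensions
-/

set_option autoImplicit false

noncomputable section

open IsLocalRing

namespace Fermat.Agent.TwoAdic.Final

open HeckeModule EigenSystems

/-- A system which occurs over a larger field and has values in the smaller one occurs over it. -/
theorem occurs_descend {K L : Type} [Field K] [Field L] [Algebra K L] {N : ℕ} [NeZero N]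
    {S : Finset ℕ} {lam : ℕ → K}
    (h : Engine.Occurs L N 1 S fun ℓ => algebraMap K L (lam ℓ)) : Engine.Occurs K N 1 S lam := by
  obtain ⟨c, hc0, hc⟩ := h
  obtain ⟨z, rfl⟩ := toCoh_surjective _ c
  have hz : z ≠ 0 := fun h => hc0 (by rw [h, map_zero])
  obtain ⟨γ, hγ⟩ : ∃ γ, z.1 γ ≠ 0 := by
    by_contra h
    exact hz (Subtype.ext (funext fun γ => not_not.mp fun h' => h ⟨γ, h'⟩))
  obtain ⟨g, hg⟩ : ∃ g : Module.Dual K L, g (z.1 γ) ≠ 0 := by
    by_contra h
    exact hγ ((Module.forall_dual_apply_eq_zero_iff K _).mp fun g => not_not.mp fun h' => h ⟨g, h'⟩)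
  refine ⟨toCoh _ (mapCocycle (σ := scalarRep (1 : (ZMod N)ˣ →* K) K) EigenSystems.scalarRep_one
    EigenSystems.scalarRep_one g.toAddMonoidHom z), fun h0 => hg ?_, fun ℓ hℓ hS hN => ?_⟩
  · exact congrArg (fun w : Cocycle _ => w.1 γ)
      ((toCoh_eq_zero_iff_of_trivial EigenSystems.scalarRep_one).mp h0)
  · have : NeZero ℓ := ⟨hℓ.out.ne_zero⟩
    refine mapCocycle_eigen EigenSystems.scalarRep_one EigenSystems.scalarRep_one g.toAddMonoidHom
      (hc ℓ hS hN) fun x => ?_
    show g (algebraMap K L (lam ℓ) • z.1 x) = lam ℓ • g (z.1 x)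
    rw [← map_smul, smul_eq_mul, ← Algebra.smul_def]

variable {O : Type} [CommRing O] [IsDomain O] [IsDiscreteValuationRing O] [CharZero O] {L : ℕ}
  [NeZero L] {S' : Set ℕ} (m : Ideal (AwayPoly O S')) [m.IsPrime]
  {ρ : Representation O (ZMod L)ˣ O} {S₀ : Set ℕ}
  (C : Submodule (HeckePoly O) (CohLoc (awayMonoid m) ρ))
  [Module.Finite O C] [Module.Free O C]
  [Module.Finite O (CohLoc (awayMonoid m) ρ)] [Module.Free O (CohLoc (awayMonoid m) ρ)]

omit [Module.Free O ↥C] [Module.Finite O (CohLoc (awayMonoid m) ρ)]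
  [Module.Free O (CohLoc (awayMonoid m) ρ)] in
omit [CharZero O] [NeZero L] in
/-- An integral point of the final ring has an eigenvector. -/
theorem exists_eigen_finalRing [IsReduced (FinalRing S₀ C)] (θ : FinalRing S₀ C →ₐ[O] O) :
    ∃ y : C, y ≠ 0 ∧ ∀ a : AwayPoly O S₀,
      awayIncl O S₀ a • y = θ (Ideal.Quotient.mk _ a) • y := by
  let _ : Module (FinalRing S₀ C) C := finalModule S₀ C
  have := finite_finalRing m C (S₀ := S₀)
  have : IsScalarTower O (FinalRing S₀ C) C := IsScalarTower.of_algebraMap_smul fun o y => by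
    show finalRingAct S₀ C (algebraMap O _ o) y = o • y
    rw [AlgHom.commutes, Module.algebraMap_end_apply]
  obtain ⟨y, hy0, hy⟩ := Scalar.exists_eigen_of_point (M := C) (fun t ht =>
    finalRingAct_injective S₀ C (by rw [map_zero]; exact LinearMap.ext fun y => ht y)) θ
  exact ⟨y, hy0, fun a => hy (Ideal.Quotient.mk _ a)⟩

set_option linter.unusedSectionVars false in
/-- **An integral point of the final ring is a system which occurs.** -/
theorem occurs_of_point [IsReduced (FinalRing S₀ C)] (hρ : ∀ u, ρ u = 1)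
    (θ : FinalRing S₀ C →ₐ[O] O) {S : Finset ℕ} {lam : ℕ → O}
    (hlam : ∀ (l : AwayIndex S₀), ((l : Nat.Primes) : ℕ) ∉ S → ¬ ((l : Nat.Primes) : ℕ) ∣ L →
      θ (Ideal.Quotient.mk _ (MvPolynomial.X l)) = lam (l : Nat.Primes))
    (hS : ∀ l : ℕ, l.Prime → l ∉ S → ¬ l ∣ L → l ∉ S₀) :
    Engine.Occurs (FractionRing O) L 1 S fun ℓ => algebraMap O (FractionRing O) (lam ℓ) := by
  obtain ⟨y, hy0, hy⟩ := exists_eigen_finalRing m C θ
  refine occurs_of_eigen_cohLoc hρ (y : CohLoc (awayMonoid m) ρ)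
    (fun h => hy0 (Subtype.ext h)) fun l hlS hlL => ?_
  have h := hy (MvPolynomial.X ⟨l, hS l l.2 hlS hlL⟩)
  rw [awayIncl_X, hlam ⟨l, hS l l.2 hlS hlL⟩ hlS hlL] at h
  exact congrArg Subtype.val h

end Fermat.Agent.TwoAdic.Final
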