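import Fermat.Agent.DefRing.NormalForm
import Fermat.Agent.TwoAdic.Route.Lift
import Fermat.Agent.TwoAdic.Pair.Quotient
import Fermat.Agent.TwoAdic.TSide.Descend
import Fermat.Agent.Engine.TRep.NilPoint
import Fermat.Agent.TwoAdic.Final.Exit

/-!
A point of a finite reduced algebra after a finite extension of the coefficient ring; extension of
the coefficients of residual data and of pairs.
-/

set_option autoImplicit false

noncomputable section

open IsLocalRing GaloisRep Fermat.Agent.DefRing

namespace Fermat.Agent.DefRing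

variable {O O' : Type} [CommRing O] [IsLocalRing O] [CommRing O'] [IsLocalRing O']
  (f : O →+* O') [IsLocalHom f]

/-- The residual representation over the residue field of `O'`. -/
def residualExtend (r : MRep (ResidueField O)) : MRep (ResidueField O') :=
  mapRep (ResidueField.map f) r

omit [IsLocalRing O] [IsLocalRing O'] [IsLocalHom f] in
/-- Evaluation commutes with the change of coefficient ring. -/
theorem evRep_mapRingHom {A B : Type} [CommRing A] [Algebra O A] [CommRing B] [Algebra O' B]
    (g : A →+* B) (hg : ∀ o, g (algebraMap O A o) = algebraMap O' B (f o)) (N : MRep A)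
    (x : MonoidAlgebra O GQ) :
    evRep (mapRep g N) (MonoidAlgebra.mapRingHom GQ f x) = (evRep N x).map g := by
  induction x using MonoidAlgebra.induction_linear with
  | zero => simp
  | add x y hx hy =>
    rw [map_add, map_add, map_add, hx, hy, Matrix.map_add _ (map_add _)]
  | single σ c =>
    rw [MonoidAlgebra.mapRingHom_single, evRep, evRep, MonoidAlgebra.lift_single,
      MonoidAlgebra.lift_single, mapRep_apply]
    ext i j
    rw [Matrix.map_apply, Matrix.smul_apply, Matrix.smul_apply, Matrix.map_apply, Algebra.smul_def,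
      Algebra.smul_def, map_mul, hg]

/-- The normalised data over `O'`. -/
def NormalData.extend (D : NormalData O) : NormalData O' where
  rbar := residualExtend f D.rbar
  u := MonoidAlgebra.mapRingHom GQ f D.u
  w := MonoidAlgebra.mapRingHom GQ f D.w
  u_spec := by
    rw [residualExtend, evRep_mapRingHom f _ (fun o => rfl), D.u_spec, Matrix.map_single _ _ _
        (ResidueField.map f), map_one]
  w_spec := by
    rw [residualExtend, evRep_mapRingHom f _ (fun o => rfl), D.w_spec, Matrix.map_single _ _ _
        (ResidueField.map f), map_one]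

theorem NormalData.extend_rbar (D : NormalData O) :
    (D.extend f).rbar = mapRep (ResidueField.map f) D.rbar := rfl

end Fermat.Agent.DefRing

namespace Fermat.Agent.TwoAdic

variable {k k' : Type} [Field k] [Field k'] (φ : k →+* k') {D : ℕ} {r : MRep k}

theorem trace_mapRep (σ : GQ) : (mapRep φ r σ).trace = φ (r σ).trace := by
  rw [mapRep_apply]
  exact (AddMonoidHom.map_trace φ.toAddMonoidHom (r σ)).symm

theorem mapRep_eq_one_iff (σ : GQ) : mapRep φ r σ = 1 ↔ r σ = 1 := by
  rw [mapRep_apply, ← Matrix.map_one φ (map_zero φ) (map_one φ)]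
  exact (Matrix.map_injective φ.injective).eq_iff

/-- Dihedral residual representations stay so over larger fields. -/
theorem IsDihedralResidual.extend (h : IsDihedralResidual D r) :
    IsDihedralResidual D (mapRep φ r) where
  card_range := by
    rw [← h.card_range]
    rw [show Set.range (mapRep φ r) = (fun X : Matrix (Fin 2) (Fin 2) k => X.map φ) '' Set.range r
        by
      rw [← Set.range_comp]; rfl]
    exact Set.ncard_image_of_injective _ (Matrix.map_injective φ.injective)
  det_one σ := by
    rw [mapRep_apply, ← RingHom.mapMatrix_apply, ← RingHom.map_det, h.det_one, map_one]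
  fixing σ := by
    rw [h.fixing σ, trace_mapRep, mapRep_eq_one_iff, map_ne_zero]
  unramified q hq hqD P hP τ hτ := by
    rw [mapRep_eq_one_iff]; exact h.unramified q hq hqD P hP τ hτ
  tame ℓ hℓ hℓD P hP τ hτ := by
    rw [← map_mul, mapRep_eq_one_iff, map_mul]; exact h.tame ℓ hℓ hℓD P hP τ hτ

namespace TopDown

/-- Residual modularity passes to larger fields. -/
theorem IsResiduallyModular.extend {S : Finset ℕ} (h : IsResiduallyModular D r S) :
    IsResiduallyModular D (mapRep φ r) S := by
  obtain ⟨f, hf, Q, hQ, h2, hD, hS⟩ := h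
  refine ⟨f, hf, Q, hQ, h2, hD, fun ℓ hℓ hℓS => ?_⟩
  obtain ⟨a, m, ha, hm, htr⟩ := hS ℓ hℓ hℓS
  exact ⟨a, m, ha, hm, fun P hP σ hσ => by rw [trace_mapRep, htr P hP σ hσ, map_intCast]⟩

end TopDown

end Fermat.Agent.TwoAdic

namespace Fermat.Agent.TwoAdic.Final

variable (O : Type) [CommRing O] [IsDomain O] [IsDiscreteValuationRing O]
  [IsAdicComplete (maximalIdeal O) O] [Finite (ResidueField O)] [CharP (ResidueField O) 2]
  [CharZero O]

/-- A finite, torsion-free, reduced, non-zero algebra has a point in a finite extension, which is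
again a coefficient ring containing the fourth root field residually. -/
theorem exists_point_extension (hz : ∃ z : ResidueField O, z * z + z + 1 = 0) (C : Type)
    [CommRing C] [Algebra O C] [Module.Finite O C] [IsReduced C] [Nontrivial C]
    (htf : ∀ (o : O) (x : C), o ≠ 0 → algebraMap O C o * x = 0 → x = 0) :
    ∃ (O' : Type) (_ : CommRing O') (_ : IsDomain O') (_ : IsDiscreteValuationRing O')
      (_ : IsAdicComplete (maximalIdeal O') O') (_ : Finite (ResidueField O'))
      (_ : CharP (ResidueField O') 2) (_ : CharZero O')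
      (_ : Algebra O O') (_ : Module.Finite O O') (_ : IsLocalHom (algebraMap O O')),
      Function.Injective (algebraMap O O') ∧
        (∃ z : ResidueField O', z * z + z + 1 = 0) ∧ Nonempty (C →ₐ[O] O') := by
  obtain ⟨O', i₁, i₂, i₃, i₄, i₅, i₆, i₇, i₈, i₉, θ, -⟩ :=
    Engine.TRep.exists_point O C htf (x := 1) not_isNilpotent_one
  have hchar : CharP (ResidueField O') 2 :=
    charP_of_injective_ringHom (ResidueField.map (algebraMap O O')).injective 2
  refine ⟨O', i₁, i₂, i₃, i₄, i₅, hchar, i₆, i₇, i₈, i₉, ?_, ?_, ⟨θ⟩⟩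
  · refine (injective_iff_map_eq_zero _).mpr fun o ho => ?_
    by_contra h0
    obtain ⟨n, u, hu⟩ := IsDiscreteValuationRing.eq_unit_mul_pow_irreducible h0
      (IsDiscreteValuationRing.exists_irreducible O).choose_spec
    set π := (IsDiscreteValuationRing.exists_irreducible O).choose
    have hπ : Irreducible π := (IsDiscreteValuationRing.exists_irreducible O).choose_spec
    rw [hu, map_mul, map_pow] at ho
    have hπ0 : algebraMap O O' π = 0 :=
      eq_zero_of_pow_eq_zero ((mul_eq_zero.mp ho).resolve_left ((u.isUnit.map _).ne_zero))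
    have h2 : (2 : O) ∈ maximalIdeal O := by
      rw [← IsLocalRing.residue_eq_zero_iff, map_ofNat]
      exact CharTwo.two_eq_zero
    rw [hπ.maximalIdeal_eq, Ideal.mem_span_singleton] at h2
    obtain ⟨y, hy⟩ := h2
    have := congrArg (algebraMap O O') hy
    rw [map_mul, hπ0, zero_mul, map_ofNat] at this
    exact two_ne_zero this
  · obtain ⟨z, hz⟩ := hz
    exact ⟨ResidueField.map (algebraMap O O') z, by
      rw [← map_mul, ← map_add, ← map_one (ResidueField.map (algebraMap O O')), ← map_add, hz,
        map_zero]⟩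

section Pairs

open Deform Pair TSide

/-- The conditions of pairs map along local homomorphisms. -/
theorem pairCond_mapRep {A B 𝒪 𝒪' : Type} [CommRing A] [IsLocalRing A] [CommRing B] [IsLocalRing B]
    [CommRing 𝒪] [Algebra 𝒪 A] [CommRing 𝒪'] [Algebra 𝒪' B] (f : A →+* B) (hf : IsLocalHom f)
    (E : LiftData) (Q : Finset ℕ) (C : Set (GQ × GQ)) (M : MRep A) (hc : IsCont M)
    (h : E.pairCond Q C 𝒪 (toAdic M hc)) :
    E.pairCond Q C 𝒪' (toAdic (mapRep f M) (hc.map f hf)) := by
  obtain ⟨hdet, hcris, huni, hnew, hunr⟩ := h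
  let L := LinearMap.toMatrixAlgEquiv (toAdicBasis M hc)
  let L' := LinearMap.toMatrixAlgEquiv (toAdicBasis (mapRep f M) (hc.map f hf))
  have hρ : ∀ σ, L ((toAdic M hc).ρ σ) = M σ := fun σ => toMatrix_toAdic M hc σ
  have hρ' : ∀ σ, L' ((toAdic (mapRep f M) (hc.map f hf)).ρ σ) = f.mapMatrix (M σ) := fun σ =>
    toMatrix_toAdic _ (hc.map f hf) σ
  have hs : ∀ (c : A) (X : Matrix (Fin 2) (Fin 2) A),
      f.mapMatrix (c • X) = f c • f.mapMatrix X := fun c X => Matrix.map_smul' f c X (map_mul f)
  refine ⟨⟨fun hu => hdet.1 (hf.map_nonunit _ (by rwa [map_natCast])), fun n σ a ha => ?_⟩,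
    fun x hx => L'.injective ?_, fun P hP σ hσ => ?_, fun q hq hqN P hP φ hφ => ?_,
    fun q hq h1 h2 h3 h4 P hP σ hσ => ?_⟩
  · obtain ⟨y, hy⟩ := Ideal.mem_span_singleton.mp (hdet.2 n σ a ha)
    rw [det_toAdic_eq] at hy ⊢
    rw [mapRep_apply, ← RingHom.mapMatrix_apply, ← RingHom.map_det, Ideal.mem_span_singleton]
    exact ⟨f y, by simpa only [map_sub, map_mul, map_pow, map_natCast] using congrArg f hy⟩
  · have e := congrArg (fun T => f.mapMatrix (L T)) (hcris x hx)
    simp only [map_add, map_smul, map_one, hρ, hs, map_ofNat] at e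
    simpa only [map_add, map_smul, map_one, hρ', map_ofNat] using e
  · have e := huni P hP σ hσ
    rw [← LinearMap.charpoly_toMatrix _ (toAdicBasis M hc), toMatrix_toAdic] at e
    rw [← LinearMap.charpoly_toMatrix _ (toAdicBasis (mapRep f M) (hc.map f hf)),
      toMatrix_toAdic, mapRep_apply, Matrix.charpoly_map, e]
    simp
  · obtain ⟨ht, hτ⟩ := hnew q hq hqN P hP φ hφ
    refine ⟨?_, fun τ hτm => ?_⟩
    · rw [trace_toAdic_eq] at ht ⊢
      rw [Engine.trace_mapRep, ht]
      simp
    obtain ⟨e1, e2, e3⟩ := hτ τ hτm
    refine ⟨?_, L'.injective ?_, L'.injective ?_⟩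
    · rw [trace_toAdic_eq] at e1 ⊢
      rw [Engine.trace_mapRep, e1, map_ofNat]
    · have e := congrArg (fun T => f.mapMatrix (L T)) e2
      simp only [map_mul, map_sub, map_smul, map_one, hρ, map_zero, hs, map_intCast,
        map_natCast] at e
      simpa only [map_mul, map_sub, map_smul, map_one, hρ', map_zero, map_intCast,
        map_natCast] using e
    · have e := congrArg (fun T => f.mapMatrix (L T)) e3
      simp only [map_mul, map_sub, map_smul, map_one, hρ, map_zero, hs, map_intCast] at e
      simpa only [map_mul, map_sub, map_smul, map_one, hρ', map_zero, map_intCast] using e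
  · refine L'.injective ?_
    have e := congrArg L (hunr q hq h1 h2 h3 h4 P hP σ hσ)
    rw [hρ, map_one] at e
    rw [hρ', map_one, e, map_one]

variable {O O' : Type} [CommRing O] [IsDomain O] [IsDiscreteValuationRing O]
  [IsAdicComplete (maximalIdeal O) O] [Finite (ResidueField O)] [CharP (ResidueField O) 2]
  [CommRing O'] [IsDomain O'] [IsDiscreteValuationRing O']
  [IsAdicComplete (maximalIdeal O') O'] [Finite (ResidueField O')] [CharP (ResidueField O') 2]
  (f : O →+* O') [IsLocalHom f] {D : NormalData O} {E : LiftData} {Q : Finset ℕ}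
  {C : Set (GQ × GQ)}

omit [IsAdicComplete (maximalIdeal O') O'] [Finite (ResidueField O')] [CharP (ResidueField O') 2] in
omit [IsAdicComplete (maximalIdeal O) O] [Finite (ResidueField O)] [CharP (ResidueField O) 2] in
/-- A pair over `O` gives one over `O'`. -/
theorem isPair_extend {N : MRep O} {α : O}
    {hs : Function.Surjective (residue O ∘ algebraMap O O)}
    {hl : IsLocalHom (algebraMap O O)} (hp : IsPair D E Q C hl hs N α) :
    IsPair (D.extend f) E Q C TopDown.isLocalHom_algebraMap_self TopDown.residue_surjective_self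
      (mapRep f N) (f α) := by
  obtain ⟨⟨hnorm, hred, hc, hcond⟩, hα, hord⟩ := hp
  have hev : ∀ x, evRep (mapRep f N) (MonoidAlgebra.mapRingHom GQ f x) = (evRep N x).map f :=
    evRep_mapRingHom f f (fun o => rfl) N
  have hres : ∀ x : O, toResidue hl hs x = residue O x := fun x => by
    have := (toResidue hl hs).commutes x
    simpa using this
  have hres' : ∀ x : O', toResidue (𝒪 := O') (A := O') TopDown.isLocalHom_algebraMap_self
      TopDown.residue_surjective_self x = residue O' x := fun x => by
    have := (toResidue (𝒪 := O') (A := O') TopDown.isLocalHom_algebraMap_self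
      TopDown.residue_surjective_self).commutes x
    simpa using this
  refine ⟨⟨?_, ?_, hc.map f inferInstance, pairCond_mapRep f inferInstance E Q C N hc hcond⟩, ?_,
    hord.map f⟩
  · obtain ⟨h1, h2, h3⟩ := hnorm
    refine ⟨?_, ?_, ?_⟩
    · show evRep (mapRep f N) (MonoidAlgebra.mapRingHom GQ f D.u) 1 0 = 0
      rw [hev, Matrix.map_apply, h1, map_zero]
    · show evRep (mapRep f N) (MonoidAlgebra.mapRingHom GQ f D.w) 0 0 = 0
      rw [hev, Matrix.map_apply, h2, map_zero]
    · show evRep (mapRep f N) (MonoidAlgebra.mapRingHom GQ f D.w) 1 0 = 1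
      rw [hev, Matrix.map_apply, h3, map_one]
  · show mapRep _ (mapRep f N) = mapRep (ResidueField.map f) D.rbar
    refine MonoidHom.ext fun σ => Matrix.ext fun i j => ?_
    have e : toResidue hl hs (N σ i j) = D.rbar σ i j :=
      congrFun (congrFun (DFunLike.congr_fun hred σ) i) j
    simp only [mapRep_apply, Matrix.map_apply]
    rw [← e, hres]
    exact (hres' _).trans (ResidueField.map_residue f _).symm
  · rw [hres', ← ResidueField.map_residue, ← hres, hα, map_one]

omit [IsAdicComplete (maximalIdeal O) O] [Finite (ResidueField O)] [CharP (ResidueField O) 2]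
  [IsAdicComplete (maximalIdeal O') O'] in
/-- The residual pair over `O'`. -/
theorem isResidualPair_extend (hC : IsInertialSet C)
    (hr : IsDihedralResidual E.D D.rbar)
    (hA : ∀ q ∈ E.aux, ∀ P : ValuationSubring (AlgebraicClosure ℚ), P.LiesOverPrime q →
      ∀ φ : GQ, P.IsFrobeniusAt φ q → (D.rbar φ).trace = 0 ∧ D.rbar φ ≠ 1)
    (hc : IsCont D.rbar) : IsResidualPair (D.extend f) E Q C :=
  Pair.isResidualPair E Q hC (D.extend f) (hr.extend _) (fun q hq P hP φ hφ => by
    obtain ⟨h1, h2⟩ := hA q hq P hP φ hφ
    exact ⟨by rw [NormalData.extend_rbar, trace_mapRep, h1, map_zero],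
      fun h => h2 ((mapRep_eq_one_iff _ φ).mp h)⟩) (hc.map _ inferInstance)

omit [Finite (ResidueField O')] [CharP (ResidueField O') 2] in
omit [Finite (ResidueField O)] [CharP (ResidueField O) 2] in
/-- **A point of the ring of pairs gives one of the extended ring, with the same traces.** -/
theorem exists_point_extend {h : IsResidualPair D E Q C} (U : (pairFunctor h).UniversalPoint)
    {h' : IsResidualPair (D.extend f) E Q C} (U' : (pairFunctor h').UniversalPoint)
    (θ : U.R →ₐ[O] O) :
    ∃ θ' : U'.R →ₐ[O'] O', θ' (uRoot U') = f (θ (uRoot U)) ∧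
      ∀ σ, θ' (Matrix.trace (uRep U' σ)) = f (θ (Matrix.trace (uRep U σ))) := by
  have hsurj : Function.Surjective θ := fun x => ⟨algebraMap O U.R x, by simp⟩
  have hp := IsPair.map_surjective h TopDown.isLocalHom_algebraMap_self
    TopDown.residue_surjective_self θ hsurj (isPair_universal U)
  obtain ⟨θ', ⟨-, hθ, hroot⟩, -⟩ := Pair.existsUnique_map U' TopDown.residue_surjective_self
    (isPair_extend f hp)
  refine ⟨θ', hroot, fun σ => ?_⟩
  have e := DFunLike.congr_fun hθ σ
  have e' : ∀ i, θ' (uRep U' σ i i) = f (θ (uRep U σ i i)) := fun i =>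
    congrFun (congrFun e i) i
  simp only [Matrix.trace, Matrix.diag, Fin.sum_univ_two, map_add, e']

end Pairs

/-- A system with values in `O` which occurs over the field of fractions of `O'` occurs over that
of `O`. -/
theorem occurs_descend_fractionRing {O O' : Type} [CommRing O] [IsDomain O] [CommRing O']
    [IsDomain O'] (f : O →+* O') (hf : Function.Injective f) {N : ℕ} [NeZero N] {S : Finset ℕ}
    {a : ℕ → O}
    (h : Engine.Occurs (FractionRing O') N 1 S
      fun ℓ => algebraMap O' (FractionRing O') (f (a ℓ))) :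
    Engine.Occurs (FractionRing O) N 1 S fun ℓ => algebraMap O (FractionRing O) (a ℓ) := by
  let g : FractionRing O →+* FractionRing O' := IsFractionRing.map hf
  let : Algebra (FractionRing O) (FractionRing O') := g.toAlgebra
  refine occurs_descend (K := FractionRing O) (L := FractionRing O') ?_
  have e : (fun ℓ => algebraMap (FractionRing O) (FractionRing O')
      (algebraMap O (FractionRing O) (a ℓ))) = fun ℓ => algebraMap O' (FractionRing O') (f (a ℓ)) :=
    funext fun ℓ => IsLocalization.map_eq (S := FractionRing O) (Q := FractionRing O')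
        (nonZeroDivisors_le_comap_nonZeroDivisors_of_injective f hf) (a ℓ)
  rw [e]
  exact h

end Fermat.Agent.TwoAdic.Final

end
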