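import Fermat.Agent.TwoAdic.Scalar.LocSign
import Fermat.Agent.TwoAdic.Modules.TWLevel

/-!
`U_q = -w_q` on a localisation at level `q N` whose part of level `N` vanishes.
-/

set_option autoImplicit false

namespace Fermat.Agent.HeckeModule

open HeckeJ0 LevelRaising TwoAdic

variable {O : Type} [CommRing O] [IsLocalRing O] {L N q : ℕ} [hq : Fact q.Prime] {S : Set ℕ}
    (m : Ideal (AwayPoly O S))
  [m.IsPrime] {W : Finset ℕ} (hW : IsALPrimes L W) (hWS : ∀ e ∈ W, e ∈ S) (he : q ∈ W)

omit [IsLocalRing O] in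
include he in
/-- **`c U_q = - w_q`** when the part of the lower level vanishes. -/
theorem X_smul_eq_neg_alOneLoc (hL : L = q * N) (hqN : ¬ q ∣ N)
    (hlow : Subsingleton (CohLoc (awayMonoid m) (oneRep O O N))) (c : ℕ → O)
    (x : CohLoc (awayMonoid m) (oneRep O O L)) :
    c q • (MvPolynomial.X (⟨q, hq.out⟩ : Nat.Primes) : HeckePoly O) • x =
      -alOneLoc O hW c (isAway_awayMonoid m) hWS q x := by
  subst hL
  have hqS : q ∈ S := hWS q he
  refine eq_neg_of_add_eq_zero_left ?_
  induction x using LocalizedModule.induction_on with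
  | _ u s =>
    let χ : (ZMod 1)ˣ →* O := 1
    let v := charTraceTwist O (one_dvd N) χ hqN (one_dvd (q * N)) u
    have h0 : (LocalizedModule.mk v s : CohLoc (awayMonoid m)
        (scalarRep (levelChar (one_dvd N) χ) O))
        = LocalizedModule.mk 0 s := by
      rw [LocalizedModule.zero_mk]
      exact hlow.elim _ _
    rw [LocalizedModule.smul'_mk, LocalizedModule.smul'_mk, X_smul,
      alOneLoc_mk hW c _ hWS he, alOne_eq_smul hW he (c q),
      mk_add_mk_same, ← smul_add, show heckeOp (oneRep O O (q * N)) q u + alOne O hW he 1 u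
        = resSelf O (one_dvd N) (one_dvd (q * N)) χ v from
          heckeOp_add_wSelf hqN (one_dvd N) (one_dvd (q * N)) χ rfl u,
      ← LocalizedModule.smul'_mk]
    obtain ⟨t, ht⟩ := LocalizedModule.mk_eq.mp h0
    obtain ⟨a, ha, hat⟩ := t.2
    refine smul_eq_zero_of_right _ ?_
    rw [← LocalizedModule.zero_mk s]
    refine LocalizedModule.mk_eq.mpr ⟨t, ?_⟩
    have hat' : awayIncl O S a = (t : HeckePoly O) := hat
    simp only [Submonoid.smul_def, smul_zero] at ht ⊢
    obtain ⟨b, -, hb⟩ := s.2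
    have hb' : awayIncl O S b = (s : HeckePoly O) := hb
    rw [← hat', ← hb', smul_smul, ← map_mul, ← map_awayIncl_smul (S := S) _
      (fun _ _ hℓ z => resSelf_heckeOp (one_dvd N) (one_dvd (q * N)) χ hqS hℓ z), map_mul, mul_smul,
      hat', hb']
    exact (congrArg _ ht).trans (map_zero _)

omit [IsLocalRing O] in
omit hW hWS he in
/-- **`U_q² = 1`** when the part of the lower level vanishes. -/
theorem X_smul_X_smul_eq_self (hL : L = q * N) (hqN : ¬ q ∣ N) (hqS : q ∈ S)
    (hlow : Subsingleton (CohLoc (awayMonoid m) (oneRep O O N)))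
    (x : CohLoc (awayMonoid m) (oneRep O O L)) :
    (MvPolynomial.X (⟨q, hq.out⟩ : Nat.Primes) : HeckePoly O) •
      (MvPolynomial.X (⟨q, hq.out⟩ : Nat.Primes) : HeckePoly O) • x = x := by
  subst hL
  have hW : IsALPrimes (q * N) {q} := isALPrimes_self hqN
  have hWS : ∀ e ∈ ({q} : Finset ℕ), e ∈ S := fun e he => Finset.mem_singleton.mp he ▸ hqS
  have h : ∀ y, (MvPolynomial.X (⟨q, hq.out⟩ : Nat.Primes) : HeckePoly O) • y =
      -alOneLoc O hW (fun _ => (1 : O)) (isAway_awayMonoid m) hWS q y := fun y => by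
    have := X_smul_eq_neg_alOneLoc m hW hWS (Finset.mem_singleton_self q) rfl hqN hlow
      (fun _ => (1 : O)) y
    rwa [one_smul] at this
  rw [h, h, map_neg, neg_neg]
  induction x using LocalizedModule.induction_on with
  | _ u s =>
    rw [alOneLoc_mk hW _ _ hWS (Finset.mem_singleton_self q),
      alOneLoc_mk hW _ _ hWS (Finset.mem_singleton_self q)]
    exact congrArg (LocalizedModule.mk · s) (alOp_alOp hW (Finset.mem_singleton_self q)
      (one_dvd (q * N)) (1 : (ZMod 1)ˣ →* O) (Nat.coprime_one_right q) (1 : O) (by simp) u)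

end Fermat.Agent.HeckeModule
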