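import Fermat.Agent.TwoAdic.Final.PairLocal

/-!
# Frobenius traces at the primes of a bad set

For a class which is eigen for all operators, the trace of the attached representation at a
Frobenius
element of a prime is the eigenvalue away from the level, `a (ℓ + 1)` at a residually ramified prime
exactly dividing the level, and `a + q / a` at an old prime exactly dividing it.
-/

set_option autoImplicit false

noncomputable section

open IsLocalRing Matrix

namespace Fermat.Agent.TwoAdic.Final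

open HeckeModule EigenSystems Engine.TRep HeckeJ0 LevelRaising Fermat.Agent.EigenRep
  Fermat.Agent.DefRing

local notation "Ω" => AlgebraicClosure ℚ
local notation "GQ" => (AlgebraicClosure ℚ) ≃ₐ[ℚ] (AlgebraicClosure ℚ)

variable [Fact (Nat.Prime 2)] {O : Type} [CommRing O] [IsDomain O] [IsDiscreteValuationRing O]
  [IsAdicComplete (maximalIdeal O) O] [CharZero O]
  {S : Finset ℕ} {a : Nat.Primes → O} {ρ : GaloisRepAdic O}
  (h2 : ((2 : ℕ) : O) ∈ maximalIdeal O)
  (hfrob : ∀ (ℓ : ℕ) (hℓ : ℓ.Prime), ℓ ∉ S → ∀ A : ValuationSubring Ω, A.LiesOverPrime ℓ →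
    ∀ σ : GQ, A.IsFrobeniusAt σ ℓ → ρ.trace σ = a ⟨ℓ, hℓ⟩)
  {K : Type} [Field K] [CharZero K] [Algebra O K] [IsFractionRing O K]
  {L : ℕ} [NeZero L] (hS : ∀ ℓ : ℕ, ℓ.Prime → ℓ ∣ L * 2 → ℓ ∈ S)
  {r : ℕ} [hr : Fact r.Prime] (hr1 : (r : ZMod L) = 1) (hrS : r ∉ S)
  (hne : a ⟨r, hr.out⟩ ≠ (r : O) + 1)

omit [CharZero K] in
include h2 hfrob hS hr1 hrS hne in
/-- **The trace at a prime away from the level.** -/
theorem trace_eq_of_class {c : Coh1 (trivRep L K K)} (hc0 : c ≠ 0)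
    (hc : ∀ l : Nat.Primes, ¬ (l : ℕ) ∣ L * 2 → heckeGen _ l c = algebraMap O K (a l) • c)
    {l : ℕ} (hl : l.Prime) (hlL : ¬ l ∣ L * 2) {A : ValuationSubring Ω} (hA : A.LiesOverPrime l)
    {σ : GQ} (hσ : A.IsFrobeniusAt σ l) : ρ.trace σ = a ⟨l, hl⟩ := by
  classical
  let hes := SemistableRed.allRelations L 2
  let S₁ := (L * 2).primeFactors
  have h0 : L * 2 ≠ 0 := mul_ne_zero (NeZero.ne L) two_ne_zero
  have hS₁ : ∀ q : ℕ, q.Prime → (q ∈ S₁ ↔ q ∣ L * 2) := fun q hq => by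
    simp [S₁, Nat.mem_primeFactors, hq, h0]
  have hrS₁ : r ∉ S₁ := fun h => hrS (hS r hr.out ((hS₁ r hr.out).mp h))
  obtain ⟨-, v, -, hv0, -, hv⟩ := TSide.exists_eigenSub_of_class (L := K) hes hr1 hrS₁ hne hc0
    fun q hq => hc q fun h => hq ((hS₁ q q.2).mpr h)
  have hvS : v ∈ eigenSub (Engine.TRep.stdInputs hes).model (↑S : Set ℕ) a :=
    (mem_eigenSub _).mpr fun q hq => (mem_eigenSub _).mp hv q fun h =>
      hq (Finset.mem_coe.mpr (hS q q.2 ((hS₁ q q.2).mp (Finset.mem_coe.mp h))))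
  have hT : matEnd (stdInputs hes) (padicHom 2 h2) (tMat (stdInputs hes) σ) v = ρ.trace σ • v := by
    rw [← quadratic_of_trace (stdInputs hes) h2 S a ρ hfrob σ hvS, tMat, map_add,
      LinearMap.add_apply, matEnd_smul, LinearMap.smul_apply]
    rfl
  rw [tMat_frobenius (stdInputs hes) hl hlL hA hσ, matEnd_apply] at hT
  exact smul_left_injective O hv0 (hT.symm.trans ((congrArg (· *ᵥ v) (map_heckeMat _ _ _)).trans
    ((mem_eigenSub _).mp hv ⟨l, hl⟩ fun h => hlL ((hS₁ l hl).mp (Finset.mem_coe.mp h)))))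

include h2 hfrob hS hr1 hrS hne in
/-- **The trace at an old prime exactly dividing the level.** -/
theorem trace_mul_of_old {q N : ℕ} [hq : Fact q.Prime] [NeZero N] (hL : L = q * N) (hqN : ¬ q ∣ N)
    (hq2 : q ≠ 2) (hu : IsUnit (a ⟨q, hq.out⟩)) (hne1 : a ⟨q, hq.out⟩ * a ⟨q, hq.out⟩ ≠ 1)
    {c : Coh1 (trivRep L K K)} (hc0 : c ≠ 0)
    (hc : ∀ l : Nat.Primes, heckeGen _ l c = algebraMap O K (a l) • c)
    {A : ValuationSubring Ω} (hA : A.LiesOverPrime q) {σ : GQ} (hσ : A.IsFrobeniusAt σ q) :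
    ρ.trace σ * a ⟨q, hq.out⟩ = a ⟨q, hq.out⟩ * a ⟨q, hq.out⟩ + (q : O) := by
  classical
  subst hL
  have hinj : Function.Injective (algebraMap O K) := IsFractionRing.injective O K
  set β := a ⟨q, hq.out⟩
  obtain ⟨γ, hγ⟩ := hu.exists_right_inv
  obtain ⟨x, hx0, hxT, hx⟩ := exists_old_class hqN hr1
    (e := algebraMap O K (a ⟨r, hr.out⟩))
    (fun h => hne (hinj (by rw [h, map_add, map_natCast, map_one]))) hc0
    (α := algebraMap O K β) ((map_ne_zero_iff _ hinj).mpr hu.ne_zero)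
    (fun h => hne1 (hinj (by rw [map_mul, h, map_one]))) (hc ⟨q, hq.out⟩) (hc ⟨r, hr.out⟩)
  let b : Nat.Primes → O := Function.update a ⟨q, hq.out⟩ (β + q * γ)
  have hqS : q ∈ S := hS q hq.out ((dvd_mul_right q N).mul_right 2)
  have hrN : (r : ZMod N) = 1 := by
    have := congrArg (ZMod.castHom (dvd_mul_left N q) (ZMod N)) hr1
    rwa [map_natCast, map_one] at this
  have hrq : (⟨r, hr.out⟩ : Nat.Primes) ≠ ⟨q, hq.out⟩ := fun h =>
    hrS (by rw [show r = q from congrArg (fun l : Nat.Primes => (l : ℕ)) h]; exact hqS)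
  have h := trace_eq_of_class (a := b) h2 (fun ℓ hℓ hℓS A hA τ hτ => by
      rw [show b ⟨ℓ, hℓ⟩ = a ⟨ℓ, hℓ⟩ from Function.update_of_ne
        (fun h => hℓS (by rw [show ℓ = q from congrArg (fun l : Nat.Primes => (l : ℕ)) h]; exact
            hqS)) _ _]
      exact hfrob ℓ hℓ hℓS A hA τ hτ)
    (L := N) (fun ℓ hℓ h => hS ℓ hℓ (h.trans (mul_dvd_mul_right (dvd_mul_left N q) 2))) hrN hrS
    (by rw [show b ⟨r, hr.out⟩ = a ⟨r, hr.out⟩ from Function.update_of_ne hrq _ _]; exact hne) hx0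
    (fun l hl => ?_) hq.out (fun h => ?_) hA hσ
  · rw [h, show b ⟨q, hq.out⟩ = β + q * γ from Function.update_self _ _ _]
    linear_combination (q : O) * hγ
  · have : Fact (l : ℕ).Prime := ⟨l.2⟩
    show heckeOp _ (l : ℕ) x = _
    by_cases hlq : (l : ℕ) = q
    · obtain rfl : l = ⟨q, hq.out⟩ := Subtype.ext hlq
      rw [show b ⟨q, hq.out⟩ = β + q * γ from Function.update_self _ _ _, hxT]
      refine congrArg (· • x) ?_
      rw [map_add, map_mul, map_natCast, div_eq_mul_inv,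
        inv_eq_of_mul_eq_one_right (b := algebraMap O K γ) (by rw [← map_mul, hγ, map_one])]
    · rw [show b l = a l from Function.update_of_ne (fun h => hlq (congrArg Subtype.val h)) _ _]
      refine hx (l : ℕ) _ (fun h => hl ?_) (hc l)
      rcases l.2.dvd_mul.mp h with h | h
      · exact absurd ((Nat.prime_dvd_prime_iff_eq l.2 hq.out).mp h) hlq
      · exact h.mul_right 2
  · rcases hq.out.dvd_mul.mp h with h | h
    · exact hqN h
    · exact hq2 ((Nat.prime_dvd_prime_iff_eq hq.out Nat.prime_two).mp h)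

include h2 hfrob hS hr1 hrS hne in
/-- **The trace at a residually ramified prime exactly dividing the level.** -/
theorem trace_eq_of_ramified {q N : ℕ} [hq : Fact q.Prime] [NeZero N] (hL : L = q * N)
    (hqN : ¬ q ∣ N) (hq2 : q ≠ 2)
    (hdet : ∀ τ, LinearMap.det (ρ.ρ τ) = padicHom 2 h2 (epsilonPadic 2 τ : ℤ_[2]))
    (hirr : ∃ g h, IsUnit (matrixRep ρ (repBasis ρ) g * matrixRep ρ (repBasis ρ) h -
      matrixRep ρ (repBasis ρ) h * matrixRep ρ (repBasis ρ) g).det)
    (hram : ∃ A : ValuationSubring Ω, A.LiesOverPrime q ∧ ∃ τ ∈ A.inertiaSubgroupIn ℚ,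
      (matrixRep ρ (repBasis ρ) τ).map (residue O) ≠ 1)
    (c : Coh1 (scalarRep (levelChar (one_dvd L) (1 : (ZMod 1)ˣ →* K)) K)) (hc0 : c ≠ 0)
    (hc : ∀ l : Nat.Primes, heckeGen _ l c = algebraMap O K (a l) • c)
    {A : ValuationSubring Ω} (hA : A.LiesOverPrime q) {σ : GQ} (hσ : A.IsFrobeniusAt σ q) :
    ρ.trace σ = a ⟨q, hq.out⟩ * ((q : O) + 1) := by
  classical
  subst hL
  have : NeZero q := ⟨hq.out.ne_zero⟩
  have hinj : Function.Injective (algebraMap O K) := IsFractionRing.injective O K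
  have hrN : (r : ZMod N) = 1 := by
    have := congrArg (ZMod.castHom (dvd_mul_left N q) (ZMod N)) hr1
    rwa [map_natCast, map_one] at this
  -- the class has no lower level part
  have ht : charTraceTwist K (one_dvd N) (1 : (ZMod 1)ˣ →* K) hqN (one_dvd (q * N)) c = 0 := by
    by_contra ht
    let e := TSide.levelRep_eq (A := K) (one_dvd N) (1 : (ZMod 1)ˣ →* K) rfl
    have hcl : ∀ l : Nat.Primes, (l : ℕ) ∉ S →
        heckeGen _ l (castCoh e (charTraceTwist K (one_dvd N) (1 : (ZMod 1)ˣ →* K) hqN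
            (one_dvd (q * N)) c)) =
          algebraMap O K (a l) • castCoh e (charTraceTwist K (one_dvd N) (1 : (ZMod 1)ˣ →* K) hqN
              (one_dvd (q * N)) c) :=
      fun l hl => by
        have : Fact (l : ℕ).Prime := ⟨l.2⟩
        show heckeOp _ (l : ℕ) _ = _
        rw [← castCoh_heckeOp e (l : ℕ), ← charTraceTwist_heckeOp (one_dvd N) (1 : (ZMod 1)ˣ →* K)
            hqN (one_dvd (q * N))
          (fun h => hl (hS _ l.2 (h.mul_right 2))), show heckeOp _ (l : ℕ) c = algebraMap O K (a l)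
              • c
          from hc l, map_smul, map_smul]
    obtain ⟨-, v, -, hv0, -, hv⟩ := TSide.exists_eigenSub_of_class (L := K)
      (SemistableRed.allRelations N 2) hrN hrS hne
      (fun h => ht ((castCoh e).injective (h.trans (map_zero _).symm))) hcl
    obtain ⟨g, h, hgh⟩ := hirr
    obtain ⟨B, hB, τ, hτ, hτ1⟩ := hram
    refine hτ1 ?_
    rw [TSide.matrixRep_inertia_eq_one S a ρ h2 hdet hfrob ⟨g, h, hgh.ne_zero⟩ hqN hq2
      (stdInputs (SemistableRed.allRelations N 2)) hv0 hv hB hτ]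
    exact Matrix.map_one _ (map_zero _) (map_one _)
  have hW : IsALPrimes (q * N) {q} := isALPrimes_self hqN
  set β := a ⟨q, hq.out⟩
  have hw : alOp K hW (Finset.mem_singleton_self q) (one_dvd (q * N)) (1 : (ZMod 1)ˣ →* K)
      (Nat.coprime_one_right q) 1 c
      = -(algebraMap O K β • c) := by
    have h := heckeOp_add_wSelf hqN (one_dvd N) (one_dvd (q * N)) (1 : (ZMod 1)ˣ →* K) rfl c
    rw [ht, map_zero, show heckeOp _ q c = algebraMap O K β • c from hc ⟨q, hq.out⟩] at h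
    exact eq_neg_of_add_eq_zero_right h
  have hsq : β * β = 1 := by
    have h := alOp_alOp hW (Finset.mem_singleton_self q) (one_dvd (q * N)) (1 : (ZMod 1)ˣ →* K)
        (Nat.coprime_one_right q)
      (1 : K) (by simp) c
    rw [hw, map_neg, map_smul, hw, smul_neg, neg_neg, smul_smul, ← map_mul] at h
    refine hinj (sub_eq_zero.mp ((smul_eq_zero.mp (?_ : _ • c = 0)).resolve_right hc0))
    rw [map_one, sub_smul, one_smul, h, sub_self]
  obtain ⟨s, hs, hsβ⟩ : ∃ s : ℤ, (s = 1 ∨ s = -1) ∧ β = (s : O) := by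
    rcases mul_self_eq_one_iff.mp hsq with h | h
    · exact ⟨1, Or.inl rfl, by rw [h, Int.cast_one]⟩
    · exact ⟨-1, Or.inr rfl, by rw [h, Int.cast_neg, Int.cast_one]⟩
  have h := isSignedNewAt_of_ramified (S := S) rfl hqN hq2 h2 hdet hfrob hirr
    (hS 2 Nat.prime_two (dvd_mul_left 2 _)) (fun ℓ hℓ h => hS ℓ hℓ (h.mul_right 2)) hr1 hrS hne c
        hc0
    (fun l _ => hc l) s hs (fun hW' => by rw [hw, hsβ, map_intCast]) hram A hA σ hσ
  rw [h.1, hsβ]

end Fermat.Agent.TwoAdic.Final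

end
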