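import Fermat.Agent.TwoAdic.Final.Image
import Fermat.Agent.TwoAdic.Final.Values
import Fermat.Agent.TwoAdic.Final.Extend
import Fermat.Agent.SquareOld.NonEisenstein

/-!
# The final ring spans the Hecke image up to denominators
-/

set_option autoImplicit false
-- the linter alone takes seconds on the proof terms of this file
set_option linter.unusedSectionVars false

noncomputable section

open IsLocalRing

namespace Fermat.Agent.TwoAdic.Final

open HeckeModule EigenSystems HeckeJ0 LevelRaising Fermat.Agent.DefRing Engine.TRep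
  Fermat.Agent.EigenRep
open TwoAdic.C0 (HeckeImage)

local notation "Ω" => AlgebraicClosure ℚ
local notation "GQ" => (AlgebraicClosure ℚ) ≃ₐ[ℚ] (AlgebraicClosure ℚ)

/-- The residue of an image is the image of the reduction. -/
theorem residue_map_eq {O R A : Type} [CommRing O] [IsLocalRing O] [CommRing R] [IsLocalRing R]
    [Algebra O R] [IsLocalHom (algebraMap O R)] (hs : Function.Surjective
        (residue R ∘ algebraMap O R))
    [CommRing A] [IsLocalRing A] [Algebra O A] [IsLocalHom (algebraMap O A)] (f : R →ₐ[O] A)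
    (hf : IsLocalHom (f : R →+* A)) (x : R) :
    residue A (f x) = ResidueField.map (algebraMap O A) (toResidue inferInstance hs x) := by
  obtain ⟨o, ho⟩ := exists_algebraMap_add_mem hs x
  have h1 : toResidue inferInstance hs x = residue O o := by
    have h := (toResidue_eq_zero_iff inferInstance hs).mpr ho
    rw [map_sub, sub_eq_zero, AlgHom.commutes] at h
    exact h
  rw [h1, ResidueField.map_residue, ← sub_eq_zero, ← map_sub, residue_eq_zero_iff, ← f.commutes o,
    ← map_sub]
  exact (mem_maximalIdeal _).mpr fun hu => (mem_maximalIdeal _).mp ho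
    (isUnit_of_map_unit (f : R →+* A) _ hu)

variable {O : Type} [CommRing O] [IsDomain O] [IsDiscreteValuationRing O]
  [IsAdicComplete (maximalIdeal O) O] [Finite (ResidueField O)] [CharP (ResidueField O) 2]
  [CharZero O]
  {res : NormalData O} {E : LiftData} {W : Finset ℕ} {M : ℕ} [NeZero M] {S₀ : Finset ℕ}
  {S' : Set ℕ} (m : Ideal (AwayPoly O S')) [m.IsPrime] (hH : FinalHyp res E W M S₀ m)
  (C : Submodule (HeckePoly O) (CohLoc (awayMonoid m) (oneRep O O (2 * M))))
  [Module.Finite O C] [Module.Free O C] [Nontrivial C]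
  [Module.Finite O (CohLoc (awayMonoid m) (oneRep O O (2 * M)))]
  [Module.Free O (CohLoc (awayMonoid m) (oneRep O O (2 * M)))]
  (hG : GenHyp E W M m C)
  (hE : ExactHyp (awayMonoid m) (1 : (ZMod (2 * M))ˣ →* O))
  (hW : IsALPrimes (2 * M) (E.D.primeFactors.erase E.ℓ₀))
  (hWS : ∀ e ∈ E.D.primeFactors.erase E.ℓ₀, e ∈ S')
  (hC : ∀ y ∈ C, ∀ e ∈ E.D.primeFactors.erase E.ℓ₀,
    alOneLoc O hW (fun e => -(E.sgn e : O)) (isAway_awayMonoid m) hWS e y = y)

include hH in
/-- The residue of a point at a generator in the prime of a core prime. -/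
theorem residue_point_core {O' : Type} [CommRing O'] [IsLocalRing O'] [Algebra O O']
    [IsLocalHom (algebraMap O O')] (θ : HeckeImage O C →ₐ[O] O') {q : ℕ} (hq : q.Prime)
    (h : q ∉ S') {o : O} (hm : MvPolynomial.X (⟨⟨q, hq⟩, h⟩ : AwayIndex S') - MvPolynomial.C o ∈ m)
        :
    residue O' (θ (Ideal.Quotient.mk _ (MvPolynomial.X ⟨q, hq⟩))) =
      ResidueField.map (algebraMap O O') (residue O o) := by
  have h0 := residue_image_eq_zero m C θ hm
  rw [map_sub, awayIncl_X, ← MvPolynomial.algebraMap_eq, AlgHom.commutes, map_sub,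
    Ideal.Quotient.mk_algebraMap, map_sub, AlgHom.commutes, map_sub, sub_eq_zero] at h0
  rw [ResidueField.map_residue]
  exact h0

include hH hG hE in
/-- **Traces at the primes of the bad set at a point.** -/
theorem values_point {h : Pair.IsResidualPair res E W ∅} (U : (Pair.pairFunctor h).UniversalPoint)
    (φ : U.R →ₐ[O] FinalRing (↑S₀ : Set ℕ) C)
    (hφt : ∀ l : AwayIndex (↑S₀ : Set ℕ), ((l : Nat.Primes) : ℕ) ≠ 2 →
      ∀ A : ValuationSubring Ω, A.LiesOverPrime ((l : Nat.Primes) : ℕ) →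
        ∀ σ : GQ, A.IsFrobeniusAt σ ((l : Nat.Primes) : ℕ) →
          φ (Matrix.trace (Pair.uRep U σ)) = Ideal.Quotient.mk _ (MvPolynomial.X l))
    {O' : Type} [CommRing O'] [IsDomain O'] [IsDiscreteValuationRing O']
    [IsAdicComplete (maximalIdeal O') O'] [Finite (ResidueField O')] [CharZero O']
    [Algebra O O'] [Module.Finite O O'] [IsLocalHom (algebraMap O O')]
    (θ : HeckeImage O C →ₐ[O] O') (q : ℕ) (hq : q.Prime) (hq2 : q ≠ 2)
    (A : ValuationSubring Ω) (hA : A.LiesOverPrime q) (σ : GQ) (hσ : A.IsFrobeniusAt σ q) :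
    (¬ q ∣ M → θ (finalToImage _ C (φ (Matrix.trace (Pair.uRep U σ)))) =
        θ (Ideal.Quotient.mk _ (MvPolynomial.X ⟨q, hq⟩))) ∧
    (q = E.ℓ₀ → θ (finalToImage _ C (φ (Matrix.trace (Pair.uRep U σ)))) =
        θ (Ideal.Quotient.mk _ (MvPolynomial.X ⟨q, hq⟩)) * ((q : O') + 1)) ∧
    (q ∣ M → ¬ q ∣ E.D → q ∉ W →
      θ (finalToImage _ C (φ (Matrix.trace (Pair.uRep U σ)))) *
          θ (Ideal.Quotient.mk _ (MvPolynomial.X ⟨q, hq⟩)) =
        θ (Ideal.Quotient.mk _ (MvPolynomial.X ⟨q, hq⟩)) *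
          θ (Ideal.Quotient.mk _ (MvPolynomial.X ⟨q, hq⟩)) + (q : O')) := by
  classical
  have : Fact (Nat.Prime 2) := ⟨Nat.prime_two⟩
  have : Fact q.Prime := ⟨hq⟩
  have : NeZero (2 * M) := ⟨mul_ne_zero two_ne_zero (NeZero.ne M)⟩
  have hD0 : 0 < E.D := by have := E.mod_eight; omega
  have h2D : ¬ 2 ∣ E.D := by have := E.mod_eight; omega
  let ψ : ResidueField O →+* ResidueField O' := ResidueField.map (algebraMap O O')
  have : CharP (ResidueField O') 2 := charP_of_injective_ringHom ψ.injective 2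
  have h2' : ((2 : ℕ) : O') ∈ maximalIdeal O' := by
    rw [← residue_eq_zero_iff, map_natCast]; exact CharP.cast_eq_zero _ 2
  have hOinj : Function.Injective (algebraMap O O') := injective_algebraMap_of_charZero
  -- the representation of the point
  let f : U.R →ₐ[O] O' := θ.comp ((finalToImage (↑S₀ : Set ℕ) C).comp φ)
  have hf : IsLocalHom (f : U.R →+* O') := isLocalHom_of_finite_residue f
  have hU := (Pair.isPair_universal U).isDef
  obtain ⟨hc, hcond⟩ := hU.exists_cont
  let ρ : GaloisRepAdic O' := toAdic (mapRep (f : U.R →+* O') (Pair.uRep U)) (hc.map _ hf)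
  have hpc : E.pairCond W ∅ O ρ :=
    pairCond_mapRep (f : U.R →+* O') hf E W ∅ (Pair.uRep U) hc hcond
  have hdet : ∀ τ, LinearMap.det (ρ.ρ τ) = padicHom 2 h2' (epsilonPadic 2 τ : ℤ_[2]) :=
    SquareOld.det_eq_padicHom hpc.1
  have htrρ : ∀ τ, ρ.trace τ = f (Matrix.trace (Pair.uRep U τ)) := fun τ =>
    (TSide.trace_toAdic_eq _ _ τ).trans (Engine.trace_mapRep (f : U.R →+* O') (Pair.uRep U) τ)
  let a : Nat.Primes → O' := fun l => θ (Ideal.Quotient.mk _ (MvPolynomial.X l))
  let S : Finset ℕ := insert 2 S₀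
  have hS : ∀ ℓ : ℕ, ℓ.Prime → ℓ ∣ 2 * M * 2 → ℓ ∈ S := fun ℓ hℓ h => by
    rcases hℓ.dvd_mul.mp h with h | h
    · rcases hℓ.dvd_mul.mp h with h | h
      · exact Finset.mem_insert.mpr (Or.inl ((Nat.prime_dvd_prime_iff_eq hℓ Nat.prime_two).mp h))
      · exact Finset.mem_insert_of_mem (hH.mem ℓ hℓ h)
    · exact Finset.mem_insert.mpr (Or.inl ((Nat.prime_dvd_prime_iff_eq hℓ Nat.prime_two).mp h))
  have hfrob : ∀ (ℓ : ℕ) (hℓ : ℓ.Prime), ℓ ∉ S → ∀ A : ValuationSubring Ω, A.LiesOverPrime ℓ →
      ∀ τ : GQ, A.IsFrobeniusAt τ ℓ → ρ.trace τ = a ⟨ℓ, hℓ⟩ := fun ℓ hℓ hℓS A hA τ hτ => by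
    rw [Finset.mem_insert, not_or] at hℓS
    let l : AwayIndex (↑S₀ : Set ℕ) := ⟨⟨ℓ, hℓ⟩, Finset.mem_coe.not.mpr hℓS.2⟩
    rw [htrρ]
    show θ (finalToImage _ C (φ _)) = _
    rw [hφt l hℓS.1 A hA τ hτ, finalToImage_mk_X]
  -- the residual representation
  have hresid : ∀ τ, (mapRep (f : U.R →+* O') (Pair.uRep U) τ).map (residue O') =
      (res.rbar τ).map ψ := fun τ => by
    ext i j
    have h1 : toResidue U.instIsLocalHom U.residue_surjective (Pair.uRep U τ i j) = res.rbar τ i j
        :=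
      congrFun (congrFun (DFunLike.congr_fun hU.reduces τ) i) j
    rw [Matrix.map_apply, Matrix.map_apply, mapRep_apply, Matrix.map_apply, ← h1]
    exact residue_map_eq U.residue_surjective f hf _
  have hmat : IsResidualMat ρ (mapRep ψ res.rbar) := by
    obtain ⟨g, hg⟩ := (exists_equiv_iff_exists_GL (repBasis ρ)
      (toAdicBasis (mapRep (f : U.R →+* O') (Pair.uRep U)) (hc.map _ hf))
      (fun τ => ρ.ρ τ) (fun τ => ρ.ρ τ)).mp ⟨LinearEquiv.refl _ _, fun _ _ => rfl⟩
    refine ⟨Units.map (residue O').mapMatrix.toMonoidHom g, fun τ => ?_⟩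
    have h := congrArg (fun X => (residue O').mapMatrix X) (hg τ)
    simp only [map_mul] at h
    rw [show LinearMap.toMatrix (toAdicBasis (mapRep (f : U.R →+* O') (Pair.uRep U)) (hc.map _ hf))
      _ (ρ.ρ τ) = mapRep (f : U.R →+* O') (Pair.uRep U) τ from
        TSide.toMatrix_toAdic _ _ τ] at h
    refine h.trans ?_
    congr 1
    exact hresid τ
  obtain ⟨g₀, h₀, hgh₀⟩ := hH.dihedral.exists_commutator_det_ne_zero hD0
  have hirr : ∃ g h, IsUnit (matrixRep ρ (repBasis ρ) g * matrixRep ρ (repBasis ρ) h -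
      matrixRep ρ (repBasis ρ) h * matrixRep ρ (repBasis ρ) g).det := by
    refine ⟨g₀, h₀, hmat.exists_commutator_residual ?_⟩
    rw [show mapRep ψ res.rbar g₀ * mapRep ψ res.rbar h₀ - mapRep ψ res.rbar h₀ * mapRep ψ res.rbar
        g₀ =
      ψ.mapMatrix (res.rbar g₀ * res.rbar h₀ - res.rbar h₀ * res.rbar g₀) by
        simp only [map_sub, map_mul]; rfl, ← RingHom.map_det]
    exact (map_ne_zero ψ).mpr hgh₀
  -- the Eisenstein prime
  obtain ⟨r, hr, hrS, hr1, hrtr⟩ := exists_orderThree_one_mod hH.dihedral hH.cont hD0 (2 * M) S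
  have := Fact.mk hr
  have hne : a ⟨r, hr⟩ ≠ (r : O') + 1 := fun h => by
    obtain ⟨B, τ, hB, hτ⟩ := Fermat.Agent.Frobenius.exists_liesOverPrime_and_isFrobeniusAt_qbar hr
    have h1 := congrArg (residue O') ((hfrob r hr hrS B hB τ hτ).trans h)
    rw [show residue O' (ρ.trace τ) = ψ (res.rbar τ).trace by
      rw [htrρ, residue_map_eq U.residue_surjective f hf]
      exact congrArg ψ ((AddMonoidHom.map_trace
        (toResidue U.instIsLocalHom U.residue_surjective : U.R →+* ResidueField O).toAddMonoidHom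
            _).trans
          (congrArg Matrix.trace (DFunLike.congr_fun hU.reduces τ))),
      hrtr B hB τ hτ, map_one, map_add, map_natCast, map_one] at h1
    obtain ⟨k, hk⟩ := hr.odd_of_ne_two fun h2 => hrS (h2 ▸ Finset.mem_insert_self 2 S₀)
    rw [hk] at h1
    push_cast at h1
    rw [CharTwo.two_eq_zero (R := ResidueField O'), zero_mul, zero_add] at h1
    exact one_ne_zero (α := ResidueField O') (by linear_combination -h1)
  -- the class of the point
  let K := FractionRing O'
  have : CharZero K := charZero_of_injective_algebraMap (IsFractionRing.injective O' K)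
  have : FaithfulSMul O K := (faithfulSMul_iff_algebraMap_injective O K).mpr (by
    rw [IsScalarTower.algebraMap_eq O O' K, RingHom.coe_comp]
    exact (IsFractionRing.injective O' K).comp hOinj)
  let φK : FinalRing (∅ : Set ℕ) C →ₐ[O] K :=
    { (algebraMap O' K).comp ((θ.comp (finalToImage (∅ : Set ℕ) C) :
        FinalRing (∅ : Set ℕ) C →ₐ[O] O') : FinalRing (∅ : Set ℕ) C →+* O') with
      commutes' := fun o => (congrArg (algebraMap O' K)
        ((θ.comp (finalToImage (∅ : Set ℕ) C)).commutes o)).trans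
          (IsScalarTower.algebraMap_apply O O' K o).symm }
  obtain ⟨u, Q₀, hu0, hu, -⟩ := exists_eigen_class m C (1 : (ZMod (2 * M))ˣ →* O) rfl hE φK
  have hχ : scalarRep (((algebraMap O K : O →+* K) : O →* K).comp (1 : (ZMod (2 * M))ˣ →* O)) K =
      scalarRep (levelChar (one_dvd (2 * M)) (1 : (ZMod 1)ˣ →* K)) K := by
    congr 1
    ext v
    exact map_one (algebraMap O K)
  set c := castCoh hχ (awayIncl K (∅ : Set ℕ) Q₀ • TSide.pushCoh (algebraMap O K) 1 u) with hcdef
  have hc0 : c ≠ 0 := fun h => hu0 ((castCoh hχ).injective (h.trans (map_zero _).symm))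
  have hcl : ∀ l : Nat.Primes, heckeGen _ l c = algebraMap O' K (a l) • c := fun l => by
    have : Fact (l : ℕ).Prime := ⟨l.2⟩
    show heckeOp _ (l : ℕ) _ = _
    rw [hcdef, ← castCoh_heckeOp hχ (l : ℕ), show heckeOp _ (l : ℕ)
      (awayIncl K (∅ : Set ℕ) Q₀ • TSide.pushCoh (algebraMap O K) 1 u) =
        φK (Ideal.Quotient.mk _ (MvPolynomial.X ⟨l, Set.notMem_empty _⟩)) •
          (awayIncl K (∅ : Set ℕ) Q₀ • TSide.pushCoh (algebraMap O K) 1 u) from
      hu ⟨l, Set.notMem_empty _⟩, map_smul]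
    refine congrArg (· • _) ?_
    show algebraMap O' K (θ (finalToImage _ C _)) = _
    rw [finalToImage_mk_X]
  let e := TSide.levelRep_eq (A := K) (one_dvd (2 * M)) (1 : (ZMod 1)ˣ →* K) rfl
  have hcl' : ∀ l : Nat.Primes, heckeGen _ l (castCoh e c) = algebraMap O' K (a l) • castCoh e c :=
    fun l => by
      have : Fact (l : ℕ).Prime := ⟨l.2⟩
      show heckeOp _ (l : ℕ) _ = _
      rw [← castCoh_heckeOp e (l : ℕ) c]
      exact (congrArg (castCoh e) (hcl l)).trans (map_smul _ _ _)
  have hc0' : castCoh e c ≠ 0 := fun h => hc0 ((castCoh e).injective (h.trans (map_zero _).symm))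
  have htr : θ (finalToImage _ C (φ (Matrix.trace (Pair.uRep U σ)))) = ρ.trace σ := (htrρ σ).symm
  rw [htr]
  refine ⟨fun hqM => ?_, fun hq0 => ?_, fun hqM hqD hqW => ?_⟩
  · refine trace_eq_of_class h2' hfrob hS hr1 hrS hne hc0' (fun l _ => hcl' l) hq (fun h => ?_) hA
        hσ
    rcases hq.dvd_mul.mp h with h | h
    · exact (hq.dvd_mul.mp h).elim
        (fun h => hq2 ((Nat.prime_dvd_prime_iff_eq hq Nat.prime_two).mp h)) hqM
    · exact hq2 ((Nat.prime_dvd_prime_iff_eq hq Nat.prime_two).mp h)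
  · have hqD : q ∣ E.D := hq0 ▸ E.dvd_ℓ₀
    obtain ⟨⟨N, hN⟩, hqq⟩ := hH.dvd_D q hq hqD
    have : NeZero (2 * N) :=
      ⟨mul_ne_zero two_ne_zero fun h => NeZero.ne M (by rw [hN, h, mul_zero])⟩
    refine trace_eq_of_ramified h2' hfrob hS hr1 hrS hne (q := q) (N := 2 * N) (by rw [hN]; ring)
      (fun h => ?_) hq2 hdet hirr ?_ c hc0 hcl hA hσ
    · rcases hq.dvd_mul.mp h with h | h
      · exact hq2 ((Nat.prime_dvd_prime_iff_eq hq Nat.prime_two).mp h)
      · exact hqq (hN ▸ Nat.mul_dvd_mul_left q h)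
    · obtain ⟨τ₀, hτ₀⟩ := TameInertia.exists_tameGenerator Nat.prime_two hq hq2.symm hA
      refine ⟨A, hA, τ₀, hτ₀.1, fun h1 => (Selmer.inertia_image hH.dihedral E.squarefree
        (Nat.odd_iff.mpr (by have := E.mod_eight; omega)) hq hqD hA hτ₀).1.2 ?_⟩
      refine Matrix.map_injective ψ.injective ?_
      show (res.rbar τ₀).map ψ = (1 : Matrix (Fin 2) (Fin 2) (ResidueField O)).map ψ
      rw [show (1 : Matrix (Fin 2) (Fin 2) (ResidueField O)).map ψ = 1 from
        Matrix.map_one ψ (map_zero _) (map_one _)]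
      exact (hmat.eq_one_iff τ₀).mp h1
  · obtain ⟨hqq, -⟩ := hH.core q hq hqM hqD hqW
    obtain ⟨hqS, o, ho, hm⟩ := hG.core q hq hqM hqD hqW
    obtain ⟨N, hN⟩ := hqM
    have : NeZero (2 * N) :=
      ⟨mul_ne_zero two_ne_zero fun h => NeZero.ne M (by rw [hN, h, mul_zero])⟩
    have hβ : residue O' (a ⟨q, hq⟩) = ψ (residue O o) := residue_point_core m hH C θ hq hqS hm
    have ht : ψ (residue O o) * ψ (residue O o) + ψ (residue O o) + 1 = 0 := by
      rw [← map_mul, ← map_add, ← map_one ψ, ← map_add, ho, map_zero]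
    refine trace_mul_of_old h2' hfrob hS hr1 hrS hne (q := q) (N := 2 * N) (by rw [hN]; ring)
      (fun h => ?_) hq2 (notMem_maximalIdeal.mp fun h => ?_) (fun h => ?_) hc0' hcl' hA hσ
    · rcases hq.dvd_mul.mp h with h | h
      · exact hq2 ((Nat.prime_dvd_prime_iff_eq hq Nat.prime_two).mp h)
      · exact hqq (hN ▸ Nat.mul_dvd_mul_left q h)
    · rw [← residue_eq_zero_iff, hβ] at h
      rw [h, mul_zero, add_zero, zero_add] at ht
      exact one_ne_zero ht
    · have h1 := congrArg (residue O') h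
      rw [map_mul, hβ, map_one] at h1
      have h0 : ψ (residue O o) = 0 := by
        linear_combination ht - h1 - CharTwo.two_eq_zero (R := ResidueField O')
      rw [h0, mul_zero] at h1
      exact zero_ne_one h1

include hH hG hE hW hWS hC in
/-- **The maps of the final step.** -/
theorem exists_finalMaps (hz : ∃ z : ResidueField O, z * z + z + 1 = 0)
    {h : Pair.IsResidualPair res E W ∅} (U : (Pair.pairFunctor h).UniversalPoint) :
    ∃ φ : U.R →ₐ[O] FinalRing (↑S₀ : Set ℕ) C, Function.Surjective φ ∧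
      φ (Pair.uRoot U) = Ideal.Quotient.mk _ (MvPolynomial.X (twoIndex hH.two_notMem)) ∧
      (∀ l : AwayIndex (↑S₀ : Set ℕ), ((l : Nat.Primes) : ℕ) ≠ 2 →
        ∀ A : ValuationSubring Ω, A.LiesOverPrime ((l : Nat.Primes) : ℕ) →
          ∀ σ : GQ, A.IsFrobeniusAt σ ((l : Nat.Primes) : ℕ) →
            φ (Matrix.trace (Pair.uRep U σ)) = Ideal.Quotient.mk _ (MvPolynomial.X l)) ∧
      ∀ t : HeckeImage O C, ∃ d : O, d ≠ 0 ∧ ∃ u, finalToImage (↑S₀ : Set ℕ) C u = d • t := by
  classical
  obtain ⟨φ, hφs, hφr, hφt⟩ := exists_surjective_final m hH C hE hW hWS hC hz U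
  refine ⟨φ, hφs, hφr, hφt, fun t => ?_⟩
  set j := finalToImage (↑S₀ : Set ℕ) C
  obtain ⟨P, rfl⟩ := Ideal.Quotient.mk_surjective t
  induction P using MvPolynomial.induction_on with
  | C o =>
    refine ⟨1, one_ne_zero, algebraMap O _ o, ?_⟩
    rw [one_smul, AlgHom.commutes, ← MvPolynomial.algebraMap_eq, Ideal.Quotient.mk_algebraMap]
  | add P Q hP hQ =>
    obtain ⟨d, hd, u, hu⟩ := hP
    obtain ⟨d', hd', u', hu'⟩ := hQ
    refine ⟨d * d', mul_ne_zero hd hd', d' • u + d • u', ?_⟩
    rw [map_add, map_smul, map_smul, hu, hu', map_add, smul_add, smul_smul, smul_smul, mul_comm d'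
        d]
  | mul_X P l hP =>
    obtain ⟨d, hd, u, hu⟩ := hP
    suffices hl : ∃ d' : O, d' ≠ 0 ∧ ∃ u',
        j u' = d' • Ideal.Quotient.mk (Module.annihilator (HeckePoly O) C) (MvPolynomial.X l) by
      obtain ⟨d', hd', u', hu'⟩ := hl
      exact ⟨d * d', mul_ne_zero hd hd', u * u', by rw [map_mul, hu, hu', smul_mul_smul_comm,
          map_mul]⟩
    obtain ⟨l, hl⟩ := l
    have : Fact l.Prime := ⟨hl⟩
    by_cases hlS : l ∉ S₀
    · exact ⟨1, one_ne_zero, Ideal.Quotient.mk _ (MvPolynomial.X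
          ⟨⟨l, hl⟩, Finset.mem_coe.not.mpr hlS⟩),
        by rw [one_smul, finalToImage_mk_X]⟩
    have hl2 : l ≠ 2 := fun h => hlS (h ▸ hH.two_notMem)
    obtain ⟨A, σ, hA, hσ⟩ := Fermat.Agent.Frobenius.exists_liesOverPrime_and_isFrobeniusAt_qbar hl
    set tr := Matrix.trace (Pair.uRep U σ) with htr
    by_cases hlD : l ∣ E.D
    · by_cases hl0 : l = E.ℓ₀
      · refine ⟨(l : O) + 1, Nat.cast_add_one_ne_zero l, φ tr, ?_⟩
        refine sub_eq_zero.mp (eq_zero_of_forall_point_image m hH C hG hE _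
          fun O' _ _ _ _ _ _ _ _ _ θ => ?_)
        rw [map_sub, map_smul, (values_point m hH C hG hE U φ hφt θ l hl hl2 A hA σ hσ).2.1 hl0,
          Algebra.smul_def, map_add, map_natCast, map_one, sub_eq_zero, mul_comm]
      · refine ⟨1, one_ne_zero, algebraMap O _ (E.sgn l : O), ?_⟩
        rw [one_smul, AlgHom.commutes, ← Ideal.Quotient.mk_algebraMap, Ideal.Quotient.eq]
        exact Module.mem_annihilator.mpr fun y => Subtype.ext (by
          rw [Submodule.coe_smul, sub_smul, algebraMap_smul, hG.sgn l hl hlD hl0 _ y.2, sub_self,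
            ZeroMemClass.coe_zero])
    by_cases hlM : l ∣ M
    swap
    · refine ⟨1, one_ne_zero, φ tr, ?_⟩
      refine sub_eq_zero.mp (eq_zero_of_forall_point_image m hH C hG hE _
        fun O' _ _ _ _ _ _ _ _ _ θ => ?_)
      rw [map_sub, one_smul, (values_point m hH C hG hE U φ hφt θ l hl hl2 A hA σ hσ).1 hlM,
          sub_self]
    by_cases hlW : l ∈ W
    · refine ⟨1, one_ne_zero, 0, ?_⟩
      rw [map_zero, one_smul, eq_comm, Ideal.Quotient.eq_zero_iff_mem]
      exact Module.mem_annihilator.mpr fun y => Subtype.ext (hG.square l hl hlM hlW _ y.2)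
    -- a core prime: a root of the universal characteristic polynomial
    obtain ⟨hlS', o, ho, hm⟩ := hG.core l hl hlM hlD hlW
    obtain ⟨-, hcoretr⟩ := hH.core l hl hlM hlD hlW
    have h2k : (2 : ResidueField O) = 0 := CharTwo.two_eq_zero
    have hlk : residue O (l : O) = 1 := by
      obtain ⟨k, hk⟩ := hl.odd_of_ne_two hl2
      rw [map_natCast, hk]; push_cast
      rw [h2k, zero_mul, zero_add]
    let π := toResidue U.instIsLocalHom U.residue_surjective
    have hπtr : π tr = 1 := by
      rw [htr, show π (Matrix.trace (Pair.uRep U σ)) = (res.rbar σ).trace from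
        (AddMonoidHom.map_trace (π : U.R →+* ResidueField O).toAddMonoidHom _).trans
          (congrArg Matrix.trace (DFunLike.congr_fun (Pair.isPair_universal U).isDef.reduces σ))]
      exact hcoretr A hA σ hσ
    let F : Polynomial U.R := Polynomial.X ^ 2 - Polynomial.C tr * Polynomial.X + Polynomial.C
        (l : U.R)
    obtain ⟨x, hx, hxo⟩ := HenselianRing.is_henselian (R := U.R) (I := maximalIdeal U.R) F
      (by simp only [F]; monicity!) (algebraMap O U.R o) (by
        rw [← toResidue_eq_zero_iff U.instIsLocalHom U.residue_surjective]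
        show π _ = 0
        simp only [F, Polynomial.eval_add, Polynomial.eval_sub, Polynomial.eval_pow,
          Polynomial.eval_mul, Polynomial.eval_X, Polynomial.eval_C, Polynomial.eval_natCast,
              map_natCast, map_add, map_sub, map_pow,
          map_mul, map_natCast, AlgHom.commutes, hπtr]
        rw [← map_natCast (residue O) l, hlk, IsLocalRing.ResidueField.algebraMap_eq]
        linear_combination ho - residue O o * h2k)
      (by
        refine (Ideal.Quotient.mk (maximalIdeal U.R)).isUnit_map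
            (notMem_maximalIdeal.mp fun hm' => ?_)
        rw [← toResidue_eq_zero_iff U.instIsLocalHom U.residue_surjective] at hm'
        change π _ = 0 at hm'
        simp [F, hπtr] at hm'
        exact one_ne_zero (α := ResidueField O) (by linear_combination -hm' + residue O o * h2k))
    refine ⟨1, one_ne_zero, φ x, ?_⟩
    refine sub_eq_zero.mp (eq_zero_of_forall_point_image m hH C hG hE _
      fun O' _ _ _ _ _ _ _ _ _ θ => ?_)
    rw [map_sub, one_smul, sub_eq_zero]
    let f : U.R →ₐ[O] O' := θ.comp (j.comp φ)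
    have hf : IsLocalHom (f : U.R →+* O') := isLocalHom_of_finite_residue f
    set β := θ (Ideal.Quotient.mk _ (MvPolynomial.X ⟨l, hl⟩)) with hβdef
    have hval : f tr * β = β * β + (l : O') :=
      (values_point m hH C hG hE U φ hφt θ l hl hl2 A hA σ hσ).2.2 hlM hlD hlW
    have hroot : f x * f x - f tr * f x + (l : O') = 0 := by
      have h0 := congrArg f (show F.eval x = 0 from hx)
      simpa [F, pow_two] using h0
    show f x = β
    let ψ := ResidueField.map (algebraMap O O')
    have hβ : residue O' β = ψ (residue O o) := residue_point_core m hH C θ hl hlS' hm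
    have hxr : residue O' (f x) = ψ (residue O o) := by
      have h0 : residue O' (f (x - algebraMap O U.R o)) = 0 := (residue_eq_zero_iff _).mpr
        ((mem_maximalIdeal _).mpr fun hu => (mem_maximalIdeal _).mp hxo
          (isUnit_of_map_unit (f : U.R →+* O') _ hu))
      rw [map_sub, map_sub, AlgHom.commutes, sub_eq_zero] at h0
      rw [h0, ResidueField.map_residue]
    have hatr : residue O' (f tr) = 1 := by
      rw [residue_map_eq U.residue_surjective f hf, show toResidue _ U.residue_surjective tr = π tr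
        from rfl, hπtr, map_one]
    have hmul : (β - f x) * (β + f x - f tr) = 0 := by linear_combination -hval - hroot
    rcases mul_eq_zero.mp hmul with h0 | h0
    · exact (sub_eq_zero.mp h0).symm
    · exfalso
      have h1 := congrArg (residue O') h0
      rw [map_sub, map_add, hβ, hxr, hatr, map_zero, ← two_mul] at h1
      have : CharP (ResidueField O') 2 := charP_of_injective_ringHom ψ.injective 2
      rw [CharTwo.two_eq_zero, zero_mul, zero_sub, neg_eq_zero] at h1
      exact one_ne_zero h1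

end Fermat.Agent.TwoAdic.Final

end
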