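import Fermat.Agent.TwoAdic.Modules.TWRelations
import Fermat.Agent.TwoAdic.Scalar.SignCommute
import Fermat.Agent.HeckeModule.Finite

/-!
`U_e = 0` on a localisation at level `e²M`, `e` prime to `M`, at a prime containing `X_e`:
`U_e` at level `e²M` factors through level `eM`, where it is invertible when `e` is a unit.
-/

set_option autoImplicit false

open CongruenceSubgroup

universe uO uA

namespace Fermat.Agent.HeckeModule

open HeckeJ0 LevelRaising TwoAdic

section Step

variable {O : Type uO} [CommRing O] {A : Type uA} [AddCommGroup A] [Module O A]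
  {N e : ℕ} [he : Fact e.Prime] [NeZero N] {ρ : Representation O (ZMod N)ˣ A} (hρ : ∀ u, ρ u = 1)
include hρ

/-- The twisted trace from level `eN` commutes with `U_ℓ`, `ℓ ∣ N`. -/
theorem stepTraceTwist_uOp_of_dvd (heN : e ∣ N) {ℓ : ℕ} [hℓ : Fact ℓ.Prime] (hℓN : ℓ ∣ N)
    (u : Coh1 (pullRep ρ (dvd_mul_left N e))) :
    stepTraceTwist heN ρ (uOp (pullRep ρ (dvd_mul_left N e)) (hℓN.mul_left e) u) =
      uOp ρ hℓN (stepTraceTwist heN ρ u) := by
  have : NeZero e := ⟨he.out.ne_zero⟩
  have : NeZero (e * N) := ⟨mul_ne_zero he.out.ne_zero (NeZero.ne N)⟩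
  let σ : (Unit × Fin ℓ) × Fin e ≃ Fin e × (Unit × Fin ℓ) :=
    ((((Equiv.punitProd (Fin ℓ)).prodCongr (Equiv.refl _)).trans finProdFinEquiv).trans
      ((finCongr (mul_comm ℓ e)).trans finProdFinEquiv.symm)).trans
      ((Equiv.refl _).prodCongr (Equiv.punitProd (Fin ℓ)).symm)
  have h := MatBy.eq (ρ := pullRep ρ (dvd_mul_left N e)) (fun u => hρ _)
    ((matBy_uOp (pullRep ρ (dvd_mul_left N e)) (hℓN.mul_left e)).comp
      (matBy_stepTraceTwist ρ heN))
    ((matBy_stepTraceTwist ρ heN).comp (matBy_uOp ρ hℓN)) σ fun p => ?_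
  · exact LinearMap.congr_fun h u
  · refine ⟨1, one_mem_lvl _, 1, 1, one_ne_zero, one_ne_zero, ?_⟩
    obtain ⟨⟨⟨⟩, i⟩, j⟩ := p
    have key : ((σ (((), i), j)).2.2 : ℕ) + ℓ * ((σ (((), i), j)).1 : ℕ)
        = (j : ℕ) + e * (i : ℕ) := by
      have h1 := finProdFinEquiv_apply_val ((finProdFinEquiv (m := e) (n := ℓ)).symm
        (finCongr (mul_comm ℓ e) (finProdFinEquiv (i, j))))
      rw [Equiv.apply_symm_apply, finCongr_apply, Fin.val_cast, finProdFinEquiv_apply_val] at h1
      exact h1.symm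
    have key' : (((σ (((), i), j)).2.2 : ℕ) : ℤ) + ℓ * ((σ (((), i), j)).1 : ℕ)
        = (j : ℕ) + e * (i : ℕ) := by exact_mod_cast key
    simp only [Nat.cast_one, one_smul, one_mul, stepDegReps, mm_mul, mm_inj]
    refine ⟨by ring, ?_, by ring, by ring⟩
    linear_combination -key'

/-- The twisted trace from level `eN` commutes with all Hecke polynomials. -/
theorem stepTraceTwist_smul (heN : e ∣ N) (P : HeckePoly O)
    (u : Coh1 (pullRep ρ (dvd_mul_left N e))) :
    stepTraceTwist heN ρ (P • u) = P • stepTraceTwist heN ρ u := by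
  have : NeZero (e * N) := ⟨mul_ne_zero he.out.ne_zero (NeZero.ne N)⟩
  induction P using MvPolynomial.induction_on generalizing u with
  | C r => rw [← MvPolynomial.algebraMap_eq, algebraMap_smul, algebraMap_smul, map_smul]
  | add p q hp hq => rw [add_smul, add_smul, map_add, hp, hq]
  | mul_X p l hp =>
    rw [mul_smul, mul_smul, hp]
    congr 1
    have : Fact (l : ℕ).Prime := ⟨l.2⟩
    show stepTraceTwist heN ρ ((MvPolynomial.X (⟨(l : ℕ), this.out⟩ : Nat.Primes) : HeckePoly O) •
        u)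
      = (MvPolynomial.X (⟨(l : ℕ), this.out⟩ : Nat.Primes) : HeckePoly O) • stepTraceTwist heN ρ u
    rw [X_smul, X_smul]
    by_cases hl : (l : ℕ) ∣ e * N
    · have hlN : (l : ℕ) ∣ N := by
        rcases this.out.dvd_mul.mp hl with h | h
        · exact h.trans heN
        · exact h
      rw [heckeOp_eq_uOp hρ hlN,
        heckeOp_eq_uOp (ρ := pullRep ρ (dvd_mul_left N e)) (fun u => hρ _) (hlN.mul_left e)]
      exact stepTraceTwist_uOp_of_dvd hρ heN hlN u
    · exact stepTraceTwist_heckeOp heN ρ hl u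

/-- At level `eN`, `e ∣ N`, the operator `U_e` factors through level `N`. -/
theorem heckeOp_eq_degenOne_stepTraceTwist (heN : e ∣ N)
    (u : Coh1 (pullRep ρ (dvd_mul_left N e))) :
    heckeOp (pullRep ρ (dvd_mul_left N e)) e u = degenOne ρ e (stepTraceTwist heN ρ u) := by
  have : NeZero (e * N) := ⟨mul_ne_zero he.out.ne_zero (NeZero.ne N)⟩
  rw [heckeOp_eq_uOp (ρ := pullRep ρ (dvd_mul_left N e)) (fun u => hρ _) (dvd_mul_right e N)]
  have h := MatBy.eq (ρ := pullRep ρ (dvd_mul_left N e)) (fun u => hρ _)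
    (matBy_uOp (pullRep ρ (dvd_mul_left N e)) (dvd_mul_right e N))
    ((matBy_stepTraceTwist ρ heN).comp (matBy_degenOne (q := e) ρ))
    (Equiv.prodComm _ _) fun p => ?_
  · exact LinearMap.congr_fun h u
  · refine ⟨1, one_mem_lvl _, 1, 1, one_ne_zero, one_ne_zero, ?_⟩
    simp [stepDegReps, mm_mul]

end Step

end Fermat.Agent.HeckeModule

namespace Fermat.Agent.TwoAdic.Final

open HeckeJ0 LevelRaising HeckeModule

section

variable {O : Type uO} [CommRing O] {A : Type uA} [AddCommGroup A] [Module O A]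
  {M e : ℕ} [he : Fact e.Prime]

/-- `U_e` is surjective at level `eM` when `e` is a unit of `O` and does not divide `M`. -/
theorem heckeOp_self_surjective (heM : ¬ e ∣ M) [NeZero M] (hu : IsUnit (e : O)) :
    Function.Surjective (heckeOp (oneRep O A (e * M)) e) := by
  set U := heckeOp (oneRep O A (e * M)) e
  have hres : ∀ a, resSelf A (one_dvd M) (one_dvd (e * M)) (1 : (ZMod 1)ˣ →* O) a
      ∈ LinearMap.range U := fun a => by
    obtain ⟨v, hv⟩ := hu
    refine ⟨((↑v⁻¹ : O) • wSelf A heM (one_dvd M) (one_dvd (e * M)) 1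
      (resSelf A (one_dvd M) (one_dvd (e * M)) 1 a)), ?_⟩
    have h := heckeOp_wSelf_resSelf heM (one_dvd M) (one_dvd (e * M)) 1 rfl (A := A) a
    refine (map_smul U _ _).trans ((congrArg ((↑v⁻¹ : O) • ·) h).trans ?_)
    show (↑v⁻¹ : O) • (e : O) • _ = _
    rw [← hv, smul_smul, Units.inv_mul, one_smul]
  have hw : ∀ u, wSelf A heM (one_dvd M) (one_dvd (e * M)) (1 : (ZMod 1)ˣ →* O) u
      ∈ LinearMap.range U := fun u => by
    have h := heckeOp_add_wSelf heM (one_dvd M) (one_dvd (e * M)) 1 rfl (A := A) u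
    rw [show wSelf A heM (one_dvd M) (one_dvd (e * M)) 1 u = _ - U u from
      eq_sub_of_add_eq' h]
    exact Submodule.sub_mem _ (hres _) ⟨u, rfl⟩
  intro x
  have h := alOp_alOp (isALPrimes_self heM) (Finset.mem_singleton_self e) (one_dvd (e * M))
    (1 : (ZMod 1)ˣ →* O) (coprime_self heM (one_dvd M)) (1 : O) (by simp) x
  obtain ⟨y, hy⟩ := hw (wSelf A heM (one_dvd M) (one_dvd (e * M)) 1 x)
  exact ⟨y, hy.trans h⟩

variable [IsNoetherianRing O] [Module.Finite O A] {S : Set ℕ}
  {m : Ideal (AwayPoly O S)} [m.IsPrime]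

/-- At level `eM` every class is killed by some element outside a prime containing `X_e`. -/
theorem exists_notMem_smul_eq_zero (heM : ¬ e ∣ M) [NeZero M] (hu : IsUnit (e : O))
    (heS : e ∉ S) (hX : awayX O he.out heS ∈ m) :
    ∃ a, a ∉ m ∧ ∀ u : Coh1 (oneRep O A (e * M)), awayIncl O S a • u = 0 := by
  have : NeZero (e * M) := ⟨mul_ne_zero he.out.ne_zero (NeZero.ne M)⟩
  have := finite_coh1 (oneRep O A (e * M))
  set U := heckeOp (oneRep O A (e * M)) e with hU
  let R := Polynomial O
  have hfg : (⊤ : Submodule (Polynomial O) (Module.AEval' U)).FG := Module.Finite.fg_top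
  obtain ⟨r, hr1, hr0⟩ := Submodule.exists_sub_one_mem_and_smul_eq_zero_of_fg_of_le_smul
    (Ideal.span {(Polynomial.X : Polynomial O)}) ⊤ hfg (fun x _ => by
      obtain ⟨y, rfl⟩ := (Module.AEval.of O _ U).surjective x
      obtain ⟨z, rfl⟩ := heckeOp_self_surjective heM hu y
      rw [show (Module.AEval.of O _ U) (U z) = (Polynomial.X : Polynomial O) • Module.AEval.of O _ U
          z
        from (Module.AEval.X_smul_of U z).symm]
      exact Submodule.smul_mem_smul (Ideal.mem_span_singleton_self _) Submodule.mem_top)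
  obtain ⟨g, hg⟩ := Ideal.mem_span_singleton.mp hr1
  refine ⟨Polynomial.aeval (awayX O he.out heS) r, fun ha => ?_, fun u => ?_⟩
  · have h1 : Polynomial.aeval (awayX O he.out heS) r - 1 ∈ m := by
      rw [← map_one (Polynomial.aeval (awayX O he.out heS) : Polynomial O →ₐ[O] AwayPoly O S),
        ← map_sub, hg, map_mul, Polynomial.aeval_X]
      exact Ideal.mul_mem_right _ _ hX
    exact Ideal.IsPrime.ne_top inferInstance
      ((Ideal.eq_top_iff_one m).mpr (by simpa using Ideal.sub_mem m ha h1))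
  · have h := hr0 (Module.AEval.of O _ U u) Submodule.mem_top
    rw [← Module.AEval.of_aeval_smul, LinearEquiv.map_eq_zero_iff, Module.End.smul_def] at h
    rw [← Polynomial.aeval_algHom_apply (awayIncl O S), awayX, awayIncl_X,
      heckePoly_smul_def, ← Polynomial.aeval_algHom_apply (heckeHom _), heckeHom_X]
    exact h

/-- `U_e` is zero on the localisation at level `e²M` at a prime containing `X_e`. -/
theorem X_smul_eq_zero_of_awayX_mem (heM : ¬ e ∣ M) [NeZero M] (hu : IsUnit (e : O))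
    (heS : e ∉ S) (hX : awayX O he.out heS ∈ m)
    (x : CohLoc (awayMonoid m) (oneRep O A (e * (e * M)))) :
    (MvPolynomial.X (⟨e, he.out⟩ : Nat.Primes) : HeckePoly O) • x = 0 := by
  have : NeZero (e * M) := ⟨mul_ne_zero he.out.ne_zero (NeZero.ne M)⟩
  obtain ⟨a, ha, h0⟩ := exists_notMem_smul_eq_zero (A := A) heM hu heS hX
  induction x using LocalizedModule.induction_on with
  | _ u s =>
    rw [LocalizedModule.smul'_mk, ← LocalizedModule.zero_mk s]
    refine LocalizedModule.mk_eq.mpr ⟨⟨_, mem_awayMonoid ha⟩, ?_⟩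
    simp only [Submonoid.smul_def, smul_zero]
    refine (smul_comm _ _ _).trans (Eq.trans (congrArg _ ?_) (smul_zero _))
    refine (smul_comm _ _ _).trans ((X_smul _ _ _).trans ?_)
    have hρ : ∀ u, oneRep O A (e * M) u = 1 := oneRep_eq_one
    have key : ∀ v : Coh1 (pullRep (oneRep O A (e * M)) (dvd_mul_left (e * M) e)),
        heckeOp (pullRep (oneRep O A (e * M)) (dvd_mul_left (e * M) e)) e
          (awayIncl O S a • v) = 0 := fun v => by
      rw [heckeOp_eq_degenOne_stepTraceTwist hρ (dvd_mul_right e M),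
        stepTraceTwist_smul hρ (dvd_mul_right e M), h0, map_zero]
    exact key u

end

end Fermat.Agent.TwoAdic.Final

namespace Fermat.Agent.TwoAdic.Final

open IsLocalRing

/-- An odd prime is a unit in a local ring of residue characteristic `2`. -/
theorem isUnit_natCast_of_odd {O : Type uO} [CommRing O] [IsLocalRing O]
    (h2 : ((2 : ℕ) : O) ∈ maximalIdeal O) {e : ℕ} (he : Odd e) : IsUnit (e : O) := by
  obtain ⟨k, rfl⟩ := he
  by_contra hc
  refine (maximalIdeal.isMaximal O).ne_top ((Ideal.eq_top_iff_one _).mpr ?_)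
  have h := Ideal.sub_mem _ ((mem_maximalIdeal _).mpr hc) ((maximalIdeal O).mul_mem_right (k : O)
      h2)
  simp at h

end Fermat.Agent.TwoAdic.Final
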