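import Fermat.Agent.TwoAdic.TopNil
import Fermat.Agent.TwoAdic.TopPrimes
import Fermat.Agent.TwoAdic.Scalar.SignCommute

/-!
Lower vanishing: at a level prime to a prime at which the residual representation ramifies, the
localisation at its system is zero.
-/

set_option autoImplicit false

noncomputable section

open IsLocalRing

namespace Fermat.Agent.TwoAdic.Final

open HeckeModule EigenRep Engine.TRep HeckeJ0 LevelRaising DefRing Deform Engine

local notation "Qbar" => AlgebraicClosure ℚ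

variable {O : Type} [CommRing O] [IsDomain O] [IsDiscreteValuationRing O] [CharZero O]
  [IsAdicComplete (maximalIdeal O) O] [Finite (ResidueField O)] [Fact (Nat.Prime 2)]

omit [CharZero O] [Finite (ResidueField O)] in
/-- A prime containing what kills the lattice of level `N` has residual system unramified at the
primes not dividing `2 N`. -/
theorem trace_mul_inertia_of_latKernel (h2 : ((2 : ℕ) : O) ∈ maximalIdeal O) {N : ℕ} [NeZero N]
    {rbar : GQ →* Matrix (Fin 2) (Fin 2) (ResidueField O)} (hc : IsCont rbar)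
    (S : Finset ℕ) (X : Finset ℕ) (Q : Ideal (AwayPoly O (↑S : Set ℕ))) [Q.IsPrime]
    (hker : ∀ P, latHom (stdInputs (eichlerShimuraRelations (N := N) (p := 2)))
      (padicHom 2 h2) S P = 0 → P ∈ Q)
    (hmO : ∀ o ∈ maximalIdeal O, MvPolynomial.C o ∈ Q)
    (htr : ∀ (l : AwayIndex (↑S : Set ℕ)), ((l : Nat.Primes) : ℕ) ∉ X →
      ∀ A : ValuationSubring Qbar, A.LiesOverPrime ((l : Nat.Primes) : ℕ) →
        ∀ σ : GQ, A.IsFrobeniusAt σ ((l : Nat.Primes) : ℕ) → ∀ o : O,
          residue O o = (rbar σ).trace → MvPolynomial.X l - MvPolynomial.C o ∈ Q)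
    {v : ℕ} (hv : v.Prime) (hvN : ¬ v ∣ N * 2)
    {A₀ : ValuationSubring Qbar} (hA₀ : A₀.LiesOverPrime v) {τ : GQ}
    (hτ : τ ∈ A₀.inertiaSubgroupIn ℚ) (g : GQ) :
    (rbar (g * τ)).trace = (rbar g).trace := by
  classical
  set hes := eichlerShimuraRelations (N := N) (p := 2)
  set I := stdInputs hes
  set ι := padicHom 2 h2
  -- the eigen system with values in an algebraically closed field
  let K₀ := FractionRing (AwayPoly O (↑S : Set ℕ) ⧸ Q)
  let K := AlgebraicClosure K₀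
  let f : AwayPoly O (↑S : Set ℕ) →+* K :=
    ((algebraMap K₀ K).comp (algebraMap (AwayPoly O (↑S : Set ℕ) ⧸ Q) K₀)).comp
      (Ideal.Quotient.mk Q)
  have hf : ∀ P, f P = 0 ↔ P ∈ Q := fun P => by
    rw [RingHom.comp_apply, RingHom.comp_apply, map_eq_zero_iff _ (algebraMap K₀ K).injective,
      map_eq_zero_iff _ (IsFractionRing.injective _ K₀), Ideal.Quotient.eq_zero_iff_mem]
  let g' : O →+* K := f.comp MvPolynomial.C
  have hg : ∀ x ∈ maximalIdeal O, g' x = 0 := fun x hx => (hf _).mpr (hmO x hx)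
  let gbar : ResidueField O →+* K := Ideal.Quotient.lift _ g' hg
  have hgbar : ∀ x, gbar (residue O x) = g' x := fun x => rfl
  have : CharP K 2 := CharP.charP_iff_prime_eq_zero Nat.prime_two |>.mpr (by
    rw [← map_natCast g']; exact hg _ h2)
  let φ : LatAlg I ι S →+* K := RingHom.liftOfSurjective
    (latHom I ι S : AwayPoly O (↑S : Set ℕ) →+* LatAlg I ι S) (latHom_surjective I ι S)
    ⟨f, fun P hP => RingHom.mem_ker.mpr ((hf P).mpr (hker P (RingHom.mem_ker.mp hP)))⟩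
  have hφ : ∀ P, φ (latHom I ι S P) = f P := fun P =>
    RingHom.liftOfRightInverse_comp_apply _ _ _ _ P
  obtain ⟨w, hw0, hw⟩ := EigenSystems.exists_eigenvector_of_character (LatAlg I ι S)
    (fun a ha b hb => congrArg Subtype.val (mul_comm (⟨a, ha⟩ : LatAlg I ι S) ⟨b, hb⟩)) φ
  let a : Nat.Primes → K := fun l =>
    if h : (l : ℕ) ∉ S then f (MvPolynomial.X ⟨l, h⟩) else 0
  have ha : ∀ l : AwayIndex (↑S : Set ℕ), a l = f (MvPolynomial.X l) := fun l => by
    simp only [a]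
    rw [dif_pos (show ((l : Nat.Primes) : ℕ) ∉ S from l.2)]
  have hwS : w ∈ eigenSub I.model (↑S : Set ℕ) a := (mem_eigenSub I.model).mpr fun l hl => by
    have h := hw (latHom I ι S (MvPolynomial.X ⟨l, hl⟩))
    rw [hφ, ← ha] at h
    refine Eq.trans ?_ h
    congr 1
    ext i j
    rw [Matrix.map_apply, Matrix.map_apply, latHom_X, LinearMap.toMatrix'_apply]
    rw [← AlgHom.commutes (latHom I ι S), hφ]
    show _ = g' (matEnd I ι _ (Pi.single j 1) i)
    rw [matEnd_apply, Matrix.mulVec_single_one]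
    show _ = g' (ι (((I.model.T l) i j : ℤ) : ℤ_[2]))
    rw [map_intCast, map_intCast]
  obtain ⟨ρ, hρ, hunr⟩ := exists_residual_of_eigenvector I S a ⟨w, hw0, hwS⟩
  -- its traces
  have htrρ : ∀ (ℓ : ℕ) (hℓ : ℓ.Prime) (hS : ℓ ∉ S), ¬ ℓ ∣ N * 2 → ∀ A : ValuationSubring Qbar,
      A.LiesOverPrime ℓ → ∀ σ : GQ, A.IsFrobeniusAt σ ℓ →
        LinearMap.trace K ρ.V (ρ.ρ σ) = f (MvPolynomial.X ⟨⟨ℓ, hℓ⟩, hS⟩) := by
    intro ℓ hℓ hS hd A hA σ hσ
    have h := hρ ℓ hℓ hS hd A hA σ hσ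
    let b := Module.finBasisOfFinrankEq K ρ.V ρ.finrank_eq
    rw [LinearMap.trace_eq_matrix_trace K b, Matrix.trace_eq_neg_charpoly_coeff,
      LinearMap.charpoly_toMatrix, h, ← ha ⟨⟨ℓ, hℓ⟩, hS⟩]
    simp [Polynomial.coeff_X_pow, Polynomial.coeff_C]
    ring
  -- they are the residual ones
  have hall : ∀ σ : GQ, LinearMap.trace K ρ.V (ρ.ρ σ) = gbar (rbar σ).trace := by
    intro σ
    obtain ⟨L₁, hL₁, H₁⟩ := ρ.factorsThroughFiniteLevel
    obtain ⟨L₂, hL₂, H₂⟩ := hc 1
    have := hL₁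
    have := hL₂
    have : FiniteDimensional ℚ ↥(L₁ ⊔ L₂) := IntermediateField.finiteDimensional_sup L₁ L₂
    obtain ⟨ℓ, hℓ, hℓX, A, hA, φ', hφ', hφL⟩ := Fermat.Agent.Chebotarev.exists_isFrobeniusAt_eqOn
      (L₁ ⊔ L₂) σ (S ∪ X ∪ (N * 2).primeFactors)
    simp only [Finset.mem_union, not_or, Nat.mem_primeFactors, not_and] at hℓX
    have hd : ¬ ℓ ∣ N * 2 := fun hd => hℓX.2 hℓ hd (mul_ne_zero (NeZero.ne N) two_ne_zero)
    have e₁ : ρ.ρ φ' = ρ.ρ σ := by
      have h := H₁ (σ⁻¹ * φ') fun x hx => by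
        rw [AlgEquiv.mul_apply, hφL x (le_sup_left (a := L₁) (b := L₂) hx)]
        exact σ.symm_apply_apply x
      rw [show φ' = σ * (σ⁻¹ * φ') from (mul_inv_cancel_left σ φ').symm, map_mul, h, mul_one]
    have e₂ : (rbar φ').trace = (rbar σ).trace := by
      have h := trace_sub_mem_of_eqOn H₂ (σ := σ) (τ := φ')
        fun x hx => hφL x (le_sup_right (a := L₁) (b := L₂) hx)
      rw [pow_one, IsLocalRing.maximalIdeal_eq_bot, Ideal.mem_bot, sub_eq_zero] at h
      exact h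
    rw [← e₁, htrρ ℓ hℓ hℓX.1.1 hd A hA φ' hφ', ← e₂]
    obtain ⟨x, hx⟩ := residue_surjective (R := O) (rbar φ').trace
    have h := (hf _).mpr (htr ⟨⟨ℓ, hℓ⟩, hℓX.1.1⟩ hℓX.1.2 A hA φ' hφ' x hx)
    rw [map_sub, sub_eq_zero] at h
    rw [h, ← hx, hgbar]
    rfl
  apply gbar.injective
  rw [← hall, ← hall, map_mul, hunr v hv hvN A₀ hA₀ τ hτ, mul_one]

set_option linter.unusedSectionVars false in
/-- **Lower vanishing.** -/
theorem subsingleton_cohLoc_of_ramified [CharP (ResidueField O) 2] {D : ℕ}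
    {r : MRep (ResidueField O)} (hr : IsDihedralResidual D r) (hc : IsCont r) (hD : 0 < D)
    {N : ℕ} [NeZero N] {S : Set ℕ} (hS : S.Finite) (m : Ideal (AwayPoly O S)) [m.IsPrime]
    (hmO : ∀ o ∈ maximalIdeal O, MvPolynomial.C o ∈ m) (X : Finset ℕ)
    (htr : ∀ (l : AwayIndex S), ((l : Nat.Primes) : ℕ) ∉ X →
      ∀ A : ValuationSubring Qbar, A.LiesOverPrime ((l : Nat.Primes) : ℕ) →
        ∀ σ : GQ, A.IsFrobeniusAt σ ((l : Nat.Primes) : ℕ) → ∀ o : O,
          residue O o = (r σ).trace → MvPolynomial.X l - MvPolynomial.C o ∈ m)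
    {v : ℕ} (hv : v.Prime) (hv2 : v ≠ 2) (hvN : ¬ v ∣ N)
    (hram : ∃ A : ValuationSubring Qbar, A.LiesOverPrime v ∧
      ∃ τ ∈ A.inertiaSubgroupIn ℚ, r τ ≠ 1) :
    Subsingleton (CohLoc (awayMonoid m) (oneRep O O N)) := by
  classical
  obtain ⟨F, rfl⟩ := hS.exists_finset_coe
  have h2 : ((2 : ℕ) : O) ∈ maximalIdeal O := by
    rw [← residue_eq_zero_iff, map_natCast, Nat.cast_ofNat]
    exact CharTwo.two_eq_zero
  -- a prime `≡ 1` with non-Eisenstein residual trace
  obtain ⟨q, hq, hqX, hq1, hqtr⟩ :=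
    exists_orderThree_one_mod hr hc hD N (F ∪ X ∪ {2})
  simp only [Finset.mem_union, Finset.mem_singleton, not_or] at hqX
  have : Fact q.Prime := ⟨hq⟩
  have hqS : q ∉ (↑F : Set ℕ) := fun h => hqX.1.1 (Finset.mem_coe.mp h)
  obtain ⟨A₁, φ₁, hA₁, hφ₁⟩ := Frobenius.exists_liesOverPrime_and_isFrobeniusAt_qbar hq
  have hqe : awayX O hq hqS - MvPolynomial.C ((q : O) + 1) ∉ m := fun h => by
    have h1 := htr ⟨⟨q, hq⟩, hqS⟩ hqX.1.2 A₁ hA₁ φ₁ hφ₁ 1 (by rw [map_one, hqtr A₁ hA₁ φ₁ hφ₁])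
    have h2' := sub_mem h1 h
    have hunit : IsUnit ((q : O) + 1 - 1) := notMem_maximalIdeal.mp fun hm => by
      rw [← residue_eq_zero_iff, add_sub_cancel_right, map_natCast,
        CharP.cast_eq_zero_iff (ResidueField O) 2] at hm
      exact hqX.2 ((Nat.prime_dvd_prime_iff_eq Nat.prime_two hq).mp hm).symm
    refine (inferInstance : m.IsPrime).ne_top (Ideal.eq_top_of_isUnit_mem m ?_
      (hunit.map (MvPolynomial.C (σ := AwayIndex (↑F : Set ℕ)))))
    rw [map_sub, map_one]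
    simpa [awayX] using h2'
  have hE : eisen O q ∈ awayMonoid m := eisen_mem_awayMonoid hqS hqe
  by_contra hns
  rw [not_subsingleton_iff_nontrivial] at hns
  obtain ⟨x, hx⟩ := exists_ne (0 : CohLoc (awayMonoid m) (oneRep O O N))
  obtain ⟨A, hA, τ, hτ, hτ1⟩ := hram
  have hd : ¬ v ∣ N * 2 := fun hd => by
    rcases hv.dvd_mul.mp hd with h | h
    · exact hvN h
    · exact hv2 ((Nat.prime_dvd_prime_iff_eq hv Nat.prime_two).mp h)
  have hkey : ∀ g, (r (g * τ)).trace = (r g).trace := fun g =>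
    trace_mul_inertia_of_latKernel h2 hc F X m (fun P hP => by
      by_contra hPm
      refine hx ?_
      have hu := ((Module.End.isUnit_iff _).mp (IsLocalizedModule.map_units
        (LocalizedModule.mkLinearMap (awayMonoid m) (Coh1 (oneRep O O N)))
        ⟨_, mul_mem hE (mul_mem hE (mem_awayMonoid hPm))⟩)).1
      refine hu ?_
      show (eisen O q * (eisen O q * awayIncl O (↑F : Set ℕ) P)) • x =
        (eisen O q * (eisen O q * awayIncl O (↑F : Set ℕ) P)) • (0 : CohLoc _ _)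
      rw [smul_zero]
      induction x using LocalizedModule.induction_on with
      | _ u s =>
        rw [LocalizedModule.smul'_mk, eisen_sq_smul_eq_zero_of_latHom
          (eichlerShimuraRelations (N := N) (p := 2)) _ F hq1 1 rfl hP u, LocalizedModule.zero_mk])
      hmO htr hv hd hA hτ g
  obtain ⟨g, hg, hg1⟩ := Selmer.exists_order_three hr hD
  have htrg := Selmer.trace_eq_one hr hD hg hg1
  by_cases hT : Selmer.IsTransp r τ
  · have h1 : Selmer.IsTransp r (g * τ) := by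
      rw [Selmer.transp_mul_iff hr]
      tauto
    have h2' := hkey g
    rw [h1.1, htrg] at h2'
    exact zero_ne_one h2'
  · have h1 := hkey 1
    rw [one_mul, map_one, Selmer.trace_eq_one hr hD hT hτ1, Matrix.trace_one, Fintype.card_fin,
      Nat.cast_ofNat, CharTwo.two_eq_zero] at h1
    exact one_ne_zero h1

end Fermat.Agent.TwoAdic.Final

end
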