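import Fermat.Agent.TwoAdic.TSide.QuadEmbed
import Fermat.Agent.TwoAdic.TSide.Attached
import Fermat.Agent.RowS36.Attach

/-!
# Absolute irreducibility from an invertible commutator; the cyclotomic determinant
-/

set_option autoImplicit false

noncomputable section

open IsLocalRing GaloisRep Fermat.Agent.DefRing Fermat.Agent.EigenRep Matrix
open scoped TensorProduct

namespace Fermat.Agent.TwoAdic.Final

local notation "GQ" => (AlgebraicClosure ℚ) ≃ₐ[ℚ] (AlgebraicClosure ℚ)

/-- An invertible commutator gives absolute irreducibility. -/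
theorem isAbsolutelyIrreducible_of_commutator {k : Type} [Field k] (ρ : ResidualGaloisRep k)
    (b : Module.Basis (Fin 2) k ρ.V) {g h : GQ}
    (hgh : (LinearMap.toMatrix b b (ρ.ρ g) * LinearMap.toMatrix b b (ρ.ρ h) -
      LinearMap.toMatrix b b (ρ.ρ h) * LinearMap.toMatrix b b (ρ.ρ g)).det ≠ 0) :
    ρ.IsAbsolutelyIrreducible := by
  intro W hW
  let K := AlgebraicClosure k
  let b' : Module.Basis (Fin 2) K (K ⊗[k] ρ.V) := Algebra.TensorProduct.basis K b
  let e := LinearMap.toMatrixAlgEquiv b'
  let R : GQ → Matrix (Fin 2) (Fin 2) K := fun σ =>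
    (LinearMap.toMatrix b b (ρ.ρ σ)).map (algebraMap k K)
  have hR : ∀ σ, e ((ρ.baseChange K).ρ σ) = R σ := fun σ => LinearMap.toMatrix_baseChange K (ρ.ρ σ)
      b b
  have hC : (R g * R h - R h * R g).det ≠ 0 := by
    rw [show R g * R h - R h * R g = (algebraMap k K).mapMatrix
      (LinearMap.toMatrix b b (ρ.ρ g) * LinearMap.toMatrix b b (ρ.ρ h) -
        LinearMap.toMatrix b b (ρ.ρ h) * LinearMap.toMatrix b b (ρ.ρ g)) by
      simp only [map_sub, map_mul]; rfl, ← RingHom.map_det]
    exact (map_ne_zero (algebraMap k K)).mpr hgh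
  have hspan := (TSide.linearIndependent_quad hC).span_eq_top_of_card_eq_finrank
    (by rw [Module.finrank_matrix]; simp)
  have hinv : ∀ X : Matrix (Fin 2) (Fin 2) K, ∀ x ∈ W, e.symm X x ∈ W := fun X => by
    have hX : X ∈ Submodule.span K (Set.range ![1, R g, R h, R g * R h]) :=
      hspan ▸ Submodule.mem_top
    induction hX using Submodule.span_induction with
    | mem x hx =>
      obtain ⟨i, rfl⟩ := hx
      have h2 : ![(1 : Module.End K (K ⊗[k] ρ.V)), (ρ.baseChange K).ρ g, (ρ.baseChange K).ρ h,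
          (ρ.baseChange K).ρ g * (ρ.baseChange K).ρ h] i = e.symm (![1, R g, R h, R g * R h] i) :=
              by
        rw [AlgEquiv.eq_symm_apply]
        fin_cases i
        · exact map_one e
        · exact hR g
        · exact hR h
        · exact (map_mul e _ _).trans (congrArg₂ (· * ·) (hR g) (hR h))
      intro v hv
      rw [← h2]
      fin_cases i
      · exact hv
      · exact hW g v hv
      · exact hW h v hv
      · exact hW g _ (hW h v hv)
    | zero => intro v _; rw [map_zero]; exact W.zero_mem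
    | add x y _ _ hx hy => intro v hv; rw [map_add]; exact W.add_mem (hx v hv) (hy v hv)
    | smul c x _ hx => intro v hv; rw [map_smul]; exact W.smul_mem c (hx v hv)
  by_cases h0 : W = ⊥
  · exact Or.inl h0
  refine Or.inr (eq_top_iff.mpr fun y _ => ?_)
  obtain ⟨x, hx, hx0⟩ := (Submodule.ne_bot_iff W).mp h0
  obtain ⟨f, hf⟩ : ∃ f : Module.Dual K (K ⊗[k] ρ.V), f x ≠ 0 := by
    by_contra hc
    exact hx0 ((Module.forall_dual_apply_eq_zero_iff K _).mp fun f => not_not.mp fun h' => hc
        ⟨f, h'⟩)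
  have h1 := hinv (e ((f x)⁻¹ • f.smulRight y)) x hx
  rwa [AlgEquiv.symm_apply_apply, LinearMap.smul_apply, LinearMap.smulRight_apply, smul_smul,
    inv_mul_cancel₀ hf, one_smul] at h1

/-- A determinant equal to the cyclotomic character is cyclotomic. -/
theorem detIsCyclotomic_of_eq {O : Type} [CommRing O] [IsDomain O] [IsDiscreteValuationRing O]
    [IsAdicComplete (maximalIdeal O) O] [CharZero O] {p : ℕ} [Fact p.Prime]
    (hp : (p : O) ∈ maximalIdeal O) (ρ : GaloisRepAdic O)
    (hdet : ∀ σ, LinearMap.det (ρ.ρ σ) = padicHom p hp (epsilonPadic p σ : ℤ_[p])) :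
    ρ.DetIsCyclotomic p :=
  RowS36.detIsCyclotomic_of_frobenius hp ρ {p} fun ℓ hℓ hℓS A hA σ hσ => by
    rw [hdet, EigenRep.epsilon_frobenius hℓ (fun h => hℓS (Finset.mem_singleton.mpr h)) hA hσ,
      map_natCast]

end Fermat.Agent.TwoAdic.Final
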