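import Fermat.Agent.TwoAdic.Final.Exit
import Fermat.Agent.TwoAdic.TSide.EigenMultiple
import Fermat.Agent.EigenRep.Eigenvector

/-!
# The eigen class of a point of the final ring

A point of the final ring with values in an extension is, over a field of characteristic zero, the
system of a class fixed by every operator fixing the localised part.
-/

set_option autoImplicit false
-- the linter alone takes seconds on the proof terms of this file
set_option linter.unusedSectionVars false

noncomputable section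

open IsLocalRing

namespace Fermat.Agent.TwoAdic.Final

open HeckeModule EigenSystems

/-- A linear map into a field extends from a submodule over a principal ideal domain. -/
theorem exists_extend_field {O K M : Type} [CommRing O] [IsDomain O] [IsPrincipalIdealRing O]
    [Field K] [Algebra O K] [FaithfulSMul O K] [AddCommGroup M] [Module O M] (p : Submodule O M)
    (g : p →ₗ[O] K) : ∃ G : M →ₗ[O] K, ∀ x : p, G x = g x := by
  have hB : Module.Baer O K := fun I f => by
    obtain ⟨a, ha⟩ := (IsPrincipalIdealRing.principal I).principal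
    have ha' : a ∈ I := ha ▸ Submodule.mem_span_singleton_self a
    refine ⟨LinearMap.toSpanSingleton O K ((algebraMap O K a)⁻¹ * f ⟨a, ha'⟩), fun x hx => ?_⟩
    obtain ⟨b, hb⟩ := Submodule.mem_span_singleton.mp (ha ▸ hx : x ∈ Submodule.span O {a})
    rcases eq_or_ne a 0 with rfl | ha0
    · have hx0 : x = 0 := by rw [← hb, smul_zero]
      subst hx0
      rw [map_zero]
      exact (map_zero f).symm
    · subst hb
      rw [LinearMap.toSpanSingleton_apply, show (⟨b • a, hx⟩ : I) = b • ⟨a, ha'⟩ from rfl, map_smul,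
        smul_eq_mul, mul_smul]
      refine congrArg (b • ·) ?_
      rw [Algebra.smul_def, ← mul_assoc, mul_inv_cancel₀ ((map_ne_zero_iff _
        (FaithfulSMul.algebraMap_injective O K)).mpr ha0), one_mul]
  obtain ⟨G, hG⟩ := hB.extension_property p.subtype p.injective_subtype g
  exact ⟨G, fun x => LinearMap.congr_fun hG x⟩

variable {O : Type} [CommRing O] [IsDomain O] [IsDiscreteValuationRing O]
  {L : ℕ} [NeZero L] {S' : Set ℕ} (m : Ideal (AwayPoly O S')) [m.IsPrime]
  {ρ : Representation O (ZMod L)ˣ O}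
  [Module.Finite O (CohLoc (awayMonoid m) ρ)] [Module.Free O (CohLoc (awayMonoid m) ρ)]

omit [IsDomain O] [IsDiscreteValuationRing O] [NeZero L] [Module.Finite O (CohLoc (awayMonoid m) ρ)]
  [Module.Free O (CohLoc (awayMonoid m) ρ)] in
theorem bijective_smul_mem {t : HeckePoly O} (ht : t ∈ awayMonoid m) :
    Function.Bijective fun x : CohLoc (awayMonoid m) ρ => t • x :=
  (Module.End.isUnit_iff _).mp
    (IsLocalizedModule.map_units (LocalizedModule.mkLinearMap (awayMonoid m) (Coh1 ρ)) ⟨t, ht⟩)

/-- Every class of the localisation comes from a class before it. -/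
theorem toLoc_surjective : Function.Surjective (toLoc (awayMonoid m) ρ) := fun x => by
  induction x using LocalizedModule.induction_on with
  | _ u s =>
    let F : Module.End O (CohLoc (awayMonoid m) ρ) :=
      Algebra.lsmul O O _ (A := HeckePoly O) (s : HeckePoly O)
    obtain ⟨g, hg⟩ := TSide.exists_aeval_inverse F ((Module.End.isUnit_iff _).mpr
      (bijective_smul_mem m s.2))
    rw [Polynomial.aeval_algHom_apply] at hg
    refine ⟨Polynomial.aeval (s : HeckePoly O) g • u, (bijective_smul_mem m s.2).1 ?_⟩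
    show (s : HeckePoly O) • toLoc (awayMonoid m) ρ (Polynomial.aeval (s : HeckePoly O) g • u) =
      (s : HeckePoly O) • LocalizedModule.mk u s
    rw [map_smul, LocalizedModule.smul'_mk]
    exact (LinearMap.congr_fun hg (LocalizedModule.mk u 1)).trans
      (LocalizedModule.mk_cancel (S := awayMonoid m) s u).symm

variable (C : Submodule (HeckePoly O) (CohLoc (awayMonoid m) ρ))

/-- An element of the monoid acts surjectively on a stable part. -/
theorem exists_smul_eq {t : HeckePoly O} (ht : t ∈ awayMonoid m) (y : C) : ∃ z : C, t • z = y := by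
  let F : Module.End O (CohLoc (awayMonoid m) ρ) := Algebra.lsmul O O _ (A := HeckePoly O) t
  obtain ⟨g, hg⟩ := TSide.exists_aeval_inverse F ((Module.End.isUnit_iff _).mpr
    (bijective_smul_mem m ht))
  rw [Polynomial.aeval_algHom_apply] at hg
  exact ⟨Polynomial.aeval t g • y,
    Subtype.ext (LinearMap.congr_fun hg (y : CohLoc (awayMonoid m) ρ))⟩

variable [CharZero O] {S₀ : Set ℕ} [Module.Finite O C] [Module.Free O C]

/-- **The eigen class of a point.** -/
theorem exists_eigen_class (χ : (ZMod L)ˣ →* O) (hρχ : ρ = scalarRep χ O)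
    (hE : ExactHyp (awayMonoid m) χ) {K : Type} [Field K] [CharZero K] [Algebra O K]
    [FaithfulSMul O K] (φ : FinalRing S₀ C →ₐ[O] K) :
    ∃ (u : Coh1 (scalarRep χ O)) (Q₀ : AwayPoly K S₀),
      awayIncl K S₀ Q₀ • TSide.pushCoh (algebraMap O K) χ u ≠ 0 ∧
      (∀ l : AwayIndex S₀,
        heckeGen _ (l : Nat.Primes) (awayIncl K S₀ Q₀ • TSide.pushCoh (algebraMap O K) χ u) =
          φ (Ideal.Quotient.mk _ (MvPolynomial.X l)) •
            (awayIncl K S₀ Q₀ • TSide.pushCoh (algebraMap O K) χ u)) ∧
      ∀ Ψ : Module.End O (Coh1 ρ),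
        (∀ (a : AwayPoly O S') v, Ψ (awayIncl O S' a • v) = awayIncl O S' a • Ψ v) →
        (∀ v, toLoc (awayMonoid m) ρ v ∈ C →
          toLoc (awayMonoid m) ρ (Ψ v) = toLoc (awayMonoid m) ρ v) →
        Ψ (hρχ ▸ u) = hρχ ▸ u := by
  classical
  subst hρχ
  let _ : Module (FinalRing S₀ C) C := finalModule S₀ C
  have : IsScalarTower O (FinalRing S₀ C) C := IsScalarTower.of_algebraMap_smul fun o y => by
    show finalRingAct S₀ C (algebraMap O _ o) y = o • y
    rw [AlgHom.commutes, Module.algebraMap_end_apply]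
  have : Module.Finite (FinalRing S₀ C) C := Module.Finite.of_restrictScalars_finite O _ _
  obtain ⟨g₀, hg0, hg⟩ := EigenRep.exists_semilinear_functional (M := C) φ.toRingHom fun a ha => by
    rw [RingHom.mem_ker, show a = 0 from finalRingAct_injective S₀ C (LinearMap.ext fun y => by
      rw [map_zero, LinearMap.zero_apply]
      exact Module.mem_annihilator.mp ha y), map_zero]
  have hgO : ∀ (o : O) (y : C), g₀ (o • y) = o • g₀ y := fun o y => by
    rw [← algebraMap_smul (FinalRing S₀ C) o y, hg, Algebra.smul_def]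
    exact congrArg (· * g₀ y) (φ.commutes o)
  obtain ⟨G, hG⟩ := exists_extend_field (C.restrictScalars O)
    { toFun := fun y => g₀ ⟨y.1, y.2⟩
      map_add' := fun a b => map_add g₀ ⟨a.1, a.2⟩ ⟨b.1, b.2⟩
      map_smul' := fun o a => hgO o ⟨a.1, a.2⟩ }
  have hGC : ∀ y : C, G (y : CohLoc (awayMonoid m) (scalarRep χ O)) = g₀ y := fun y =>
    hG ⟨y.1, y.2⟩
  obtain ⟨y, hy⟩ : ∃ y : C, g₀ y ≠ 0 := by
    by_contra h
    exact hg0 (AddMonoidHom.ext fun y => not_not.mp fun hy => h ⟨y, hy⟩)
  obtain ⟨t, htP, ht⟩ := exists_smul_eq_zero_of_mk (ρ := scalarRep χ O) (P := awayMonoid m)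
  obtain ⟨z, hz⟩ := exists_smul_eq m C htP y
  obtain ⟨u₀, hu₀⟩ := toLoc_surjective m (z : CohLoc (awayMonoid m) (scalarRep χ O))
  have hu : toLoc (awayMonoid m) _ (t • u₀) = (y : CohLoc (awayMonoid m) (scalarRep χ O)) := by
    rw [map_smul, hu₀]
    exact congrArg Subtype.val hz
  let φa : AwayPoly O S₀ →+* K := φ.toRingHom.comp (Ideal.Quotient.mk _)
  obtain ⟨Q₀, hQ0, hQ⟩ := TSide.exists_eigen_multiple (algebraMap O K) hE φa
    (fun c => φ.commutes c) G.toAddMonoidHom
    (fun c v => (G.map_smul c v).trans (Algebra.smul_def c _)) (t • u₀)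
    (fun P => by
      show G _ = φa P * G _
      rw [hu, show awayIncl O S₀ P • (y : CohLoc (awayMonoid m) (scalarRep χ O)) =
        ((finalAct S₀ C P y : C) : CohLoc (awayMonoid m) (scalarRep χ O)) from rfl, hGC, hGC]
      exact hg (Ideal.Quotient.mk _ P) y)
    (by show G _ ≠ 0; rw [hu, hGC]; exact hy)
  refine ⟨t • u₀, Q₀, hQ0, hQ, fun Ψ hΨ hfix => ?_⟩
  obtain ⟨a, -, rfl⟩ := htP
  show Ψ (awayIncl O S' a • u₀) = awayIncl O S' a • u₀
  rw [hΨ, ← sub_eq_zero, ← smul_sub]
  refine ht _ ?_
  show toLoc (awayMonoid m) _ (Ψ u₀ - u₀) = 0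
  rw [map_sub, hfix u₀ (hu₀.symm ▸ z.2), sub_self]

end Fermat.Agent.TwoAdic.Final
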