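import Fermat.Agent.TwoAdic.Final.Point
import Fermat.Agent.TwoAdic.TSide.Surjection
import Fermat.Agent.TwoAdic.TSide.QuadEmbed

/-!
# The universal ring of pairs free at `W` maps onto the final ring
-/

set_option autoImplicit false
-- the linter alone takes seconds on the proof terms of this file
set_option linter.unusedSectionVars false

noncomputable section

open IsLocalRing

namespace Fermat.Agent.TwoAdic.Final

open HeckeModule EigenSystems HeckeJ0 LevelRaising Fermat.Agent.DefRing

local notation "Ω" => AlgebraicClosure ℚ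
local notation "GQ" => (AlgebraicClosure ℚ) ≃ₐ[ℚ] (AlgebraicClosure ℚ)

/-- The image of a dihedral representation spans. -/
theorem span_range_eq_top_of_dihedral {k : Type} [Field k] [CharP k 2] {D : ℕ} {r : MRep k}
    (hr : IsDihedralResidual D r) (hD : 0 < D) : Submodule.span k (Set.range r) = ⊤ := by
  obtain ⟨g, h, hgh⟩ := hr.exists_commutator_det_ne_zero hD
  have hspan := (TSide.linearIndependent_quad hgh).span_eq_top_of_card_eq_finrank
    (by rw [Module.finrank_matrix]; simp)
  refine top_le_iff.mp (hspan ▸ Submodule.span_mono ?_)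
  rintro _ ⟨i, rfl⟩
  fin_cases i
  · exact ⟨1, map_one r⟩
  · exact ⟨g, rfl⟩
  · exact ⟨h, rfl⟩
  · exact ⟨g * h, map_mul r g h⟩

/-- A local map to a domain of characteristic zero is injective on a coefficient ring. -/
theorem injective_algebraMap_of_charZero {O A : Type} [CommRing O] [IsDomain O]
    [IsDiscreteValuationRing O] [CharP (ResidueField O) 2] [CommRing A] [IsDomain A] [CharZero A]
    [Algebra O A] : Function.Injective (algebraMap O A) := by
  rw [RingHom.injective_iff_ker_eq_bot]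
  by_contra hne
  have : (RingHom.ker (algebraMap O A)).IsPrime := RingHom.ker_isPrime _
  have hmax := IsLocalRing.eq_maximalIdeal (Ideal.IsPrime.isMaximal inferInstance hne)
  have h2 : (2 : O) ∈ maximalIdeal O := by
    rw [← residue_eq_zero_iff, map_ofNat]
    exact CharTwo.two_eq_zero
  rw [← hmax, RingHom.mem_ker, map_ofNat] at h2
  exact two_ne_zero h2

variable {O : Type} [CommRing O] [IsDomain O] [IsDiscreteValuationRing O]
  [IsAdicComplete (maximalIdeal O) O] [Finite (ResidueField O)] [CharP (ResidueField O) 2]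
  [CharZero O]
  {res : NormalData O} {E : LiftData} {W : Finset ℕ} {M : ℕ} [NeZero M] {S₀ : Finset ℕ}
  {S' : Set ℕ} (m : Ideal (AwayPoly O S')) [m.IsPrime] (hH : FinalHyp res E W M S₀ m)
  (C : Submodule (HeckePoly O) (CohLoc (awayMonoid m) (oneRep O O (2 * M))))
  [Module.Finite O C] [Module.Free O C] [Nontrivial C]
  [Module.Finite O (CohLoc (awayMonoid m) (oneRep O O (2 * M)))]
  [Module.Free O (CohLoc (awayMonoid m) (oneRep O O (2 * M)))]
  (hE : ExactHyp (awayMonoid m) (1 : (ZMod (2 * M))ˣ →* O))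
  (hW : IsALPrimes (2 * M) (E.D.primeFactors.erase E.ℓ₀))
  (hWS : ∀ e ∈ E.D.primeFactors.erase E.ℓ₀, e ∈ S')
  (hC : ∀ y ∈ C, ∀ e ∈ E.D.primeFactors.erase E.ℓ₀,
    alOneLoc O hW (fun e => -(E.sgn e : O)) (isAway_awayMonoid m) hWS e y = y)

omit [IsAdicComplete (maximalIdeal O) O] [Finite (ResidueField O)] [CharP (ResidueField O) 2]
  [CharZero O] [m.IsPrime] [Module.Finite O (CohLoc (awayMonoid m) (oneRep O O (2 * M)))]
  [Module.Free O (CohLoc (awayMonoid m) (oneRep O O (2 * M)))] in
omit [NeZero M] in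
include hH in
/-- Every element is congruent to a constant modulo the prime. -/
theorem exists_C_sub_mem (P : AwayPoly O (↑S₀ : Set ℕ)) :
    ∃ o : O, P - MvPolynomial.C o ∈ finalPrime m hH.subset := by
  induction P using MvPolynomial.induction_on with
  | C o => exact ⟨o, by rw [sub_self]; exact Ideal.zero_mem _⟩
  | add P Q hP hQ =>
    obtain ⟨a, ha⟩ := hP
    obtain ⟨b, hb⟩ := hQ
    exact ⟨a + b, by rw [map_add, add_sub_add_comm]; exact Ideal.add_mem _ ha hb⟩
  | mul_X P l hP =>
    obtain ⟨a, ha⟩ := hP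
    obtain ⟨b, hb⟩ : ∃ b : O, MvPolynomial.X l - MvPolynomial.C b ∈ finalPrime m hH.subset := by
      by_cases hl2 : ((l : Nat.Primes) : ℕ) = 2
      · refine ⟨1, ?_⟩
        obtain rfl : l = twoIndex hH.two_notMem := Subtype.ext (Subtype.ext hl2)
        exact hH.two _
      · obtain ⟨A, σ, hA, hσ⟩ :=
          Fermat.Agent.Frobenius.exists_liesOverPrime_and_isFrobeniusAt_qbar l.1.2
        obtain ⟨o, ho⟩ := residue_surjective (res.rbar σ).trace
        exact ⟨o, hH.trace l hl2 A hA σ hσ o ho⟩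
    refine ⟨a * b, ?_⟩
    rw [map_mul, show P * MvPolynomial.X l - MvPolynomial.C a * MvPolynomial.C b =
      (P - MvPolynomial.C a) * MvPolynomial.X l +
        MvPolynomial.C a * (MvPolynomial.X l - MvPolynomial.C b) by ring]
    exact Ideal.add_mem _ (Ideal.mul_mem_right _ _ ha) (Ideal.mul_mem_left _ _ hb)

omit [IsAdicComplete (maximalIdeal O) O] [Finite (ResidueField O)] [CharP (ResidueField O) 2]
  [CharZero O] [NeZero M] in
include hH in
/-- The coefficients map locally to the ring. -/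
theorem isLocalHom_finalRing :
    letI := (isLocalRing_finalRing m hH.subset C).1
    IsLocalHom (algebraMap O (FinalRing (↑S₀ : Set ℕ) C)) := by
  let := (isLocalRing_finalRing m hH.subset C).1
  have := finite_finalRing m C (S₀ := (↑S₀ : Set ℕ))
  refine ⟨fun o ho => notMem_maximalIdeal.mp fun hm => notMem_maximalIdeal.mpr ho ?_⟩
  have h := IsLocalRing.eq_maximalIdeal
    (Ideal.isMaximal_comap_of_isIntegral_of_isMaximal (R := O)
      (maximalIdeal (FinalRing (↑S₀ : Set ℕ) C)))
  rw [← h, Ideal.mem_comap] at hm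
  exact hm

include hH hE in
/-- The final ring is reduced. -/
theorem isReduced_final : IsReduced (FinalRing (↑S₀ : Set ℕ) C) := by
  let := (isLocalRing_finalRing m hH.subset C).1
  have := isLocalHom_finalRing m hH C
  have h2 : (MvPolynomial.C (2 : O) : AwayPoly O (↑S₀ : Set ℕ)) ∈ finalPrime m hH.subset := by
    by_contra h
    have hu := (isUnit_mk_finalRing m hH.subset C h)
    rw [← MvPolynomial.algebraMap_eq, Ideal.Quotient.mk_algebraMap] at hu
    refine notMem_maximalIdeal.mpr (isUnit_of_map_unit _ _ hu) ?_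
    rw [← residue_eq_zero_iff, map_ofNat]
    exact CharTwo.two_eq_zero
  have hU : (MvPolynomial.X ⟨2, Nat.prime_two⟩ : HeckePoly O) ^ 2 - MvPolynomial.C (2 : O) ∈
      awayMonoid m := by
    set x := MvPolynomial.X (R := O) (twoIndex hH.two_notMem)
    refine ⟨restrictAway O hH.subset (x ^ 2 - MvPolynomial.C 2), fun hm =>
      (inferInstance : m.IsPrime).ne_top ?_, ?_⟩
    · rw [Ideal.eq_top_iff_one]
      have h1 : x - 1 ∈ finalPrime m hH.subset := by
        have := hH.two (Finset.mem_coe.not.mpr hH.two_notMem)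
        rwa [map_one] at this
      have hx : (x ^ 2 - MvPolynomial.C 2) + MvPolynomial.C 2 - (x + 1) * (x - 1) ∈
          finalPrime m hH.subset :=
        Ideal.sub_mem _ (Ideal.add_mem _ hm h2) (Ideal.mul_mem_left _ _ h1)
      rw [show (x ^ 2 - MvPolynomial.C 2) + MvPolynomial.C 2 - (x + 1) * (x - 1) = 1 by ring,
        Ideal.mem_comap, map_one] at hx
      exact hx
    · refine (awayIncl_restrictAway hH.subset _).trans ?_
      rw [map_sub, map_pow, awayIncl_X, ← MvPolynomial.algebraMap_eq, AlgHom.commutes,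
        MvPolynomial.algebraMap_eq]
  refine isReduced_finalRing (M := M) (S₀ := (↑S₀ : Set ℕ)) C oneRep_eq_one hH.odd
    (fun l hl hd hl2 => Finset.mem_coe.mpr (hH.mem l hl ?_)) hE.nonEisenstein hU
  exact (hl.dvd_mul.mp hd).resolve_left fun h =>
    hl2 ((Nat.prime_dvd_prime_iff_eq hl Nat.prime_two).mp h)

include hH hE hW hWS hC in
/-- **The universal ring maps onto the final ring.** -/
theorem exists_surjective_final (hz : ∃ z : ResidueField O, z * z + z + 1 = 0)
    {h : Pair.IsResidualPair res E W ∅} (U : (Pair.pairFunctor h).UniversalPoint) :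
    ∃ φ : U.R →ₐ[O] FinalRing (↑S₀ : Set ℕ) C, Function.Surjective φ ∧
      φ (Pair.uRoot U) = Ideal.Quotient.mk _ (MvPolynomial.X (twoIndex hH.two_notMem)) ∧
      ∀ l : AwayIndex (↑S₀ : Set ℕ), ((l : Nat.Primes) : ℕ) ≠ 2 →
        ∀ A : ValuationSubring Ω, A.LiesOverPrime ((l : Nat.Primes) : ℕ) →
          ∀ σ : GQ, A.IsFrobeniusAt σ ((l : Nat.Primes) : ℕ) →
            φ (Matrix.trace (Pair.uRep U σ)) = Ideal.Quotient.mk _ (MvPolynomial.X l) := by
  classical
  set T := FinalRing (↑S₀ : Set ℕ) C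
  have := finite_finalRing m C (S₀ := (↑S₀ : Set ℕ))
  have := isReduced_final m hH C hE
  obtain ⟨hloc, hiff⟩ := isLocalRing_finalRing m hH.subset C
  have := hloc
  have := isLocalHom_finalRing m hH C
  -- a point detecting each element
  have hdet : ∀ x : {x : T // x ≠ 0}, ∃ (O₂ : Type) (_ : CommRing O₂) (_ : IsDomain O₂)
      (_ : IsDiscreteValuationRing O₂) (_ : Algebra O O₂) (_ : Module.Finite O O₂)
      (_ : IsLocalHom (algebraMap O O₂)) (π : T →ₐ[O] Deform.smallResidue O O₂)
      (N : MRep (Deform.smallResidue O O₂)), π x.1 ≠ 0 ∧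
      Pair.IsPair res E W ∅ inferInstance Deform.residue_surjective_smallResidue N
        (π (Ideal.Quotient.mk _ (MvPolynomial.X (twoIndex hH.two_notMem)))) ∧
      ∀ (l : AwayIndex (↑S₀ : Set ℕ)), ((l : Nat.Primes) : ℕ) ≠ 2 →
        ∀ A : ValuationSubring Ω, A.LiesOverPrime ((l : Nat.Primes) : ℕ) →
          ∀ σ : GQ, A.IsFrobeniusAt σ ((l : Nat.Primes) : ℕ) →
            Matrix.trace (N σ) = π (Ideal.Quotient.mk _ (MvPolynomial.X l)) := by
    intro x
    by_contra hcon
    refine x.2 (eq_zero_of_forall_point m C x.1 fun O' _ _ _ _ _ _ _ _ _ θ => ?_)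
    by_contra hθ
    obtain ⟨O₂, i₁, i₂, i₃, i₄, i₅, i₆, i₇, i₈, i₉, i₁₀, i₁₁, hinj, N, α₀, hα₀, hN, hNtr⟩ :=
      exists_pair_point m hH C hE hW hWS hC hz injective_algebraMap_of_charZero θ
    let f : T →ₐ[O] O₂ := (IsScalarTower.toAlgHom O O' O₂).comp θ
    have hf : ∀ y, f y ∈ Deform.smallResidue O O₂ := fun y => by
      have := isLocalHom_of_finite f
      obtain ⟨P, rfl⟩ := Ideal.Quotient.mk_surjective y
      obtain ⟨o, ho'⟩ := exists_C_sub_mem m hH P
      have ho : ¬ IsUnit (Ideal.Quotient.mk _ P - algebraMap O T o) := fun hu =>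
        (hiff _).mp (show IsUnit (Ideal.Quotient.mk (RingHom.ker (finalAct (↑S₀ : Set ℕ) C))
          (P - MvPolynomial.C o)) by rw [map_sub]; exact hu) ho'
      refine ⟨residue O o, ?_⟩
      rw [ResidueField.map_residue, ← sub_eq_zero, ← map_sub, residue_eq_zero_iff,
        ← f.commutes o, ← map_sub]
      exact fun hu => ho (isUnit_of_map_unit (f : T →+* O₂) _ hu)
    let π : T →ₐ[O] Deform.smallResidue O O₂ := f.codRestrict _ hf
    refine hcon ⟨O₂, i₁, i₂, i₃, i₈, i₁₀, i₁₁, π, N, fun h0 => hθ (hinj ?_), ?_, ?_⟩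
    · rw [map_zero]; exact congrArg Subtype.val h0
    · rwa [show π (Ideal.Quotient.mk _ (MvPolynomial.X (twoIndex hH.two_notMem))) = α₀ from
        Subtype.ext hα₀.symm]
    · exact fun l hl2 A hA σ hσ => Subtype.ext (hNtr l hl2 A hA σ hσ)
  choose A i₁ i₂ i₃ i₄ i₅ i₆ π N hπ hN htr using hdet
  let t : ℕ → T := fun ℓ => if hl : ℓ.Prime ∧ ℓ ∉ (↑S₀ : Set ℕ) then
    Ideal.Quotient.mk _ (MvPolynomial.X ⟨⟨ℓ, hl.1⟩, hl.2⟩) else 0
  have ht : ∀ l : AwayIndex (↑S₀ : Set ℕ), t ((l : Nat.Primes) : ℕ) =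
      Ideal.Quotient.mk _ (MvPolynomial.X l) := fun l => dif_pos ⟨l.1.2, l.2⟩
  obtain ⟨φ, hφ, -, hroot, -, hφt⟩ := TSide.exists_surjective_of_pairs U
    (span_range_eq_top_of_dihedral hH.dihedral (by have := E.mod_eight; omega))
    (fun j => Deform.smallResidue O (A j)) (fun j => Deform.residue_surjective_smallResidue) π
    (fun j => isLocalHom_of_finite (π j))
    (fun x hx => by_contra fun h => hπ ⟨x, h⟩ (hx ⟨x, h⟩))
    (Ideal.Quotient.mk _ (MvPolynomial.X (twoIndex hH.two_notMem))) t (insert 2 S₀) N hN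
    (fun ℓ hℓ hℓS P hP σ hσ j => by
      rw [Finset.mem_insert, not_or] at hℓS
      let l : AwayIndex (↑S₀ : Set ℕ) := ⟨⟨ℓ, hℓ⟩, Finset.mem_coe.not.mpr hℓS.2⟩
      rw [show t ℓ = _ from ht l]
      exact htr j l hℓS.1 P hP σ hσ)
    (by
      rw [eq_top_iff]
      rintro x -
      obtain ⟨P, rfl⟩ := Ideal.Quotient.mk_surjective x
      induction P using MvPolynomial.induction_on with
      | C o =>
        rw [← MvPolynomial.algebraMap_eq, Ideal.Quotient.mk_algebraMap]
        exact Subalgebra.algebraMap_mem _ o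
      | add P Q hP hQ => rw [map_add]; exact add_mem hP hQ
      | mul_X P l hP =>
        rw [map_mul]
        refine mul_mem hP (Algebra.subset_adjoin ?_)
        by_cases hl2 : ((l : Nat.Primes) : ℕ) = 2
        · refine Set.mem_insert_iff.mpr (Or.inl ?_)
          rw [show l = twoIndex hH.two_notMem from Subtype.ext (Subtype.ext hl2)]
        · exact Set.mem_insert_iff.mpr (Or.inr ⟨_, ⟨l.1.2, fun h =>
            (Finset.mem_insert.mp h).elim hl2 fun h' => l.2 (Finset.mem_coe.mpr h')⟩, ht l⟩))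
  refine ⟨φ, hφ, hroot, fun l hl2 P hP σ hσ => ?_⟩
  rw [hφt _ l.1.2 (fun h => (Finset.mem_insert.mp h).elim hl2 fun h' =>
    l.2 (Finset.mem_coe.mpr h')) P hP σ hσ, ht l]

end Fermat.Agent.TwoAdic.Final
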