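import Fermat.Agent.TwoAdic.Final.Gen
import Fermat.Agent.TwoAdic.C0.Rank

/-!
# The final ring inside the full Hecke image

The final ring maps injectively into the image of all Hecke polynomials; the latter is reduced when
each generator at a prime of the level is scalar, an involution, zero, or exact with `U² - q` a
unit.
-/

set_option autoImplicit false
-- the linter alone takes seconds on the proof terms of this file
set_option linter.unusedSectionVars false

noncomputable section

open IsLocalRing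

namespace Fermat.Agent.TwoAdic.Final

open HeckeModule HeckeSemisimple HeckeJ0 LevelRaising Fermat.Agent.DefRing
open TwoAdic.C0 (HeckeImage)

local notation "Ω" => AlgebraicClosure ℚ
local notation "GQ" => (AlgebraicClosure ℚ) ≃ₐ[ℚ] (AlgebraicClosure ℚ)

section Map

variable {O : Type} [CommRing O] {L : ℕ} {P : Submonoid (HeckePoly O)}
  {ρ : Representation O (ZMod L)ˣ O} (S₀ : Set ℕ) (C : Submodule (HeckePoly O) (CohLoc P ρ))

/-- The final ring in the Hecke image. -/
def finalToImage : FinalRing S₀ C →ₐ[O] HeckeImage O C :=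
  Ideal.Quotient.liftₐ _ ((Ideal.Quotient.mkₐ O (Module.annihilator (HeckePoly O) C)).comp
    (awayIncl O S₀)) fun _ ha =>
      Ideal.Quotient.eq_zero_iff_mem.mpr <| Module.mem_annihilator.mpr fun y =>
        LinearMap.congr_fun (RingHom.mem_ker.mp ha) y

theorem finalToImage_mk (a : AwayPoly O S₀) :
    finalToImage S₀ C (Ideal.Quotient.mk _ a) = Ideal.Quotient.mk _ (awayIncl O S₀ a) :=
  rfl

theorem finalToImage_mk_X (l : AwayIndex S₀) :
    finalToImage S₀ C (Ideal.Quotient.mk _ (MvPolynomial.X l)) =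
      Ideal.Quotient.mk _ (MvPolynomial.X (l : Nat.Primes)) := by
  rw [finalToImage_mk, awayIncl_X]

theorem finalToImage_injective : Function.Injective (finalToImage S₀ C) := by
  refine (injective_iff_map_eq_zero _).mpr fun x hx => ?_
  obtain ⟨a, rfl⟩ := Ideal.Quotient.mk_surjective x
  rw [finalToImage_mk, Ideal.Quotient.eq_zero_iff_mem] at hx
  exact Ideal.Quotient.eq_zero_iff_mem.mpr
    (RingHom.mem_ker.mpr (LinearMap.ext fun y => Module.mem_annihilator.mp hx y))

theorem finalToImage_empty_surjective : Function.Surjective (finalToImage (∅ : Set ℕ) C) := by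
  intro t
  obtain ⟨P, rfl⟩ := Ideal.Quotient.mk_surjective t
  obtain ⟨a, rfl⟩ : ∃ a, awayIncl O (∅ : Set ℕ) a = P :=
    MvPolynomial.rename_surjective _ (fun l => ⟨⟨l, Set.notMem_empty _⟩, rfl⟩) P
  exact ⟨Ideal.Quotient.mk _ a, finalToImage_mk _ C a⟩

end Map

/-- An algebra map to a local algebra with finite residue field is local. -/
theorem isLocalHom_of_finite_residue {O R A : Type} [CommRing O] [CommRing R] [IsLocalRing R]
    [Algebra O R] [CommRing A]
    [IsLocalRing A] [Algebra O A] [Finite (ResidueField A)] (f : R →ₐ[O] A) :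
    IsLocalHom (f : R →+* A) := by
  let g : R →+* ResidueField A := (residue A).comp (f : R →+* A)
  have : Finite (R ⧸ RingHom.ker g) :=
    Finite.of_injective _ (RingHom.kerLift_injective g)
  have : (RingHom.ker g).IsPrime := RingHom.ker_isPrime g
  have hmax : (RingHom.ker g).IsMaximal :=
    Ideal.Quotient.maximal_of_isField _ (Finite.isField_of_domain _)
  refine ⟨fun x hx => notMem_maximalIdeal.mp fun hm => ?_⟩
  rw [← IsLocalRing.eq_maximalIdeal hmax, RingHom.mem_ker] at hm
  exact notMem_maximalIdeal.mpr hx ((residue_eq_zero_iff _).mp hm)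

/-- **Homomorphisms out of the universal ring agreeing on the root and on traces at Frobenius
elements outside a finite set are equal.** -/
theorem algHom_ext_of_traces {O : Type} [CommRing O] [IsLocalRing O] [Finite (ResidueField O)]
    {res : NormalData O} {E : LiftData} {W : Finset ℕ} {V : Set (GQ × GQ)}
    {h : Pair.IsResidualPair res E W V} (U : (Pair.pairFunctor h).UniversalPoint)
    (hspan : Submodule.span (ResidueField O) (Set.range res.rbar) = ⊤)
    {A : Type} [CommRing A] [IsLocalRing A] [IsNoetherianRing A] [Algebra O A]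
    [Finite (ResidueField A)] (f g : U.R →ₐ[O] A) (Z : Finset ℕ)
    (hroot : f (Pair.uRoot U) = g (Pair.uRoot U))
    (htr : ∀ l : ℕ, l.Prime → l ∉ Z → ∀ P : ValuationSubring Ω, P.LiesOverPrime l →
      ∀ σ : GQ, P.IsFrobeniusAt σ l →
        f (Matrix.trace (Pair.uRep U σ)) = g (Matrix.trace (Pair.uRep U σ))) : f = g := by
  refine AlgHom.ext fun r => sub_eq_zero.mp ?_
  have hle : ∀ (f : U.R →ₐ[O] A) (n : ℕ) (x : U.R), x ∈ maximalIdeal U.R ^ n →
      f x ∈ maximalIdeal A ^ n := fun f n x hx => by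
    have hf := isLocalHom_of_finite_residue f
    have h1 : (maximalIdeal U.R ^ n).map (f : U.R →+* A) ≤ maximalIdeal A ^ n := by
      rw [Ideal.map_pow]
      refine Ideal.pow_right_mono (Ideal.map_le_iff_le_comap.mpr fun y hy => ?_) n
      exact (mem_maximalIdeal _).mpr fun hu => (mem_maximalIdeal _).mp hy
        (isUnit_of_map_unit (f : U.R →+* A) y hu)
    exact h1 (Ideal.mem_map_of_mem _ hx)
  have hmem : ∀ n : ℕ, f r - g r ∈ maximalIdeal A ^ n := fun n => by
    obtain ⟨s, hs, hrs⟩ := TSide.adjoin_root_trace_sub_mem U hspan Z r n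
    have hfg : f s = g s := by
      have : Algebra.adjoin O ((fun σ => Matrix.trace (Pair.uRep U σ)) ''
          Fermat.Agent.Deform.frobeniusSet Z ∪ {Pair.uRoot U}) ≤ AlgHom.equalizer f g := by
        refine Algebra.adjoin_le ?_
        rintro _ (⟨σ, ⟨l, hl, hlZ, P, hP, hσ⟩, rfl⟩ | rfl)
        · exact htr l hl hlZ P hP σ hσ
        · exact hroot
      exact this hs
    rw [show f r - g r = f (r - s) - g (r - s) by rw [map_sub, map_sub, hfg]; ring]
    exact Ideal.sub_mem _ (hle f n _ hrs) (hle g n _ hrs)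
  have := Ideal.iInf_pow_eq_bot_of_isLocalRing (maximalIdeal A) (maximalIdeal.isMaximal A).ne_top
  exact (Submodule.mem_bot A).mp (this ▸ (Submodule.mem_iInf _).mpr hmem)

section Atkin

variable {O : Type} [CommRing O] [IsDomain O] [CharZero O]

/-- A squarefree annihilator of `U_q` on a localisation inverting `U_q² - q`. -/
theorem exists_squarefree_atkin_loc {L q N : ℕ} [hq : Fact q.Prime] [NeZero N] (hL : L = q * N)
    (hqN : ¬ q ∣ N) {ρ : Representation O (ZMod L)ˣ O} (hρ : ∀ u, ρ u = 1)
    (P : Submonoid (HeckePoly O)) (hP : NonEisenstein L P)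
    (hU : (MvPolynomial.X ⟨q, hq.out⟩ : HeckePoly O) ^ 2 - MvPolynomial.C (q : O) ∈ P) :
    ∃ f : Polynomial ℤ, f.Monic ∧ Squarefree (f.map (Int.castRingHom ℚ)) ∧ ∀ z : CohLoc P ρ,
      Polynomial.aeval (MvPolynomial.X ⟨q, hq.out⟩ : HeckePoly O) f • z = 0 := by
  subst hL
  obtain ⟨f, hm, hsq, hf⟩ := exists_squarefree_atkin (O := O) (A := O) (N := N) hqN
  refine ⟨f, hm, hsq, fun z => ?_⟩
  obtain ⟨r, hr, hr1, hmem⟩ := hP
  have : Fact r.Prime := ⟨hr⟩
  induction z using LocalizedModule.induction_on with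
  | h u s =>
    rw [LocalizedModule.smul'_mk]
    refine (LocalizedModule.mk_eq (S := P)).mpr
      ⟨⟨_, mul_mem (mul_mem hmem hU) hU⟩, ?_⟩ |>.trans (LocalizedModule.zero_mk s)
    simp only [Submonoid.smul_def, smul_zero]
    rw [smul_smul, smul_smul]
    have e : Polynomial.aeval (MvPolynomial.X (qIdx q) : HeckePoly O)
        (f * (Polynomial.X ^ 2 - Polynomial.C (q : ℤ)) ^ 2) =
        Polynomial.aeval (MvPolynomial.X (qIdx q) : HeckePoly O) f *
          (MvPolynomial.X (qIdx q) ^ 2 - MvPolynomial.C (q : O)) ^ 2 := by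
      simp [map_mul, map_sub, map_pow]
    refine (congrArg (· • u) (by rw [e, show (qIdx q : Nat.Primes) = ⟨q, hq.out⟩ from rfl]; ring : _
        = (s : HeckePoly O) *
      (Polynomial.aeval (MvPolynomial.X (qIdx q) : HeckePoly O)
        (f * (Polynomial.X ^ 2 - Polynomial.C (q : ℤ)) ^ 2) * eisen O r))).trans ?_
    rw [mul_smul, hf hρ r hr1, smul_zero]

end Atkin

/-- The operators at the primes of the level on the final part. -/
structure GenHyp {O : Type} [CommRing O] [IsLocalRing O] (E : LiftData) (W : Finset ℕ) (M : ℕ)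
    {S' : Set ℕ} (m : Ideal (AwayPoly O S')) [m.IsPrime]
    (C : Submodule (HeckePoly O) (CohLoc (awayMonoid m) (oneRep O O (2 * M)))) : Prop where
  sgn : ∀ (q : ℕ) (hq : q.Prime), q ∣ E.D → q ≠ E.ℓ₀ → ∀ y ∈ C,
    (MvPolynomial.X ⟨q, hq⟩ : HeckePoly O) • y = (E.sgn q : O) • y
  ell : ∀ y ∈ C, (MvPolynomial.X ⟨E.ℓ₀, E.prime_ℓ₀⟩ : HeckePoly O) •
    (MvPolynomial.X ⟨E.ℓ₀, E.prime_ℓ₀⟩ : HeckePoly O) • y = y
  square : ∀ (q : ℕ) (hq : q.Prime), q ∣ M → q ∈ W → ∀ y ∈ C,
    (MvPolynomial.X ⟨q, hq⟩ : HeckePoly O) • y = 0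
  core : ∀ (q : ℕ) (hq : q.Prime), q ∣ M → ¬ q ∣ E.D → q ∉ W → ∃ (h : q ∉ S') (o : O),
    residue O o * residue O o + residue O o + 1 = 0 ∧
      MvPolynomial.X (⟨⟨q, hq⟩, h⟩ : AwayIndex S') - MvPolynomial.C o ∈ m

section Reduced

variable {O : Type} [CommRing O] [IsDomain O] [IsDiscreteValuationRing O]
  [IsAdicComplete (maximalIdeal O) O] [Finite (ResidueField O)] [CharP (ResidueField O) 2]
  [CharZero O]
  {res : NormalData O} {E : LiftData} {W : Finset ℕ} {M : ℕ} [NeZero M] {S₀ : Finset ℕ}
  {S' : Set ℕ} (m : Ideal (AwayPoly O S')) [m.IsPrime] (hH : FinalHyp res E W M S₀ m)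
  (C : Submodule (HeckePoly O) (CohLoc (awayMonoid m) (oneRep O O (2 * M))))
  (hG : GenHyp E W M m C)
  (hE : ExactHyp (awayMonoid m) (1 : (ZMod (2 * M))ˣ →* O))

omit [IsDomain O] [IsDiscreteValuationRing O] in
omit [IsAdicComplete (maximalIdeal O) O] [Finite (ResidueField O)] [CharZero O]
  [CharP (ResidueField O) 2] in
theorem C_notMem_of_isUnit {o : O} (ho : IsUnit o) : (MvPolynomial.C o : AwayPoly O S') ∉ m :=
  fun h => (inferInstance : m.IsPrime).ne_top (Ideal.eq_top_of_isUnit_mem _ h (ho.map _))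

omit [CharP (ResidueField O) 2] in
omit [IsAdicComplete (maximalIdeal O) O] [Finite (ResidueField O)] [CharZero O] in
/-- An operator congruent to `o`, `o² ≢ 1`, makes `U² - q` invertible, `q` odd or two. -/
theorem sq_sub_mem_awayMonoid {q : ℕ} (hq : q.Prime) (h : q ∉ S') {o : O}
    (ho : residue O o * residue O o ≠ residue O (q : O))
    (hm : MvPolynomial.X (⟨⟨q, hq⟩, h⟩ : AwayIndex S') - MvPolynomial.C o ∈ m) :
    (MvPolynomial.X ⟨q, hq⟩ : HeckePoly O) ^ 2 - MvPolynomial.C (q : O) ∈ awayMonoid m := by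
  set x := MvPolynomial.X (R := O) (⟨⟨q, hq⟩, h⟩ : AwayIndex S') with hx
  refine ⟨x ^ 2 - MvPolynomial.C (q : O), fun hc => C_notMem_of_isUnit m (o := o * o - q) ?_ ?_, ?_⟩
  · refine notMem_maximalIdeal.mp fun hm' => ho ?_
    rw [← residue_eq_zero_iff, map_sub, map_mul, sub_eq_zero] at hm'
    exact hm'
  · have hc' : x ^ 2 - MvPolynomial.C (q : O) ∈ m := hc
    rw [show MvPolynomial.C (o * o - (q : O)) = (x ^ 2 - MvPolynomial.C (q : O)) -
        (x + MvPolynomial.C o) * (x - MvPolynomial.C o) by rw [map_sub, map_mul]; ring]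
    exact Ideal.sub_mem _ hc' (Ideal.mul_mem_left _ _ hm)
  · show awayIncl O S' (x ^ 2 - MvPolynomial.C (q : O)) = _
    rw [map_sub, map_pow, hx, awayIncl_X, ← MvPolynomial.algebraMap_eq, AlgHom.commutes,
      MvPolynomial.algebraMap_eq]

omit [IsAdicComplete (maximalIdeal O) O] [Finite (ResidueField O)] in
include hH hG hE in
/-- A squarefree annihilator of each generator on the final part. -/
theorem exists_squarefree_gen (l : Nat.Primes) :
    ∃ f : Polynomial ℤ, f.Monic ∧ Squarefree (f.map (Int.castRingHom ℚ)) ∧ ∀ y : C,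
      Polynomial.aeval (MvPolynomial.X l : HeckePoly O) f • y = 0 := by
  obtain ⟨l, hl⟩ := l
  have : Fact l.Prime := ⟨hl⟩
  have : NeZero (2 * M) := ⟨mul_ne_zero two_ne_zero (NeZero.ne M)⟩
  have hρ : ∀ u, oneRep O O (2 * M) u = 1 := oneRep_eq_one
  have h2k : residue O (2 : O) = 0 := by rw [map_ofNat]; exact CharTwo.two_eq_zero
  by_cases hD : l ∣ E.D
  · by_cases h0 : l = E.ℓ₀
    · subst h0
      refine ⟨Polynomial.X ^ 2 - Polynomial.C 1, Polynomial.monic_X_pow_sub_C _ two_ne_zero, ?_,
        fun y => Subtype.ext ?_⟩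
      · rw [← PerfectField.separable_iff_squarefree]
        simpa using (Polynomial.separable_X_pow_sub_C (1 : ℚ) (n := 2) (by norm_num) one_ne_zero)
      · simp only [map_sub, map_mul, Polynomial.aeval_X, map_one, sub_smul, one_smul, pow_two,
          mul_smul, Submodule.coe_smul, ZeroMemClass.coe_zero]
        rw [hG.ell _ y.2, sub_self]
    · refine ⟨Polynomial.X - Polynomial.C (E.sgn l), Polynomial.monic_X_sub_C _, ?_,
        fun y => Subtype.ext ?_⟩
      · rw [Polynomial.map_sub, Polynomial.map_X, Polynomial.map_C]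
        exact (Polynomial.irreducible_X_sub_C _).squarefree
      · simp only [map_sub, Polynomial.aeval_X, Polynomial.aeval_C, sub_smul, Submodule.coe_smul,
          ZeroMemClass.coe_zero]
        rw [hG.sgn l hl hD h0 _ y.2, sub_eq_zero]
        exact ((congrArg (· • (y : CohLoc (awayMonoid m) (oneRep O O (2 * M))))
          ((eq_intCast _ _).trans (map_intCast (algebraMap O (HeckePoly O)) _).symm)).trans
            (algebraMap_smul (HeckePoly O) (E.sgn l : O) _)).symm
  by_cases hW : l ∣ M ∧ l ∈ W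
  · refine ⟨Polynomial.X, Polynomial.monic_X, ?_, fun y => Subtype.ext ?_⟩
    · rw [Polynomial.map_X]; exact Polynomial.irreducible_X.squarefree
    · rw [Polynomial.aeval_X, Submodule.coe_smul, ZeroMemClass.coe_zero]
      exact hG.square l hl hW.1 hW.2 _ y.2
  suffices h : ∃ f : Polynomial ℤ, f.Monic ∧ Squarefree (f.map (Int.castRingHom ℚ)) ∧
      ∀ z : CohLoc (awayMonoid m) (oneRep O O (2 * M)),
        Polynomial.aeval (MvPolynomial.X ⟨l, hl⟩ : HeckePoly O) f • z = 0 by
    obtain ⟨f, h1, h2, h3⟩ := h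
    exact ⟨f, h1, h2, fun y => Subtype.ext (h3 y)⟩
  by_cases hl2 : l = 2
  · subst hl2
    have h2S : (2 : ℕ) ∉ S' := fun h => hH.two_notMem (Finset.mem_coe.mp (hH.subset h))
    refine exists_squarefree_atkin_loc (N := M) rfl hH.odd hρ _ hE.nonEisenstein
      (sq_sub_mem_awayMonoid m hl h2S (o := 1) ?_ ?_)
    · rw [Nat.cast_ofNat, h2k, map_one, mul_one]
      exact one_ne_zero
    · have := hH.two (Finset.mem_coe.not.mpr hH.two_notMem)
      rw [Ideal.mem_comap, map_sub, restrictAway, MvPolynomial.rename_X,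
        MvPolynomial.rename_C] at this
      exact this
  by_cases hlM : l ∣ M
  · have hlW : l ∉ W := fun h => hW ⟨hlM, h⟩
    obtain ⟨hqq, -⟩ := hH.core l hl hlM hD hlW
    obtain ⟨hS, o, ho, hm⟩ := hG.core l hl hlM hD hlW
    obtain ⟨M₁, rfl⟩ := hlM
    have : NeZero (2 * M₁) := ⟨mul_ne_zero two_ne_zero fun h => NeZero.ne (l * M₁)
        (by rw [h, mul_zero])⟩
    refine exists_squarefree_atkin_loc (N := 2 * M₁) (by ring) (fun h => ?_) hρ _ hE.nonEisenstein
      (sq_sub_mem_awayMonoid m hl hS (o := o) (fun h => ?_) hm)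
    · rcases hl.dvd_mul.mp h with h | h
      · exact hl2 ((Nat.prime_dvd_prime_iff_eq hl Nat.prime_two).mp h)
      · exact hqq (Nat.mul_dvd_mul_left l h)
    · obtain ⟨k, hk⟩ := hl.odd_of_ne_two hl2
      have h1 : residue O (l : O) = 1 := by
        rw [hk]; push_cast; rw [map_add, map_mul, h2k, zero_mul, zero_add, map_one]
      rw [h1] at h
      have : residue O o = 0 := by
        linear_combination ho - h - (CharTwo.two_eq_zero (R := ResidueField O))
      rw [this, mul_zero] at h
      exact zero_ne_one h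
  exact exists_squarefree_cohLoc hρ _ hE.nonEisenstein fun h => (hl.dvd_mul.mp h).elim
    (fun h => hl2 ((Nat.prime_dvd_prime_iff_eq hl Nat.prime_two).mp h)) hlM

variable [Module.Finite O C] [Module.Free O C]

omit [Module.Finite O ↥C] in
include hH hG hE in
/-- **The Hecke image is reduced.** -/
theorem isReduced_image : IsReduced (HeckeImage O C) := by
  refine ⟨fun x ⟨k, hk⟩ => ?_⟩
  obtain ⟨a, rfl⟩ := Ideal.Quotient.mk_surjective x
  rw [← map_pow, Ideal.Quotient.eq_zero_iff_mem] at hk
  refine Ideal.Quotient.eq_zero_iff_mem.mpr (Module.mem_annihilator.mpr fun y => ?_)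
  refine smul_eq_zero_of_pow_smul (fun z hz => ?_) k y (Module.mem_annihilator.mp hk y)
  refine smul_eq_zero_of_sq_smul (O := O) ((Finset.finite_toSet a.vars).image MvPolynomial.X) ?_ ?_
      hz
  · rintro _ ⟨l, -, rfl⟩
    exact exists_squarefree_gen m hH C hG hE l
  · rw [← MvPolynomial.supported_eq_adjoin_X]
    exact MvPolynomial.mem_supported_vars a

variable [Module.Finite O (CohLoc (awayMonoid m) (oneRep O O (2 * M)))]
  [Module.Free O (CohLoc (awayMonoid m) (oneRep O O (2 * M)))]

include hH hG hE in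
/-- **The Hecke image has enough points.** -/
theorem eq_zero_of_forall_point_image (x : HeckeImage O C)
    (hx : ∀ (O' : Type) [CommRing O'] [IsDomain O'] [IsDiscreteValuationRing O']
      [IsAdicComplete (maximalIdeal O') O'] [Finite (ResidueField O')] [CharZero O']
      [Algebra O O'] [Module.Finite O O'] [IsLocalHom (algebraMap O O')]
      (θ : HeckeImage O C →ₐ[O] O'), θ x = 0) : x = 0 := by
  have hred := isReduced_image m hH C hG hE
  let e := AlgEquiv.ofBijective (finalToImage (∅ : Set ℕ) C)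
    ⟨finalToImage_injective _ C, finalToImage_empty_surjective C⟩
  have : IsReduced (FinalRing (∅ : Set ℕ) C) :=
    isReduced_of_injective e e.injective
  rw [← e.apply_symm_apply x, eq_zero_of_forall_point m C (e.symm x) fun O' _ _ _ _ _ _ _ _ _ θ =>
      ?_,
    map_zero]
  exact hx O' (θ.comp e.symm.toAlgHom)

omit [IsAdicComplete (maximalIdeal O) O] [Finite (ResidueField O)] [CharP (ResidueField O) 2]
  [CharZero O] [NeZero M] in
/-- Elements of the prime are not units at a point. -/
theorem residue_image_eq_zero [Nontrivial C] {O' : Type} [CommRing O'] [IsLocalRing O']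
    [Algebra O O']
    [IsLocalHom (algebraMap O O')] (θ : HeckeImage O C →ₐ[O] O') {x : AwayPoly O S'} (hx : x ∈ m) :
    residue O' (θ (Ideal.Quotient.mk _ (awayIncl O S' x))) = 0 := by
  have := finite_finalRing m C (S₀ := S')
  obtain ⟨hloc, hiff⟩ := isLocalRing_finalRing m (le_refl S') C
  let θ' := θ.comp (finalToImage S' C)
  have := isLocalHom_of_finite θ'
  have hx' : x ∈ finalPrime m (le_refl S') := by
    rw [finalPrime, Ideal.mem_comap]
    convert hx
    exact MvPolynomial.rename_id_apply x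
  rw [residue_eq_zero_iff, ← finalToImage_mk]
  exact fun hu => (hiff x).mp (isUnit_of_map_unit (θ' : FinalRing S' C →+* O') _ hu) hx'

end Reduced

end Fermat.Agent.TwoAdic.Final

end
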