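import Fermat.Agent.TwoAdic.TSide.TwoNewVectors

/-!
# Eigen classes old at `q`

An eigen class of level `q M` on which `U_q` has a value `α` with `α² ≠ 1` gives an eigen class of
level `M` on which `T_q` has the value `α + q / α`.
-/

set_option autoImplicit false

noncomputable section

open CongruenceSubgroup Polynomial

namespace Fermat.Agent.TwoAdic.Final

open HeckeJ0 HeckeModule EigenSystems Engine.TRep Engine.Lifting

variable {K : Type} [Field K] [CharZero K] {M q : ℕ} [NeZero M] [hq : Fact q.Prime]
  (hqM : ¬ q ∣ M) {r : ℕ} [hr : Fact r.Prime]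

include hqM in
/-- Old classes with the same image vanish when they are not Eisenstein. -/
theorem old_eq_zero (hr1 : (r : ZMod (q * M)) = 1) {e : K} (he : e ≠ (r : K) + 1)
    (χ : (ZMod 1)ˣ →* K) (hχ : χ = 1)
    {x y : Coh1 (scalarRep (levelChar (one_dvd M) χ) K)}
    (hx : heckeOp _ r x = e • x) (hy : heckeOp _ r y = e • y)
    (h : resSelf K (one_dvd M) (one_dvd (q * M)) χ x +
      wSelf K hqM (one_dvd M) (one_dvd (q * M)) χ
        (resSelf K (one_dvd M) (one_dvd (q * M)) χ y) = 0) : x = 0 ∧ y = 0 := by
  have : NeZero q := ⟨hq.out.ne_zero⟩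
  obtain ⟨h1, h2⟩ := traces_old hqM (one_dvd M) (one_dvd (q * M)) χ hχ x y
  rw [h, map_zero] at h1 h2
  set T := heckeOp (scalarRep (levelChar (one_dvd M) χ) K) q
  have h1' : T (T y) = -(((q : K) + 1) • T x) := by
    have := congrArg T h1
    rw [map_zero, map_add, map_smul] at this
    linear_combination (norm := module) -this
  have h2' : T (T x) = -(((q : K) + 1) • T y) := by
    have := congrArg T h2
    rw [map_zero, map_add, map_smul] at this
    linear_combination (norm := module) -this
  have hTx : T (T x) = (((q : K) + 1) ^ 2) • x := by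
    linear_combination (norm := module) h2' + ((q : K) + 1) • h1
  have hTy : T (T y) = (((q : K) + 1) ^ 2) • y := by
    linear_combination (norm := module) h1' + ((q : K) + 1) • h2
  obtain ⟨f, -, -, he1, he2, -, hf⟩ := HeckeSemisimple.exists_annihilator (N := M) hq.out hqM
  have hr' : (r : ZMod M) = 1 := by
    have := congrArg (ZMod.castHom (dvd_mul_left M q) (ZMod M)) hr1
    rwa [map_natCast, map_one] at this
  have key : ∀ z, heckeOp _ r z = e • z → T (T z) = (((q : K) + 1) ^ 2) • z → z = 0 := by
    intro z hz hTz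
    refine (smul_eq_zero.mp (show (e - ((r : K) + 1)) • z = 0 from ?_)).resolve_left
      (sub_ne_zero.mpr he)
    have hkill := HeckeSemisimple.aeval_eisen_smul_eq_zero (A := K) (O := K)
      (ρ := scalarRep (levelChar (one_dvd M) χ) K)
      (fun u => LinearMap.ext fun v => by
        rw [scalarRep_apply, TwoAdic.levelChar_eq_one χ hχ (one_dvd M), one_smul]; rfl)
      hqM hf hr' z
    rw [eisen_smul, hz, ← sub_smul] at hkill
    refine TSide.eq_zero_of_sq_eq T (c := (q : ℤ) + 1) ?_ ?_ ?_ hkill
    · rw [eval_mul]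
      refine mul_ne_zero he1 ?_
      have := hq.out.two_le
      simp
      nlinarith
    · rw [eval_mul]
      refine mul_ne_zero he2 ?_
      have := hq.out.two_le
      simp
      nlinarith
    · rw [map_smul, map_smul, hTz, smul_comm]
      push_cast
      rfl
  exact ⟨key x hx hTx, key y hy hTy⟩

include hqM in
/-- **An eigen class with `α² ≠ 1` is old.** -/
theorem exists_old_class (hr1 : (r : ZMod (q * M)) = 1) {e : K} (he : e ≠ (r : K) + 1)
    {u : Coh1 (trivRep (q * M) K K)} (hu : u ≠ 0) {α : K} (hα : α ≠ 0) (hα2 : α * α ≠ 1)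
    (hU : heckeOp _ q u = α • u) (hTr : heckeOp _ r u = e • u) :
    ∃ x : Coh1 (trivRep M K K), x ≠ 0 ∧ heckeOp _ q x = (α + (q : K) / α) • x ∧
      ∀ (l : ℕ) [Fact l.Prime] (c : K), ¬ l ∣ q * M → heckeOp _ l u = c • u →
        heckeOp _ l x = c • x := by
  have : NeZero q := ⟨hq.out.ne_zero⟩
  set χ : (ZMod 1)ˣ →* K := 1 with hχ
  have hM1 : 1 ∣ M := one_dvd M
  have hML : 1 ∣ q * M := one_dvd (q * M)
  have hcast : scalarRep (levelChar hML χ) K = trivRep (q * M) K K := TSide.levelRep_eq hML χ hχ
  have hcastM : scalarRep (levelChar hM1 χ) K = trivRep M K K := TSide.levelRep_eq hM1 χ hχ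
  obtain ⟨u', rfl⟩ := (castCoh hcast).surjective u
  have hu' : u' ≠ 0 := fun h => hu (by rw [h, map_zero])
  have hback : ∀ (l : ℕ) [Fact l.Prime] (d : K), heckeOp _ l (castCoh hcast u') = d • castCoh hcast
      u' →
      heckeOp _ l u' = d • u' := fun l _ d h => by
    rw [← castCoh_heckeOp hcast l u', ← map_smul] at h
    exact (castCoh hcast).injective h
  have hUu : heckeOp _ q u' = α • u' := hback q α hU
  have hTu : heckeOp _ r u' = e • u' := hback r e hTr
  set b := charTraceTwist K hM1 χ hqM hML u' with hb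
  set c := charTrace K hM1 χ hqM hML u' with hc
  set T := heckeOp (scalarRep (levelChar hM1 χ) K) q with hTdef
  set res := resSelf K hM1 hML χ with hres
  set w := wSelf K hqM hM1 hML χ with hw
  have hrq : ¬ r ∣ q * M := fun hd => by
    have h1 := congrArg (ZMod.castHom hd (ZMod r)) hr1
    rw [map_natCast, map_one, ZMod.natCast_self] at h1
    exact zero_ne_one h1
  have hTb : heckeOp _ r b = e • b := by
    rw [hb, ← charTraceTwist_heckeOp hM1 χ hqM hML hrq, hTu, map_smul]
  have hTc : heckeOp _ r c = e • c := by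
    rw [hc, ← charTrace_heckeOp hM1 χ hqM hML hrq, hTu, map_smul]
  have hTTb : heckeOp _ r (T b) = e • T b := by
    rw [hTdef, ← Module.End.mul_apply, heckeOp_comm (ℓ := r) _ q, Module.End.mul_apply, hTb,
        map_smul]
  -- `(α² - 1) u` is old
  set x := T b - c with hx
  have hsq : (α * α - 1) • u' = res x + w (res (-b)) := by
    have h := heckeOp_sq_sub hqM hM1 hML χ hχ u'
    rw [hUu, map_smul, hUu, smul_smul, ← hres, ← hb, ← hc, heckeOp_resSelf hqM hM1 hML χ hχ,
      ← hTdef, ← hres, ← hw] at h
    rw [sub_smul, one_smul, h, hx, map_sub, map_neg, map_neg]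
    abel
  have hU2 : res (T x + (q : K) • (-b) - α • x) + w (res (-x - α • (-b))) = 0 := by
    have h : heckeOp _ q ((α * α - 1) • u') = α • ((α * α - 1) • u') := by
      rw [map_smul, hUu, smul_comm]
    rw [hsq, map_add, hres, hw, heckeOp_resSelf hqM hM1 hML χ hχ,
      heckeOp_wSelf_resSelf hqM hM1 hML χ hχ, ← hTdef, ← hres, ← hw] at h
    simp only [map_add, map_neg, map_smul, smul_add, smul_neg, sub_eq_add_neg] at h ⊢
    linear_combination (norm := module) h
  obtain ⟨h1, h2⟩ := old_eq_zero hqM hr1 he χ hχ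
    (x := T x + (q : K) • (-b) - α • x) (y := -x - α • (-b))
    (by
      have hTx : heckeOp _ r x = e • x := by rw [hx, map_sub, hTTb, hTc, smul_sub]
      have hTTx : heckeOp _ r (T x) = e • T x := by
        rw [hTdef, ← Module.End.mul_apply, heckeOp_comm (ℓ := r) _ q, Module.End.mul_apply, hTx,
            map_smul]
      simp only [map_add, map_sub, map_neg, map_smul, hTTx, hTx, hTb, smul_add, smul_sub, smul_neg]
      module)
    (by
      have hTx : heckeOp _ r x = e • x := by rw [hx, map_sub, hTTb, hTc, smul_sub]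
      simp only [map_sub, map_neg, map_smul, hTx, hTb, smul_sub, smul_neg]
      module)
    hU2
  have hxb : x = α • b := by linear_combination (norm := module) -h2
  have hTbα : T b = (α + (q : K) / α) • b := by
    have h3 : α • T b = (α * α + q) • b := by
      rw [hxb, map_smul] at h1
      linear_combination (norm := module) h1
    rw [← inv_smul_smul₀ hα (T b), h3, smul_smul]
    congr 1
    field_simp
  have hb0 : b ≠ 0 := fun h0 => by
    rw [hxb, h0, smul_zero, map_zero, neg_zero, map_zero, map_zero, add_zero] at hsq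
    exact hu' ((smul_eq_zero.mp hsq).resolve_left (sub_ne_zero.mpr hα2))
  refine ⟨castCoh hcastM b, fun h0 => hb0 ((castCoh hcastM).injective (h0.trans (map_zero _).symm)),
    ?_, fun l _ d hl hd => ?_⟩
  · rw [← castCoh_heckeOp hcastM, ← hTdef, hTbα, map_smul]
  · rw [← castCoh_heckeOp hcastM, hb, ← charTraceTwist_heckeOp hM1 χ hqM hML hl, hback l d hd,
      map_smul, map_smul]

end Fermat.Agent.TwoAdic.Final
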