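import Fermat.Agent.TwoAdic.Final.PairLocal
import Fermat.Agent.TwoAdic.TSide.Descend
import Fermat.Agent.TwoAdic.TopPrimes

/-!
# A class of level `2 M` gives a pair

An eigen class of level `2 M` with signs `- s` at the primes of `D`, congruent to the dihedral
residual representation and with `U₂` congruent to `1`, gives a pair free at `W`.
-/

set_option autoImplicit false
-- the linter alone takes seconds on the proof terms of this file
set_option linter.unusedSectionVars false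

noncomputable section

open IsLocalRing Matrix

namespace Fermat.Agent.TwoAdic.Final

open HeckeModule EigenSystems Engine.TRep HeckeJ0 LevelRaising Fermat.Agent.EigenRep
  Fermat.Agent.DefRing

local notation "Ω" => AlgebraicClosure ℚ
local notation "GQ" => (AlgebraicClosure ℚ) ≃ₐ[ℚ] (AlgebraicClosure ℚ)

variable {O : Type} [CommRing O] [IsDomain O] [IsDiscreteValuationRing O]
  [IsAdicComplete (maximalIdeal O) O] [Finite (ResidueField O)] [CharP (ResidueField O) 2]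

/-- A class with signs, over every field receiving the coefficients. -/
def HasSignedClass (E : LiftData) (M : ℕ) (S : Finset ℕ) {O' : Type} [CommRing O']
    (a : Nat.Primes → O') (α : O') : Prop :=
  ∀ (K : Type) [Field K] [CharZero K] (f : O' →+* K), Function.Injective f →
    ∃ c : Coh1 (scalarRep (levelChar (one_dvd (2 * M)) (1 : (ZMod 1)ˣ →* K)) K), c ≠ 0 ∧
      (∀ l : Nat.Primes, (l : ℕ) ∉ S → heckeGen _ l c = f (a l) • c) ∧
      heckeGen _ ⟨2, Nat.prime_two⟩ c = f α • c ∧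
      ∀ (q : ℕ) [Fact q.Prime], q ∣ E.D → q ≠ E.ℓ₀ → ∀ hW : IsALPrimes (2 * M) {q},
        alOp K hW (Finset.mem_singleton_self q) (one_dvd (2 * M)) 1 (Nat.coprime_one_right q) 1 c =
          -((E.sgn q : K) • c)

/-- **A class gives a pair.** -/
theorem exists_pair_of_class [CharZero O] (hz : ∃ z : ResidueField O, z * z + z + 1 = 0)
    {res : NormalData O} {E : LiftData} {W : Finset ℕ} (haux : E.aux = ∅)
    (hdih : IsDihedralResidual E.D res.rbar) (hcont : IsCont res.rbar)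
    {M : ℕ} [NeZero M] (hM : ¬ 2 ∣ M)
    (hDM : ∀ q : ℕ, q.Prime → q ∣ E.D → q ∣ M ∧ ¬ q * q ∣ M)
    (hXM : ∀ q : ℕ, q.Prime → q ∣ M → ¬ q ∣ E.D → q ∉ W → ¬ q * q ∣ M ∧
      ∀ A : ValuationSubring Ω, A.LiesOverPrime q → ∀ φ : GQ, A.IsFrobeniusAt φ q →
        (res.rbar φ).trace = 1)
    (S : Finset ℕ) (h2S : 2 ∈ S) (hMS : ∀ q : ℕ, q.Prime → q ∣ M → q ∈ S)
    {O' : Type} [CommRing O'] [IsDomain O'] [IsDiscreteValuationRing O']
    [IsAdicComplete (maximalIdeal O') O'] [Finite (ResidueField O')] [CharZero O']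
    [Algebra O O'] [Module.Finite O O'] [IsLocalHom (algebraMap O O')]
    (a : Nat.Primes → O') (α : O') (hα : residue O' α = 1)
    (htr : ∀ (ℓ : ℕ) (hℓ : ℓ.Prime), ℓ ∉ S → ∀ A : ValuationSubring Ω, A.LiesOverPrime ℓ →
      ∀ σ : GQ, A.IsFrobeniusAt σ ℓ → residue O' (a ⟨ℓ, hℓ⟩) =
        ResidueField.map (algebraMap O O') (res.rbar σ).trace)
    (hclass : HasSignedClass E M S a α) :
    ∃ (O₂ : Type) (_ : CommRing O₂) (_ : IsDomain O₂) (_ : IsDiscreteValuationRing O₂)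
      (_ : IsAdicComplete (maximalIdeal O₂) O₂) (_ : Finite (ResidueField O₂)) (_ : CharZero O₂)
      (_ : Algebra O' O₂) (_ : Algebra O O₂) (_ : IsScalarTower O O' O₂) (_ : Module.Finite O O₂)
      (_ : IsLocalHom (algebraMap O O₂)),
      Function.Injective (algebraMap O' O₂) ∧
      ∃ (N : MRep (Deform.smallResidue O O₂)) (α₀ : Deform.smallResidue O O₂),
        (α₀ : O₂) = algebraMap O' O₂ α ∧
        Pair.IsPair res E W ∅ inferInstance Deform.residue_surjective_smallResidue N α₀ ∧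
        ∀ (ℓ : ℕ) (hℓ : ℓ.Prime), ℓ ∉ S → ∀ A : ValuationSubring Ω, A.LiesOverPrime ℓ →
          ∀ σ : GQ, A.IsFrobeniusAt σ ℓ →
            ((N σ).trace : O₂) = algebraMap O' O₂ (a ⟨ℓ, hℓ⟩) := by
  classical
  have : Fact (Nat.Prime 2) := ⟨Nat.prime_two⟩
  have : NeZero (2 * M) := ⟨mul_ne_zero two_ne_zero (NeZero.ne M)⟩
  have hD0 : 0 < E.D := by have := E.mod_eight; omega
  have h2D : ¬ 2 ∣ E.D := by have := E.mod_eight; omega
  have h2LS : ∀ ℓ : ℕ, ℓ.Prime → ℓ ∣ 2 * M → ℓ ∈ S := fun ℓ hℓ h =>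
    (hℓ.dvd_mul.mp h).elim (fun h => (Nat.prime_dvd_prime_iff_eq hℓ Nat.prime_two).mp h ▸ h2S)
      (hMS ℓ hℓ)
  let ψ : ResidueField O →+* ResidueField O' := ResidueField.map (algebraMap O O')
  have : CharP (ResidueField O') 2 := charP_of_injective_ringHom ψ.injective 2
  have h2' : ((2 : ℕ) : O') ∈ maximalIdeal O' := by
    rw [← residue_eq_zero_iff, map_natCast]; exact CharP.cast_eq_zero _ 2
  let r₁ : MRep (ResidueField O') := mapRep ψ res.rbar
  have hr₁c : IsCont r₁ := hcont.map ψ inferInstance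
  have hr₁ : ∀ σ, r₁ σ = (res.rbar σ).map ψ := fun σ => rfl
  have htr₁ : ∀ σ, (r₁ σ).trace = ψ (res.rbar σ).trace := fun σ => by
    rw [hr₁]; exact (AddMonoidHom.map_trace ψ.toAddMonoidHom _).symm
  obtain ⟨g₀, h₀, hgh₀⟩ := hdih.exists_commutator_det_ne_zero hD0
  have hgh₁ : (r₁ g₀ * r₁ h₀ - r₁ h₀ * r₁ g₀).det ≠ 0 := by
    rw [show r₁ g₀ * r₁ h₀ - r₁ h₀ * r₁ g₀ =
      ψ.mapMatrix (res.rbar g₀ * res.rbar h₀ - res.rbar h₀ * res.rbar g₀) by
        simp only [map_sub, map_mul]; rfl, ← RingHom.map_det]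
    exact (map_ne_zero ψ).mpr hgh₀
  -- the Eisenstein prime
  obtain ⟨r, hr, hrS, hr1, hrtr⟩ := exists_orderThree_one_mod hdih hcont hD0 (2 * M) S
  have := Fact.mk hr
  have hr2 : r ≠ 2 := fun h => hrS (h ▸ h2S)
  have hne : a ⟨r, hr⟩ ≠ (r : O') + 1 := fun h => by
    obtain ⟨A, φ, hA, hφ⟩ := Fermat.Agent.Frobenius.exists_liesOverPrime_and_isFrobeniusAt_qbar hr
    have h1 := htr r hr hrS A hA φ hφ
    rw [hrtr A hA φ hφ, map_one, h, map_add, map_natCast, map_one] at h1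
    obtain ⟨m, hm⟩ := hr.odd_of_ne_two hr2
    rw [hm] at h1
    push_cast at h1
    rw [CharTwo.two_eq_zero (R := ResidueField O'), zero_mul, zero_add] at h1
    exact one_ne_zero (α := ResidueField O') (by linear_combination h1)
  -- the attached representation
  let hes := SemistableRed.allRelations (2 * M) 2
  let K' := FractionRing O'
  have : CharZero K' := charZero_of_injective_algebraMap (IsFractionRing.injective O' K')
  obtain ⟨c', hc'0, hc', -, -⟩ := hclass K' (algebraMap O' K') (IsFractionRing.injective O' K')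
  let e' := TSide.levelRep_eq (A := K') (one_dvd (2 * M)) (1 : (ZMod 1)ˣ →* K') rfl
  obtain ⟨-, v, -, hv0, -, hv⟩ := TSide.exists_eigenSub_of_class (L := K') hes hr1 hrS hne
    (c := castCoh e' c') (fun h => hc'0 ((castCoh e').injective (h.trans (map_zero _).symm)))
    (fun l hl => by
      have : Fact (l : ℕ).Prime := ⟨l.2⟩
      show heckeOp _ (l : ℕ) _ = _
      rw [← castCoh_heckeOp e' (l : ℕ) c']
      exact (congrArg (castCoh e') (hc' l hl)).trans (map_smul _ _ _))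
  obtain ⟨O₂, i₁, i₂, i₃, i₄, i₅, i₆, i₇, i₈, i₉, hp₂, hinj, ρ, hdet, hfrob, hres, -, hunr, huni,
      -⟩ := TSide.exists_attached h2' hes S h2S h2LS a ⟨v, hv0, hv⟩ (resRep r₁ hr₁c)
    (resBasis r₁ hr₁c) ⟨g₀, h₀, by simpa only [toMatrix_resRep] using hgh₁⟩
    (fun ℓ hℓ hℓS A hA σ hσ => by rw [trace_resRep, htr₁]; exact htr ℓ hℓ hℓS A hA σ hσ)
  let := i₇
  let : Algebra O O₂ := ((algebraMap O' O₂).comp (algebraMap O O')).toAlgebra
  have : IsScalarTower O O' O₂ := IsScalarTower.of_algebraMap_eq fun _ => rfl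
  have : Module.Finite O O₂ := Module.Finite.trans O' O₂
  have hlh : IsLocalHom (algebraMap O O₂) :=
    RingHom.isLocalHom_comp (algebraMap O' O₂) (algebraMap O O')
  refine ⟨O₂, i₁, i₂, i₃, i₄, i₅, i₆, i₇, inferInstance, inferInstance, inferInstance, hlh, hinj,
      ?_⟩
  let ψ₂ : ResidueField O' →+* ResidueField O₂ := ResidueField.map (algebraMap O' O₂)
  have hψ : ResidueField.map (algebraMap O O₂) = ψ₂.comp ψ :=
    ResidueField.map_comp (algebraMap O O') (algebraMap O' O₂)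
  have : CharP (ResidueField O₂) 2 := charP_of_injective_ringHom ψ₂.injective 2
  let rb : MRep (ResidueField O₂) := mapRep ψ₂ r₁
  have hrb : ∀ σ, rb σ = (r₁ σ).map ψ₂ := fun σ => rfl
  obtain ⟨g, hg⟩ := (residual_isEquiv_baseChangeAlong_iff ρ (repBasis ρ) _ (resBasis r₁ hr₁c)
    ψ₂).mp hres
  have hmat : IsResidualMat ρ rb := ⟨g, fun σ => by
    have := hg σ; rwa [toMatrix_resRep] at this⟩
  have hrb1 : ∀ {σ}, res.rbar σ = 1 → rb σ = 1 := fun {σ} h => by
    rw [hrb, hr₁, h, Matrix.map_one ψ (map_zero _) (map_one _),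
      Matrix.map_one ψ₂ (map_zero _) (map_one _)]
  have hrb1' : ∀ {σ}, rb σ = 1 → res.rbar σ = 1 := fun {σ} h => by
    refine Matrix.map_injective (ψ₂.comp ψ).injective ?_
    show (res.rbar σ).map (ψ₂.comp ψ) = (1 : Matrix (Fin 2) (Fin 2) (ResidueField O)).map
        (ψ₂.comp ψ)
    rw [Matrix.map_one _ (map_zero _) (map_one _), ← h, hrb, hr₁, Matrix.map_map]
    rfl
  have hrbdet : ∀ σ, (rb σ).det = 1 := fun σ => by
    rw [hrb, hr₁, ← RingHom.mapMatrix_apply, ← RingHom.map_det, ← RingHom.mapMatrix_apply,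
      ← RingHom.map_det, hdih.det_one, map_one, map_one]
  have hrbtr : ∀ σ, (rb σ).trace = ψ₂ (ψ (res.rbar σ).trace) := fun σ => by
    rw [← htr₁, hrb]; exact (AddMonoidHom.map_trace ψ₂.toAddMonoidHom _).symm
  have hgh₂ : (rb g₀ * rb h₀ - rb h₀ * rb g₀).det ≠ 0 := by
    rw [show rb g₀ * rb h₀ - rb h₀ * rb g₀ = ψ₂.mapMatrix (r₁ g₀ * r₁ h₀ - r₁ h₀ * r₁ g₀) by
      simp only [map_sub, map_mul]; rfl, ← RingHom.map_det]
    exact (map_ne_zero ψ₂).mpr hgh₁
  have hirr := hmat.exists_commutator_residual hgh₂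
  -- the class over the larger field
  let K := FractionRing O₂
  have : CharZero K := charZero_of_injective_algebraMap (IsFractionRing.injective O₂ K)
  let a₂ : Nat.Primes → O₂ := fun l => algebraMap O' O₂ (a l)
  obtain ⟨c, hc0, hc, hc2, hcw⟩ := hclass K ((algebraMap O₂ K).comp (algebraMap O' O₂))
    ((IsFractionRing.injective O₂ K).comp hinj)
  have hne₂ : a₂ ⟨r, hr⟩ ≠ (r : O₂) + 1 := fun h => hne (hinj (by
    rw [map_add, map_natCast, map_one]; exact h))
  have hfrob₂ : ∀ (ℓ : ℕ) (hℓ : ℓ.Prime), ℓ ∉ S → ∀ A : ValuationSubring Ω, A.LiesOverPrime ℓ →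
      ∀ σ : GQ, A.IsFrobeniusAt σ ℓ → ρ.trace σ = a₂ ⟨ℓ, hℓ⟩ := hfrob
  have hα₂ : residue O₂ (algebraMap O' O₂ α) = 1 := by
    rw [← ResidueField.map_residue, hα, map_one]
  -- ordinary at two
  have hord : Pair.IsOrdinary ρ (algebraMap O' O₂ α) := by
    let e := TSide.levelRep_eq (A := K) (one_dvd (2 * M)) (1 : (ZMod 1)ˣ →* K) rfl
    refine isOrdinary_of_class (K := K) (M := M) (r := r) rfl hM hp₂ hdet hfrob₂ hmat hrbdet
      ⟨g₀, h₀, hgh₂⟩ (fun A hA => ⟨fun τ hτ => hrb1 (hdih.unramified 2 Nat.prime_two h2D A hA τ hτ),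
        fun f hf h => (Selmer.frobenius_two_transp hdih E.mod_eight hA hf).2 (hrb1' h)⟩)
      h2LS hr1 hrS hne₂ hα₂ (castCoh e c)
      (fun h => hc0 ((castCoh e).injective (h.trans (map_zero _).symm))) (fun l hl => ?_) ?_
    · have : Fact (l : ℕ).Prime := ⟨l.2⟩
      show heckeOp _ (l : ℕ) _ = _
      rw [← castCoh_heckeOp e (l : ℕ) c]
      exact (congrArg (castCoh e) (hc l hl)).trans (map_smul _ _ _)
    · show heckeOp _ 2 _ = _
      rw [← castCoh_heckeOp e 2 c]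
      exact (congrArg (castCoh e) hc2).trans (map_smul _ _ _)
  have hunip : ∀ q : ℕ, q.Prime → q ≠ 2 → q ∣ M → ¬ q * q ∣ M → ρ.IsUnipotentOnInertiaAt q := by
    rintro q hq hq2 ⟨M₁, rfl⟩ hqq A hA σ hσ
    refine huni (2 * M₁) q (by ring) hq (fun h => ?_) hq2 A hA σ hσ
    rcases hq.dvd_mul.mp h with h | h
    · exact hq2 ((Nat.prime_dvd_prime_iff_eq hq Nat.prime_two).mp h)
    · exact hqq (Nat.mul_dvd_mul_left q h)
  have hpair : E.pairCond W ∅ O ρ := by
    refine ⟨detIsCyclotomic_of_eq hp₂ ρ hdet, fun x hx => absurd hx (Set.notMem_empty x),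
      hunip E.ℓ₀ E.prime_ℓ₀ (fun h => h2D (h ▸ E.dvd_ℓ₀)) (hDM _ E.prime_ℓ₀ E.dvd_ℓ₀).1
        (hDM _ E.prime_ℓ₀ E.dvd_ℓ₀).2, ?_, ?_⟩
    · rintro q hq (⟨hqD, hq0⟩ | h)
      swap
      · rw [haux] at h; exact absurd h (Finset.notMem_empty q)
      obtain ⟨⟨M₁, hM₁⟩, hqq⟩ := hDM q hq hqD
      have := Fact.mk hq
      have hq2 : q ≠ 2 := fun h => h2D (h ▸ hqD)
      have : NeZero (2 * M₁) := ⟨mul_ne_zero two_ne_zero fun h => NeZero.ne M
          (by rw [hM₁, h, mul_zero])⟩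
      refine isSignedNewAt_of_ramified (K := K) (b := q) (M₁ := 2 * M₁) (L := 2 * M) (r := r)
        (by rw [hM₁]; ring) (fun h => ?_) hq2 hp₂ hdet hfrob₂ ⟨g₀, h₀, hirr⟩ h2S h2LS hr1 hrS hne₂
        c hc0 hc (E.sgn q) (E.sgn_spec q) (fun hW => hcw q hqD hq0 hW) ?_
      · rcases hq.dvd_mul.mp h with h | h
        · exact hq2 ((Nat.prime_dvd_prime_iff_eq hq Nat.prime_two).mp h)
        · exact hqq (hM₁ ▸ Nat.mul_dvd_mul_left q h)
      · obtain ⟨A, hA⟩ := Fermat.Agent.Frobenius.exists_liesOverPrime Ω hq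
        obtain ⟨τ₀, hτ₀⟩ := TameInertia.exists_tameGenerator Nat.prime_two hq hq2.symm hA
        refine ⟨A, hA, τ₀, hτ₀.1, fun h => ?_⟩
        exact (Selmer.inertia_image hdih E.squarefree
          (Nat.odd_iff.mpr (by have := E.mod_eight; omega)) hq hqD hA hτ₀).1.2
          (hrb1' ((hmat.eq_one_iff τ₀).mp h))
    · intro q hq hq2 hqD _ hqW
      by_cases hqM : q ∣ M
      · obtain ⟨hqq, hfr⟩ := hXM q hq hqM hqD hqW
        refine isUnramifiedAt_of_unipotent ?_ ρ hq hq2 (hunip q hq hq2 hqM hqq) fun A hA =>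
          ⟨fun τ hτ => (hmat.eq_one_iff τ).mpr (hrb1 (hdih.unramified q hq hqD A hA τ hτ)),
            fun φ hφ => ⟨?_, ?_⟩⟩
        · obtain ⟨z, hz⟩ := hz
          exact ⟨ψ₂ (ψ z), by simpa using congrArg (fun x => ψ₂ (ψ x)) hz⟩
        · rw [(hmat.trace_det φ).1, hrbtr, hfr A hA φ hφ, map_one, map_one]
        · rw [(hmat.trace_det φ).2, hrbdet]
      · exact hunr q hq (fun h => (hq.dvd_mul.mp h).elim
          (fun h => hq2 ((Nat.prime_dvd_prime_iff_eq hq Nat.prime_two).mp h)) hqM) hq2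
  have hres' : ρ.residual.IsEquiv ((resRep res.rbar hcont).baseChangeAlong
      (ResidueField.map (algebraMap O O₂))) := by
    refine (residual_isEquiv_baseChangeAlong_iff ρ (repBasis ρ) _ (resBasis res.rbar hcont) _).mpr
      ⟨g, fun σ => ?_⟩
    rw [toMatrix_resRep, hψ]
    have := hg σ
    rw [toMatrix_resRep, hr₁, Matrix.map_map] at this
    exact this
  have h2O : (2 : O) ∈ maximalIdeal O := by
    rw [← residue_eq_zero_iff, map_ofNat]; exact CharTwo.two_eq_zero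
  obtain ⟨N, α₀, hα₀, hN, hNtr⟩ := TSide.exists_pair_of_point (D := res) (E := E) (Q := W) (C := ∅)
    (resBasis res.rbar hcont) (fun σ => (toMatrix_resRep res.rbar hcont σ).symm) h2O ρ
    (algebraMap O' O₂ α) hres' hα₂ hpair hord
  exact ⟨N, α₀, hα₀, hN, fun ℓ hℓ hℓS A hA σ hσ => (hNtr σ).trans (hfrob₂ ℓ hℓ hℓS A hA σ hσ)⟩

end Fermat.Agent.TwoAdic.Final
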