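import Fermat.Agent.TwoAdic.TopPrimes
import Fermat.Agent.Deform.TWInertia
import Fermat.Agent.TwoAdic.Selmer.Residual
import Fermat.Agent.DefRing.MatrixRep

/-!
# The residual representation as a `ResidualGaloisRep`; unipotent inertia at order-three primes
-/

set_option autoImplicit false

noncomputable section

open IsLocalRing GaloisRep Fermat.Agent.DefRing Matrix

namespace Fermat.Agent.TwoAdic.Final

/-- A residual matrix representation as a residual representation. -/
def resRep {k : Type} [Field k] (r : MRep k) (hc : IsCont r) : ResidualGaloisRep k where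
  V := Fin 2 → k
  finrank_eq := by simp
  ρ := (Matrix.toLinAlgEquiv' (R := k) (n := Fin 2)).toRingEquiv.toRingHom.toMonoidHom.comp r
  factorsThroughFiniteLevel := by
    obtain ⟨F, hF, h⟩ := hc 1
    refine ⟨F, hF, fun σ hσ => ?_⟩
    show Matrix.toLinAlgEquiv' (r σ) = 1
    have h1 : r σ = 1 := Matrix.ext fun i j => by
      have := h σ hσ i j
      rwa [pow_one, IsLocalRing.maximalIdeal_eq_bot, Ideal.mem_bot, Matrix.sub_apply,
        sub_eq_zero] at this
    rw [h1, map_one]

/-- Its standard basis. -/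
def resBasis {k : Type} [Field k] (r : MRep k) (hc : IsCont r) :
    Module.Basis (Fin 2) k (resRep r hc).V :=
  Pi.basisFun k (Fin 2)

theorem toMatrix_resRep {k : Type} [Field k] (r : MRep k) (hc : IsCont r) (σ : GQ) :
    LinearMap.toMatrix (resBasis r hc) (resBasis r hc) ((resRep r hc).ρ σ) = r σ :=
  LinearMap.toMatrix'_toLin' (r σ)

theorem trace_resRep {k : Type} [Field k] (r : MRep k) (hc : IsCont r) (σ : GQ) :
    LinearMap.trace k (resRep r hc).V ((resRep r hc).ρ σ) = (r σ).trace := by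
  rw [LinearMap.trace_eq_matrix_trace k (resBasis r hc), toMatrix_resRep]

variable {R : Type} [CommRing R] [IsDomain R] [IsLocalRing R] [IsNoetherianRing R]
  [IsAdicComplete (maximalIdeal R) R] [CharP (ResidueField R) 2]

/-- **Unipotent inertia at an unramified order-three prime is trivial.** -/
theorem isUnramifiedAt_of_unipotent (hz : ∃ z : ResidueField R, z * z + z + 1 = 0)
    (ρ : GaloisRepAdic R) {q : ℕ} (hq : q.Prime) (hq2 : q ≠ 2)
    (huni : ρ.IsUnipotentOnInertiaAt q)
    (hres : ∀ A : ValuationSubring (AlgebraicClosure ℚ), A.LiesOverPrime q →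
      (∀ τ ∈ A.inertiaSubgroupIn ℚ, (matrixRep ρ (repBasis ρ) τ).map (residue R) = 1) ∧
      ∀ φ : GQ, A.IsFrobeniusAt φ q →
        ((matrixRep ρ (repBasis ρ) φ).map (residue R)).trace = 1 ∧
        ((matrixRep ρ (repBasis ρ) φ).map (residue R)).det = 1) :
    ρ.IsUnramifiedAt q := by
  have : NeZero q := ⟨hq.ne_zero⟩
  intro A hA σ hσ
  obtain ⟨hI, hF⟩ := hres A hA
  obtain ⟨φ, hφ⟩ := Fermat.Agent.Frobenius.exists_isFrobeniusAt_qbar hq hA
  set N := matrixRep ρ (repBasis ρ) with hN
  obtain ⟨g₀, a, b, hne, hsum, hprod, h₀⟩ :=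
    exists_frame_of_trace_one hz _ (hF φ hφ).1 (hF φ hφ).2
  obtain ⟨c, hc⟩ := Deform.exists_isCycloMod q
  have hq1 : (q : ResidueField R) = 1 := by
    obtain ⟨m, rfl⟩ := (hq.odd_of_ne_two hq2)
    push_cast
    rw [CharTwo.two_eq_zero (R := ResidueField R), zero_mul, zero_add]
  have h2 : ((2 : ℕ) : R) ∈ maximalIdeal R := by
    rw [← residue_eq_zero_iff, map_natCast]
    exact CharP.cast_eq_zero _ 2
  obtain ⟨g, -, -, θ₁, θ₂, -, -, -, -, hdiag, -, -⟩ :=
    Deform.exists_twPrime_shape (isCont_matrixRep ρ (repBasis ρ)) Nat.prime_two h2 hq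
      (fun h => hq2 h.symm) hc hA hI hφ g₀ hne (by rw [hq1, one_mul]; exact hne)
      (by rw [hq1, one_mul]; exact hne.symm) h₀
  set D : Matrix (Fin 2) (Fin 2) R := Matrix.diagonal ![(θ₁ (c σ) : R), (θ₂ (c σ) : R)] with hD
  have hsq : (N σ - 1) * (N σ - 1) = 0 := by
    have h1 := LinearMap.aeval_self_charpoly (ρ.ρ σ)
    rw [huni A hA σ hσ, map_pow, map_sub, Polynomial.aeval_X, map_one, pow_two] at h1
    have h3 := congrArg (LinearMap.toMatrixAlgEquiv (repBasis ρ)) h1
    rw [map_mul, map_sub, map_one, map_zero] at h3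
    exact h3
  have hNσ : N σ * g.1 = g.1 * D := hdiag σ hσ
  have hDsq : (D - 1) * (D - 1) = 0 := by
    have h1 : g.1 * (D - 1) = (N σ - 1) * g.1 := by
      rw [mul_sub, sub_mul, hNσ, mul_one, one_mul]
    refine g.isUnit.mul_left_cancel ?_
    rw [mul_zero, ← mul_assoc, h1, mul_assoc, h1, ← mul_assoc, hsq, zero_mul]
  have hθ : ∀ i : Fin 2, ![(θ₁ (c σ) : R), (θ₂ (c σ) : R)] i = 1 := fun i => by
    have h := congrFun (congrFun hDsq i) i
    rw [hD, ← Matrix.diagonal_one, Matrix.diagonal_sub, Matrix.diagonal_mul_diagonal,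
      Matrix.diagonal_apply_eq, Matrix.zero_apply] at h
    exact sub_eq_zero.mp (mul_self_eq_zero.mp h)
  have hD1 : D = 1 := by
    rw [hD, ← Matrix.diagonal_one]
    exact congrArg Matrix.diagonal (funext hθ)
  have hNσ1 : N σ = 1 := by
    rw [hD1, mul_one] at hNσ
    exact g.isUnit.mul_right_cancel (hNσ.trans (one_mul _).symm)
  exact (LinearMap.toMatrix (repBasis ρ) (repBasis ρ)).injective
    (hNσ1.trans (LinearMap.toMatrix_one _).symm)

end Fermat.Agent.TwoAdic.Final
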