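import Fermat.Agent.TwoAdic.Final.OldAtTwo
import Fermat.Agent.TwoAdic.Final.Residual
import Fermat.Agent.TwoAdic.Final.AbsIrred
import Fermat.Agent.TwoAdic.TSide.SignedNew
import Fermat.Agent.TwoAdic.TSide.OrdinaryTwo
import Fermat.Agent.TwoAdic.TSide.OrdinaryTwoNew
import Fermat.Agent.SemistableRed.AllFacts
import Fermat.Agent.TameInertia.Presentation

/-!
# The local conditions of the representation of a class of level `2 M`
-/

set_option autoImplicit false

noncomputable section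

open IsLocalRing Matrix

namespace Fermat.Agent.TwoAdic.Final

open HeckeModule EigenSystems Engine.TRep HeckeJ0 LevelRaising Fermat.Agent.EigenRep
  Fermat.Agent.DefRing

local notation "Ω" => AlgebraicClosure ℚ
local notation "GQ" => (AlgebraicClosure ℚ) ≃ₐ[ℚ] (AlgebraicClosure ℚ)

/-- Residual matrices conjugate to a given residual representation. -/
def IsResidualMat {A : Type} [CommRing A] [IsLocalRing A] (ρ : GaloisRepAdic A)
    (r : MRep (ResidueField A)) : Prop :=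
  ∃ g : (Matrix (Fin 2) (Fin 2) (ResidueField A))ˣ, ∀ σ,
    (g : Matrix (Fin 2) (Fin 2) (ResidueField A)) * (matrixRep ρ (repBasis ρ) σ).map (residue A) =
      r σ * g

namespace IsResidualMat

variable {A : Type} [CommRing A] [IsLocalRing A] {ρ : GaloisRepAdic A} {r : MRep (ResidueField A)}
  (h : IsResidualMat ρ r)

include h in
theorem eq_one_iff (σ : GQ) : (matrixRep ρ (repBasis ρ) σ).map (residue A) = 1 ↔ r σ = 1 := by
  obtain ⟨g, hg⟩ := h
  constructor <;> intro h1 <;> have := hg σ <;> rw [h1] at this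
  · exact (g.isUnit.mul_right_cancel ((one_mul _).trans (by rw [← this, mul_one]))).symm
  · rw [one_mul] at this
    exact g.isUnit.mul_left_cancel (this.trans (mul_one _).symm)

include h in
theorem trace_det (σ : GQ) : ((matrixRep ρ (repBasis ρ) σ).map (residue A)).trace = (r σ).trace ∧
    ((matrixRep ρ (repBasis ρ) σ).map (residue A)).det = (r σ).det := by
  obtain ⟨g, hg⟩ := h
  have := Deform.conj_det g (hg σ)
  exact ⟨this.2, this.1⟩

include h in
theorem exists_commutator_residual {a b : GQ} (hab : (r a * r b - r b * r a).det ≠ 0) :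
    IsUnit (matrixRep ρ (repBasis ρ) a * matrixRep ρ (repBasis ρ) b -
      matrixRep ρ (repBasis ρ) b * matrixRep ρ (repBasis ρ) a).det := by
  obtain ⟨g, hg⟩ := h
  refine notMem_maximalIdeal.mp fun hm => hab ?_
  rw [← residue_eq_zero_iff, RingHom.map_det, map_sub, map_mul, map_mul] at hm
  simp only [RingHom.mapMatrix_apply] at hm
  set N := fun σ => (matrixRep ρ (repBasis ρ) σ).map (residue A) with hN
  have e : (g : Matrix (Fin 2) (Fin 2) (ResidueField A)) * (N a * N b - N b * N a) =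
      (r a * r b - r b * r a) * g := by
    rw [mul_sub, sub_mul, ← mul_assoc, hg a, mul_assoc, hg b, ← mul_assoc,
      ← mul_assoc (g : Matrix (Fin 2) (Fin 2) (ResidueField A)) (N b), hg b,
      mul_assoc (r b) (g : Matrix (Fin 2) (Fin 2) (ResidueField A)), hg a, ← mul_assoc]
  have h2 := congrArg Matrix.det e
  rw [det_mul, det_mul, show (N a * N b - N b * N a).det = 0 from hm, mul_zero, eq_comm,
    mul_eq_zero] at h2
  exact h2.resolve_right ((Matrix.isUnit_iff_isUnit_det _).mp g.isUnit).ne_zero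

end IsResidualMat

variable {O : Type} [CommRing O] [IsDomain O] [IsDiscreteValuationRing O]
  [IsAdicComplete (maximalIdeal O) O] [CharZero O]
  {S : Finset ℕ} {a : Nat.Primes → O} {ρ : GaloisRepAdic O}

/-- Signed new at a prime exactly dividing the level, residually ramified. -/
theorem isSignedNewAt_of_ramified [Fact (Nat.Prime 2)] {L M₁ b : ℕ} [NeZero M₁] [hb : Fact b.Prime]
    (hL : L = b * M₁) (hbM : ¬ b ∣ M₁) (hb2 : b ≠ 2) (h2 : ((2 : ℕ) : O) ∈ maximalIdeal O)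
    (hdet : ∀ σ, LinearMap.det (ρ.ρ σ) = padicHom 2 h2 (epsilonPadic 2 σ : ℤ_[2]))
    (hfrob : ∀ (ℓ : ℕ) (hℓ : ℓ.Prime), ℓ ∉ S → ∀ A : ValuationSubring Ω, A.LiesOverPrime ℓ →
      ∀ σ : GQ, A.IsFrobeniusAt σ ℓ → ρ.trace σ = a ⟨ℓ, hℓ⟩)
    (hirr : ∃ g h, IsUnit (matrixRep ρ (repBasis ρ) g * matrixRep ρ (repBasis ρ) h -
      matrixRep ρ (repBasis ρ) h * matrixRep ρ (repBasis ρ) g).det)
    (h2S : 2 ∈ S) (hS : ∀ ℓ : ℕ, ℓ.Prime → ℓ ∣ L → ℓ ∈ S) {r : ℕ} [hr : Fact r.Prime]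
    (hr1 : (r : ZMod L) = 1) (hrS : r ∉ S) (hne : a ⟨r, hr.out⟩ ≠ (r : O) + 1)
    {K : Type} [Field K] [CharZero K] [Algebra O K] [IsFractionRing O K]
    (c : Coh1 (scalarRep (levelChar (one_dvd L) (1 : (ZMod 1)ˣ →* K)) K)) (hc0 : c ≠ 0)
    (hc : ∀ l : Nat.Primes, (l : ℕ) ∉ S → heckeGen _ l c = algebraMap O K (a l) • c) (s : ℤ)
    (hs : s = 1 ∨ s = -1)
    (hw : ∀ hW : IsALPrimes L {b}, alOp K hW (Finset.mem_singleton_self b) (one_dvd L) 1
      (Nat.coprime_one_right b) 1 c = -((s : K) • c))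
    (hram : ∃ A : ValuationSubring Ω, A.LiesOverPrime b ∧ ∃ τ ∈ A.inertiaSubgroupIn ℚ,
      (matrixRep ρ (repBasis ρ) τ).map (residue O) ≠ 1) :
    IsSignedNewAt ρ b s := by
  subst hL
  obtain ⟨g₀, h₀, hgh⟩ := hirr
  have hW : IsALPrimes (b * M₁) {b} := isALPrimes_self hbM
  exact TSide.isSignedNewAt_of_class S a ρ h2 hdet hfrob ⟨g₀, h₀, hgh.ne_zero⟩ hbM hb2 h2S hS hr1
    hrS hne (one_dvd M₁) c hc0 hc hW (Finset.mem_singleton_self b) (Nat.coprime_one_right b) s hs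
    (hw hW) (Or.inr hram)

/-- The value at two replaced. -/
def updTwo (a : Nat.Primes → O) (x : O) (l : Nat.Primes) : O :=
  if (l : ℕ) = 2 then x else a l

omit [CommRing O] [IsDomain O] [IsDiscreteValuationRing O] [IsAdicComplete (maximalIdeal O) O]
  [CharZero O] in
theorem updTwo_two (a : Nat.Primes → O) (x : O) : updTwo a x ⟨2, Nat.prime_two⟩ = x := if_pos rfl

omit [CommRing O] [IsDomain O] [IsDiscreteValuationRing O] [IsAdicComplete (maximalIdeal O) O]
  [CharZero O] in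
theorem updTwo_ne (a : Nat.Primes → O) (x : O) {l : Nat.Primes} (h : (l : ℕ) ≠ 2) :
    updTwo a x l = a l := if_neg h

/-- **Ordinary at two.** -/
theorem isOrdinary_of_class [Fact (Nat.Prime 2)] [Finite (ResidueField O)]
    [CharP (ResidueField O) 2] {L M : ℕ} [NeZero M] [NeZero L] (hL : L = 2 * M) (hM : ¬ 2 ∣ M)
    (h2 : ((2 : ℕ) : O) ∈ maximalIdeal O)
    (hdet : ∀ σ, LinearMap.det (ρ.ρ σ) = padicHom 2 h2 (epsilonPadic 2 σ : ℤ_[2]))
    (hfrob : ∀ (ℓ : ℕ) (hℓ : ℓ.Prime), ℓ ∉ S → ∀ A : ValuationSubring Ω, A.LiesOverPrime ℓ →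
      ∀ σ : GQ, A.IsFrobeniusAt σ ℓ → ρ.trace σ = a ⟨ℓ, hℓ⟩)
    {rb : MRep (ResidueField O)} (hres : IsResidualMat ρ rb) (hdet1 : ∀ σ, (rb σ).det = 1)
    (hcomm : ∃ g h, (rb g * rb h - rb h * rb g).det ≠ 0)
    (htwo : ∀ A : ValuationSubring Ω, A.LiesOverPrime 2 →
      (∀ τ ∈ A.inertiaSubgroupIn ℚ, rb τ = 1) ∧ ∀ f : GQ, A.IsFrobeniusAt f 2 → rb f ≠ 1)
    (hS : ∀ ℓ : ℕ, ℓ.Prime → ℓ ∣ L → ℓ ∈ S) {r : ℕ} [hr : Fact r.Prime]
    (hr1 : (r : ZMod L) = 1) (hrS : r ∉ S) (hne : a ⟨r, hr.out⟩ ≠ (r : O) + 1)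
    {α : O} (hα : residue O α = 1)
    {K : Type} [Field K] [CharZero K] [Algebra O K] [IsFractionRing O K]
    (c : Coh1 (trivRep L K K)) (hc0 : c ≠ 0)
    (hc : ∀ l : Nat.Primes, (l : ℕ) ∉ S → heckeGen _ l c = algebraMap O K (a l) • c)
    (hc2 : heckeGen _ ⟨2, Nat.prime_two⟩ c = algebraMap O K α • c) :
    Pair.IsOrdinary ρ α := by
  classical
  obtain ⟨g₀, h₀, hgh₀⟩ := hcomm
  have hgh := hres.exists_commutator_residual hgh₀
  have h2' : (2 : O) ∈ maximalIdeal O := by simpa using h2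
  have hr2 : r ≠ 2 := fun h => hrS (hS r hr.out (h ▸ hL ▸ dvd_mul_right 2 M))
  have h2S : (2 : ℕ) ∉ S.erase 2 := Finset.notMem_erase 2 S
  have hrS' : r ∉ S.erase 2 := fun h => hrS (Finset.mem_of_mem_erase h)
  have hS' : ∀ l : Nat.Primes, (l : ℕ) ∉ S.erase 2 → (l : ℕ) ≠ 2 → (l : ℕ) ∉ S :=
    fun l hl hl2 h => hl (Finset.mem_erase.mpr ⟨hl2, h⟩)
  have hfrob' : ∀ (x : O) (ℓ : ℕ) (hℓ : ℓ.Prime), ℓ ∉ S.erase 2 → ℓ ≠ 2 →
      ∀ A : ValuationSubring Ω, A.LiesOverPrime ℓ →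
      ∀ σ : GQ, A.IsFrobeniusAt σ ℓ → ρ.trace σ = updTwo a x ⟨ℓ, hℓ⟩ :=
    fun x ℓ hℓ hl hl2 A hA σ hσ => by
      rw [updTwo_ne a x (l := ⟨ℓ, hℓ⟩) hl2]
      exact hfrob ℓ hℓ (hS' ⟨ℓ, hℓ⟩ hl hl2) A hA σ hσ
  have hres2 : ∀ A : ValuationSubring Ω, A.LiesOverPrime 2 →
      (∀ τ ∈ A.inertiaSubgroupIn ℚ, (matrixRep ρ (repBasis ρ) τ).map (residue O) = 1) ∧
      ∀ f : GQ, A.IsFrobeniusAt f 2 → (matrixRep ρ (repBasis ρ) f).map (residue O) ≠ 1 :=
    fun A hA => ⟨fun τ hτ => (hres.eq_one_iff τ).mpr ((htwo A hA).1 τ hτ),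
      fun f hf h => (htwo A hA).2 f hf ((hres.eq_one_iff f).mp h)⟩
  by_cases hsq : α * α = 1
  · -- new at two
    let hes := SemistableRed.allRelations L 2
    have hane : updTwo a α ⟨r, hr.out⟩ ≠ (r : O) + 1 := by
      rw [updTwo_ne a α (l := ⟨r, hr.out⟩) hr2]; exact hne
    obtain ⟨-, v, -, hv0, -, hv⟩ := TSide.exists_eigenSub_of_class (L := K) hes hr1 hrS' hane hc0
      (fun l hl => by
        by_cases hl2 : (l : ℕ) = 2
        · obtain rfl : l = ⟨2, Nat.prime_two⟩ := Subtype.ext hl2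
          rw [updTwo_two]; exact hc2
        · rw [updTwo_ne a α hl2]; exact hc l (hS' l hl hl2))
    let b₁ : Module.Basis (Fin 2) (ResidueField O) ρ.residual.V :=
      Algebra.TensorProduct.basis (ResidueField O) (repBasis ρ)
    have hmat : ∀ σ, LinearMap.toMatrix b₁ b₁ (ρ.residual.ρ σ) =
        (matrixRep ρ (repBasis ρ) σ).map (residue O) := fun σ =>
      LinearMap.toMatrix_baseChange (ResidueField O) (ρ.ρ σ) (repBasis ρ) (repBasis ρ)
    have hirr : ρ.residual.IsAbsolutelyIrreducible := by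
      refine isAbsolutelyIrreducible_of_commutator _ b₁ (g := g₀) (h := h₀) ?_
      rw [hmat, hmat]
      have h := hgh.map (residue O)
      rw [RingHom.map_det, map_sub, map_mul, map_mul] at h
      exact h.ne_zero
    have hord := TSide.isOrdinary_twoNew (M := M) hL hM hes h2' (S.erase 2) h2S (updTwo a α)
      (by rw [updTwo_two]; exact hsq) ⟨v, hv0, hv⟩ ρ (detIsCyclotomic_of_eq h2 ρ hdet) (hfrob' α)
      hirr (fun P hP φ hφ s hs => (hres2 P hP).2 φ hφ (by
        have h1 := congrArg (LinearMap.toMatrix b₁ b₁) hs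
        rw [hmat, map_smul, LinearMap.toMatrix_one] at h1
        have h3 := (hres.trace_det φ).2
        rw [h1, hdet1, Matrix.det_smul, Matrix.det_one, mul_one, Fintype.card_fin] at h3
        have hs1 : s = 1 := by
          refine sub_eq_zero.mp (eq_zero_of_pow_eq_zero (n := 2) ?_)
          linear_combination h3 + (1 - s) * (CharTwo.two_eq_zero (R := ResidueField O))
        rw [h1, hs1, one_smul]))
    rwa [updTwo_two] at hord
  · -- old at two
    have hαu : IsUnit α := notMem_maximalIdeal.mp fun hm =>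
      one_ne_zero (hα.symm.trans ((residue_eq_zero_iff _).mpr hm))
    obtain ⟨β, hβ⟩ := hαu.exists_right_inv
    set b2 := α + 2 * β with hb2
    have : Fact (Nat.Prime r) := hr
    have : Fact (Nat.Prime ((⟨2, Nat.prime_two⟩ : Nat.Primes) : ℕ)) := ⟨Nat.prime_two⟩
    have hinjK := IsFractionRing.injective O K
    subst hL
    have hrM : (r : ZMod M) = 1 := by
      have h := congrArg (ZMod.castHom (dvd_mul_left M 2) (ZMod M)) hr1
      rwa [map_natCast, map_one] at h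
    obtain ⟨x, hx0, hxT, hx⟩ := exists_old_class (q := 2) (r := r) hM hr1
      (e := algebraMap O K (a ⟨r, hr.out⟩))
      (fun h => hne (hinjK (by rw [h, map_add, map_natCast, map_one]))) hc0
      (α := algebraMap O K α) ((map_ne_zero_iff _ hinjK).mpr hαu.ne_zero)
      (fun h => hsq (hinjK (by rw [map_mul, h, map_one]))) hc2 (hc ⟨r, hr.out⟩ hrS)
    let hes := SemistableRed.allRelations M 2
    have hane : updTwo a b2 ⟨r, hr.out⟩ ≠ (r : O) + 1 := by
      rw [updTwo_ne a b2 (l := ⟨r, hr.out⟩) hr2]; exact hne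
    obtain ⟨-, v, -, hv0, -, hv⟩ := TSide.exists_eigenSub_of_class (L := K) hes hrM hrS' hane hx0
      (fun l hl => by
        have : Fact (l : ℕ).Prime := ⟨l.2⟩
        by_cases hl2 : (l : ℕ) = 2
        · obtain rfl : l = ⟨2, Nat.prime_two⟩ := Subtype.ext hl2
          rw [updTwo_two]
          show heckeOp _ 2 x = _
          rw [hxT, hb2, map_add, map_mul, map_ofNat]
          congr 2
          rw [div_eq_iff ((map_ne_zero_iff _ hinjK).mpr hαu.ne_zero), mul_assoc, ← map_mul,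
            mul_comm β α, hβ, map_one, mul_one]
          norm_num
        · rw [updTwo_ne a b2 hl2]
          have hlS := hS' l hl hl2
          exact hx (l : ℕ) _ (fun h => hlS (hS l l.2 h)) (hc l hlS))
    have hb2r : residue O (updTwo a b2 ⟨2, Nat.prime_two⟩) = 1 := by
      rw [updTwo_two, hb2, map_add, hα, map_mul, (residue_eq_zero_iff _).mpr h2', zero_mul,
        add_zero]
    obtain ⟨α', hα', hαeq, hord⟩ := TSide.ordinaryAtTwo O h2 M hM hes (S.erase 2) h2S
      (updTwo a b2) hb2r ⟨v, hv0, hv⟩ ρ hdet (hfrob' b2) hres2 ⟨g₀, h₀, hgh⟩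
    have hmul : (α' - α) * (α' - 2 * β) = 0 := by
      change α' * α' - updTwo a b2 ⟨2, Nat.prime_two⟩ * α' + 2 = 0 at hαeq
      rw [updTwo_two, hb2] at hαeq
      linear_combination hαeq + 2 * hβ
    rcases mul_eq_zero.mp hmul with h | h
    · rwa [sub_eq_zero.mp h] at hord
    · exfalso
      refine notMem_maximalIdeal.mpr hα' ?_
      rw [sub_eq_zero.mp h]
      exact Ideal.mul_mem_right _ _ h2'

end Fermat.Agent.TwoAdic.Final
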