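import Fermat.Agent.TwoAdic.Final.Pair
import Fermat.Agent.TwoAdic.Final.EigenClass
import Fermat.Agent.TwoAdic.Scalar.LocSign

/-!
# Points of the final ring give pairs

On a stable part fixed by the signed involutions at the primes of `D` other than `ℓ₀`, whose prime
has the residual traces and `U₂ ≡ 1`, every point of the final ring gives a pair.
-/

set_option autoImplicit false
-- the linter alone takes seconds on the proof terms of this file
set_option linter.unusedSectionVars false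

noncomputable section

open IsLocalRing

namespace Fermat.Agent.TwoAdic.Final

open HeckeModule EigenSystems HeckeJ0 LevelRaising Fermat.Agent.DefRing

local notation "Ω" => AlgebraicClosure ℚ
local notation "GQ" => (AlgebraicClosure ℚ) ≃ₐ[ℚ] (AlgebraicClosure ℚ)

/-- A map of a finite local algebra to a local algebra is local. -/
theorem isLocalHom_of_finite {O T A : Type} [CommRing O] [IsLocalRing O] [CommRing T]
    [IsLocalRing T] [Algebra O T] [Module.Finite O T] [CommRing A] [IsLocalRing A] [Algebra O A]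
    [IsLocalHom (algebraMap O A)] (θ : T →ₐ[O] A) : IsLocalHom (θ : T →+* A) := by
  refine ⟨fun x hx => notMem_maximalIdeal.mp fun hm => ?_⟩
  have : Algebra.IsIntegral O T := inferInstance
  let P : Ideal T := (maximalIdeal A).comap (θ : T →+* A)
  have : P.IsPrime := Ideal.IsPrime.comap _
  have hP : P.comap (algebraMap O T) = maximalIdeal O := by
    ext o
    simp only [P, Ideal.mem_comap, RingHom.coe_coe, AlgHom.commutes]
    exact map_mem_nonunits_iff (algebraMap O A) o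
  have hmax : P.IsMaximal := Ideal.isMaximal_of_isIntegral_of_isMaximal_comap (R := O) P
    (hP ▸ maximalIdeal.isMaximal O)
  rw [← IsLocalRing.eq_maximalIdeal hmax, Ideal.mem_comap] at hm
  exact notMem_maximalIdeal.mpr hx hm

/-- Semilinear maps of classes follow equalities of representations. -/
theorem castCoh_semiCoh {R O A B : Type} [CommRing R] [CommRing O] {σ : R →+* O} [AddCommGroup A]
    [Module R A] [AddCommGroup B] [Module O B] {N : ℕ} {ρ : Representation R (ZMod N)ˣ A}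
    {τ τ' : Representation O (ZMod N)ˣ B} (g : A →ₛₗ[σ] B) (hf : ∀ u a, g (ρ u a) = τ u (g a))
    (hf' : ∀ u a, g (ρ u a) = τ' u (g a)) (h : τ = τ') (u : Coh1 ρ) :
    castCoh h (semiCoh g hf u) = semiCoh g hf' u := by
  subst h; rfl

/-- The conditions at the final level. -/
structure FinalHyp {O : Type} [CommRing O] [IsLocalRing O] (res : NormalData O) (E : LiftData)
    (W : Finset ℕ) (M : ℕ) (S₀ : Finset ℕ) {S' : Set ℕ} (m : Ideal (AwayPoly O S')) : Prop where
  aux : E.aux = ∅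
  dihedral : IsDihedralResidual E.D res.rbar
  cont : IsCont res.rbar
  odd : ¬ 2 ∣ M
  dvd_D : ∀ q : ℕ, q.Prime → q ∣ E.D → q ∣ M ∧ ¬ q * q ∣ M
  core : ∀ q : ℕ, q.Prime → q ∣ M → ¬ q ∣ E.D → q ∉ W → ¬ q * q ∣ M ∧
    ∀ A : ValuationSubring Ω, A.LiesOverPrime q → ∀ φ : GQ, A.IsFrobeniusAt φ q →
      (res.rbar φ).trace = 1
  two_notMem : 2 ∉ S₀
  mem : ∀ q : ℕ, q.Prime → q ∣ M → q ∈ S₀
  subset : S' ⊆ ↑S₀
  trace : ∀ (l : AwayIndex (↑S₀ : Set ℕ)), ((l : Nat.Primes) : ℕ) ≠ 2 →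
    ∀ A : ValuationSubring Ω, A.LiesOverPrime ((l : Nat.Primes) : ℕ) →
      ∀ φ : GQ, A.IsFrobeniusAt φ ((l : Nat.Primes) : ℕ) → ∀ o : O,
        residue O o = (res.rbar φ).trace →
          MvPolynomial.X l - MvPolynomial.C o ∈ finalPrime m subset
  two : ∀ h : 2 ∉ (↑S₀ : Set ℕ),
    MvPolynomial.X (⟨⟨2, Nat.prime_two⟩, h⟩ : AwayIndex (↑S₀ : Set ℕ)) - MvPolynomial.C 1 ∈
      finalPrime m subset

variable {O : Type} [CommRing O] [IsDomain O] [IsDiscreteValuationRing O]
  [IsAdicComplete (maximalIdeal O) O] [Finite (ResidueField O)] [CharP (ResidueField O) 2]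
  [CharZero O]
  {res : NormalData O} {E : LiftData} {W : Finset ℕ} {M : ℕ} [NeZero M] {S₀ : Finset ℕ}
  {S' : Set ℕ} (m : Ideal (AwayPoly O S')) [m.IsPrime] (hH : FinalHyp res E W M S₀ m)
  (C : Submodule (HeckePoly O) (CohLoc (awayMonoid m) (oneRep O O (2 * M))))
  [Module.Finite O C] [Module.Free O C] [Nontrivial C]
  [Module.Finite O (CohLoc (awayMonoid m) (oneRep O O (2 * M)))]
  [Module.Free O (CohLoc (awayMonoid m) (oneRep O O (2 * M)))]
  (hE : ExactHyp (awayMonoid m) (1 : (ZMod (2 * M))ˣ →* O))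
  (hW : IsALPrimes (2 * M) (E.D.primeFactors.erase E.ℓ₀))
  (hWS : ∀ e ∈ E.D.primeFactors.erase E.ℓ₀, e ∈ S')
  (hC : ∀ y ∈ C, ∀ e ∈ E.D.primeFactors.erase E.ℓ₀,
    alOneLoc O hW (fun e => -(E.sgn e : O)) (isAway_awayMonoid m) hWS e y = y)

/-- The index of `2`. -/
abbrev twoIndex (h : 2 ∉ S₀) : AwayIndex (↑S₀ : Set ℕ) :=
  ⟨⟨2, Nat.prime_two⟩, Finset.mem_coe.not.mpr h⟩

omit [IsAdicComplete (maximalIdeal O) O] [Finite (ResidueField O)] [CharP (ResidueField O) 2]
  [CharZero O] [NeZero M] in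
include hH in
/-- The image of an element of the prime is not a unit at a point. -/
theorem residue_eq_zero_point {O' : Type} [CommRing O'] [IsLocalRing O'] [Algebra O O']
    [IsLocalHom (algebraMap O O')] (θ : FinalRing (↑S₀ : Set ℕ) C →ₐ[O] O')
    {x : AwayPoly O (↑S₀ : Set ℕ)} (hx : x ∈ finalPrime m hH.subset) :
    residue O' (θ (Ideal.Quotient.mk _ x)) = 0 := by
  have := finite_finalRing m C (S₀ := (↑S₀ : Set ℕ))
  obtain ⟨hloc, hiff⟩ := isLocalRing_finalRing m hH.subset C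
  have := isLocalHom_of_finite θ
  rw [residue_eq_zero_iff]
  exact fun hu => (hiff x).mp (isUnit_of_map_unit (θ : FinalRing (↑S₀ : Set ℕ) C →+* O') _ hu) hx

omit [IsAdicComplete (maximalIdeal O) O] [Finite (ResidueField O)] [CharP (ResidueField O) 2]
  [Nontrivial ↥C] in
include hH hE hW hWS hC in
/-- **The signed classes of a point.** -/
theorem hasSignedClass_point {O' : Type} [CommRing O'] [IsDomain O'] [Algebra O O']
    (hOinj : Function.Injective (algebraMap O O')) (θ : FinalRing (↑S₀ : Set ℕ) C →ₐ[O] O')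
    (a : Nat.Primes → O')
    (ha : ∀ l : AwayIndex (↑S₀ : Set ℕ),
      a l = θ (Ideal.Quotient.mk _ (MvPolynomial.X l))) :
    HasSignedClass E M (insert 2 S₀) a
      (θ (Ideal.Quotient.mk _ (MvPolynomial.X (twoIndex hH.two_notMem)))) := by
  intro K _ _ f hf
  have : NeZero (2 * M) := ⟨mul_ne_zero two_ne_zero (NeZero.ne M)⟩
  let : Algebra O K := (f.comp (algebraMap O O')).toAlgebra
  have : FaithfulSMul O K := (faithfulSMul_iff_algebraMap_injective O K).mpr (hf.comp hOinj)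
  let φ : FinalRing (↑S₀ : Set ℕ) C →ₐ[O] K :=
    { f.comp (θ : FinalRing (↑S₀ : Set ℕ) C →+* O') with
      commutes' := fun o => congrArg f (θ.commutes o) }
  obtain ⟨u, Q₀, hu0, hu, hΨ⟩ := exists_eigen_class m C (1 : (ZMod (2 * M))ˣ →* O) rfl hE φ
  have hχ : scalarRep (((algebraMap O K : O →+* K) : O →* K).comp (1 : (ZMod (2 * M))ˣ →* O)) K =
      scalarRep (levelChar (one_dvd (2 * M)) (1 : (ZMod 1)ˣ →* K)) K := by
    congr 1
    ext v
    exact map_one (algebraMap O K)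
  set w := TSide.pushCoh (algebraMap O K) (1 : (ZMod (2 * M))ˣ →* O) u with hw
  refine ⟨castCoh hχ (awayIncl K (↑S₀ : Set ℕ) Q₀ • w),
    fun h => hu0 ((castCoh hχ).injective (h.trans (map_zero _).symm)), fun l hl => ?_, ?_,
    fun q _ hqD hq0 hW' => ?_⟩
  · have : Fact (l : ℕ).Prime := ⟨l.2⟩
    have hl' : (l : ℕ) ∉ (↑S₀ : Set ℕ) := fun h => hl (Finset.mem_insert_of_mem h)
    show heckeOp _ (l : ℕ) _ = _
    rw [← castCoh_heckeOp hχ (l : ℕ), show heckeOp _ (l : ℕ) (awayIncl K (↑S₀ : Set ℕ) Q₀ • w) =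
      φ (Ideal.Quotient.mk _ (MvPolynomial.X ⟨l, hl'⟩)) • (awayIncl K (↑S₀ : Set ℕ) Q₀ • w) from
        hu ⟨l, hl'⟩, map_smul, ha ⟨l, hl'⟩]
    rfl
  · have : Fact (Nat.Prime 2) := ⟨Nat.prime_two⟩
    show heckeOp _ 2 _ = _
    rw [← castCoh_heckeOp hχ 2, show heckeOp _ 2 (awayIncl K (↑S₀ : Set ℕ) Q₀ • w) =
      φ (Ideal.Quotient.mk _ (MvPolynomial.X (twoIndex hH.two_notMem))) •
        (awayIncl K (↑S₀ : Set ℕ) Q₀ • w) from hu (twoIndex hH.two_notMem), map_smul]
    rfl
  · have hqV : q ∈ E.D.primeFactors.erase E.ℓ₀ := Finset.mem_erase.mpr ⟨hq0,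
      Nat.mem_primeFactors.mpr ⟨Fact.out, hqD, by have := E.mod_eight; omega⟩⟩
    have hqS : q ∈ (↑S₀ : Set ℕ) :=
      Finset.mem_coe.mpr (hH.mem q Fact.out (hH.dvd_D q Fact.out hqD).1)
    have hfix : alOne O hW hqV (-(E.sgn q : O)) u = u := hΨ (alOne O hW hqV (-(E.sgn q : O)))
      (fun a v => map_awayIncl_smul (S := S') _ (fun ℓ _ hℓ z =>
        alOne_heckeOp_ne hW hqV _ (ne_of_notMem hℓ (hWS q hqV)) z) a v)
      (fun v hv => by
        show LocalizedModule.mk (alOne O hW hqV (-(E.sgn q : O)) v) 1 =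
          LocalizedModule.mk v 1
        rw [← alOneLoc_mk hW (fun e => -(E.sgn e : O)) (isAway_awayMonoid m) hWS hqV v 1]
        exact hC _ hv q hqV)
    have hsemi : ∀ (v : (ZMod (2 * M))ˣ) (x : O),
        (algebraMap O K).toSemilinearMap (oneRep O O (2 * M) v x) =
          scalarRep (levelChar (one_dvd (2 * M)) (1 : (ZMod 1)ˣ →* K)) K v
            ((algebraMap O K).toSemilinearMap x) := fun v x => by
      show algebraMap O K ((1 : O) * x) = (1 : K) * algebraMap O K x
      rw [map_mul, map_one]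
    have hcast : castCoh hχ w = semiCoh (algebraMap O K).toSemilinearMap hsemi u := by
      rw [hw]
      exact castCoh_semiCoh (algebraMap O K).toSemilinearMap _ hsemi hχ u
    have hpush : alOp K hW' (Finset.mem_singleton_self q) (one_dvd (2 * M))
        (1 : (ZMod 1)ˣ →* K) (Nat.coprime_one_right q) (-(E.sgn q : K)) (castCoh hχ w) =
          castCoh hχ w := by
      rw [hcast]
      conv_rhs => rw [← hfix]
      exact (semiCoh_onH1 (algebraMap O K).toSemilinearMap hsemi hsemi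
        (alData O hW hqV (one_dvd (2 * M)) (1 : (ZMod 1)ˣ →* O) (Nat.coprime_one_right q)
          (-(E.sgn q : O)))
        (alData K hW' (Finset.mem_singleton_self q) (one_dvd (2 * M)) (1 : (ZMod 1)ˣ →* K)
          (Nat.coprime_one_right q) (-(E.sgn q : K))) (fun _ => rfl)
        (fun _ x => by
          show algebraMap O K ((-(E.sgn q : O)) * x) = (-(E.sgn q : K)) * algebraMap O K x
          rw [map_mul, map_neg, map_intCast]) u).symm
    have hcs : ∀ (P : AwayPoly K (↑S₀ : Set ℕ)) z,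
        castCoh hχ (awayIncl K (↑S₀ : Set ℕ) P • z) =
          awayIncl K (↑S₀ : Set ℕ) P • castCoh hχ z := fun P z =>
      map_awayIncl_smul (S := (↑S₀ : Set ℕ)) (castCoh hχ).toLinearMap
        (fun ℓ _ _ z => castCoh_heckeOp hχ ℓ z) P z
    have h1 : alOp K hW' (Finset.mem_singleton_self q) (one_dvd (2 * M))
        (1 : (ZMod 1)ˣ →* K) (Nat.coprime_one_right q) (-(E.sgn q : K))
          (castCoh hχ (awayIncl K (↑S₀ : Set ℕ) Q₀ • w)) =
        castCoh hχ (awayIncl K (↑S₀ : Set ℕ) Q₀ • w) := by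
      rw [hcs]
      refine (map_awayIncl_smul (S := (↑S₀ : Set ℕ)) _ (fun ℓ _ hℓ z => alOp_heckeOp_ne hW'
        (Finset.mem_singleton_self q) (one_dvd (2 * M)) (1 : (ZMod 1)ˣ →* K)
        (Nat.coprime_one_right q) _ (ne_of_notMem hℓ hqS) z) Q₀ _).trans ?_
      rw [hpush]
    set y := castCoh hχ (awayIncl K (↑S₀ : Set ℕ) Q₀ • w)
    have h2 : alOp K hW' (Finset.mem_singleton_self q) (one_dvd (2 * M))
        (1 : (ZMod 1)ˣ →* K) (Nat.coprime_one_right q) (-(E.sgn q : K)) y =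
      (-(E.sgn q : K)) • alOp K hW' (Finset.mem_singleton_self q) (one_dvd (2 * M))
        (1 : (ZMod 1)ˣ →* K) (Nat.coprime_one_right q) 1 y :=
      alOne_eq_smul hW' (Finset.mem_singleton_self q) (-(E.sgn q : K)) y
    have hs : (-(E.sgn q : K)) * (-(E.sgn q : K)) = 1 := by
      rcases E.sgn_spec q with h | h <;> simp [h]
    calc alOp K hW' (Finset.mem_singleton_self q) (one_dvd (2 * M))
          (1 : (ZMod 1)ˣ →* K) (Nat.coprime_one_right q) 1 y
        = (-(E.sgn q : K)) • ((-(E.sgn q : K)) • alOp K hW' (Finset.mem_singleton_self q)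
            (one_dvd (2 * M)) (1 : (ZMod 1)ˣ →* K) (Nat.coprime_one_right q) 1 y) := by
          rw [smul_smul, hs, one_smul]
      _ = -((E.sgn q : K) • y) := by rw [← h2, h1, neg_smul]

include hH hE hW hWS hC in
/-- **A point of the final ring gives a pair.** -/
theorem exists_pair_point (hz : ∃ z : ResidueField O, z * z + z + 1 = 0)
    {O' : Type} [CommRing O'] [IsDomain O'] [IsDiscreteValuationRing O']
    [IsAdicComplete (maximalIdeal O') O'] [Finite (ResidueField O')] [CharZero O']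
    [Algebra O O'] [Module.Finite O O'] [IsLocalHom (algebraMap O O')]
    (hOinj : Function.Injective (algebraMap O O')) (θ : FinalRing (↑S₀ : Set ℕ) C →ₐ[O] O') :
    ∃ (O₂ : Type) (_ : CommRing O₂) (_ : IsDomain O₂) (_ : IsDiscreteValuationRing O₂)
      (_ : IsAdicComplete (maximalIdeal O₂) O₂) (_ : Finite (ResidueField O₂)) (_ : CharZero O₂)
      (_ : Algebra O' O₂) (_ : Algebra O O₂) (_ : IsScalarTower O O' O₂) (_ : Module.Finite O O₂)
      (_ : IsLocalHom (algebraMap O O₂)),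
      Function.Injective (algebraMap O' O₂) ∧
      ∃ (N : MRep (Deform.smallResidue O O₂)) (α₀ : Deform.smallResidue O O₂),
        (α₀ : O₂) = algebraMap O' O₂
          (θ (Ideal.Quotient.mk _ (MvPolynomial.X (twoIndex hH.two_notMem)))) ∧
        Pair.IsPair res E W ∅ inferInstance Deform.residue_surjective_smallResidue N α₀ ∧
        ∀ (l : AwayIndex (↑S₀ : Set ℕ)), ((l : Nat.Primes) : ℕ) ≠ 2 →
          ∀ A : ValuationSubring Ω, A.LiesOverPrime ((l : Nat.Primes) : ℕ) →
            ∀ σ : GQ, A.IsFrobeniusAt σ ((l : Nat.Primes) : ℕ) →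
              ((N σ).trace : O₂) =
                algebraMap O' O₂ (θ (Ideal.Quotient.mk _ (MvPolynomial.X l))) := by
  classical
  let a : Nat.Primes → O' := fun l =>
    if h : (l : ℕ) ∈ (↑S₀ : Set ℕ) then 0
    else θ (Ideal.Quotient.mk _ (MvPolynomial.X ⟨l, h⟩))
  have ha : ∀ l : AwayIndex (↑S₀ : Set ℕ),
      a l = θ (Ideal.Quotient.mk _ (MvPolynomial.X l)) := fun l => dif_neg l.2
  have hres : ∀ (x : AwayPoly O (↑S₀ : Set ℕ)) (o : O), x - MvPolynomial.C o ∈
      finalPrime m hH.subset → residue O' (θ (Ideal.Quotient.mk _ x)) =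
        residue O' (algebraMap O O' o) := fun x o hx => by
    have h := residue_eq_zero_point m hH C θ hx
    rwa [map_sub, ← MvPolynomial.algebraMap_eq, Ideal.Quotient.mk_algebraMap, map_sub,
      AlgHom.commutes, map_sub, sub_eq_zero] at h
  obtain ⟨O₂, i₁, i₂, i₃, i₄, i₅, i₆, i₇, i₈, i₉, i₁₀, i₁₁, hinj, N, α₀, hα₀, hN, hNtr⟩ :=
    exists_pair_of_class hz hH.aux hH.dihedral hH.cont hH.odd hH.dvd_D hH.core (insert 2 S₀)
      (Finset.mem_insert_self 2 S₀) (fun q hq h => Finset.mem_insert_of_mem (hH.mem q hq h)) a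
      (θ (Ideal.Quotient.mk _ (MvPolynomial.X (twoIndex hH.two_notMem))))
      (by rw [hres _ 1 (hH.two _), map_one, map_one])
      (fun ℓ hℓ hℓS A hA σ hσ => by
        rw [Finset.mem_insert, not_or] at hℓS
        let l : AwayIndex (↑S₀ : Set ℕ) := ⟨⟨ℓ, hℓ⟩, Finset.mem_coe.not.mpr hℓS.2⟩
        obtain ⟨o, ho⟩ := residue_surjective (res.rbar σ).trace
        rw [show a ⟨ℓ, hℓ⟩ = θ (Ideal.Quotient.mk _ (MvPolynomial.X l)) from ha l,
          hres _ o (hH.trace l hℓS.1 A hA σ hσ o ho), ← ho, ResidueField.map_residue])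
      (hasSignedClass_point m hH C hE hW hWS hC hOinj θ a ha)
  exact ⟨O₂, i₁, i₂, i₃, i₄, i₅, i₆, i₇, i₈, i₉, i₁₀, i₁₁, hinj, N, α₀, hα₀, hN,
    fun l hl2 A hA σ hσ => (hNtr _ (l : Nat.Primes).2
      (fun h => (Finset.mem_insert.mp h).elim hl2 fun h' => l.2 (Finset.mem_coe.mpr h')) A hA σ
      hσ).trans (congrArg _ (ha l))⟩

end Fermat.Agent.TwoAdic.Final
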