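import Fermat.Agent.HeckeSemisimple.AtkinPoly
import Fermat.Agent.TwoAdic.TSide.Reduced

/-!
# The Hecke ring of the final level

At level `2 M`, `M` odd, on a stable part `C` of a localisation at which `U₂² - 2` is invertible:
the
ring generated by `U₂` and the operators at the primes outside `S₀` is finite free, reduced, local,
has residue field that of `O`, and has enough integral points.
-/

set_option autoImplicit false
-- the linter alone takes seconds on the proof terms of this file
set_option linter.unusedSectionVars false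

noncomputable section

open IsLocalRing

namespace Fermat.Agent.TwoAdic.Final

open HeckeModule HeckeSemisimple

section Def

variable {O : Type} [CommRing O] {L : ℕ} {P : Submonoid (HeckePoly O)}
  {ρ : Representation O (ZMod L)ˣ O} (S₀ : Set ℕ) (C : Submodule (HeckePoly O) (CohLoc P ρ))

/-- The action of the operators outside `S₀`. -/
def finalAct : AwayPoly O S₀ →ₐ[O] Module.End O C :=
  (Algebra.lsmul O O C (A := HeckePoly O)).comp (awayIncl O S₀)

theorem finalAct_apply (a : AwayPoly O S₀) (y : C) :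
    finalAct S₀ C a y = awayIncl O S₀ a • y :=
  rfl

/-- The ring they generate. -/
abbrev FinalRing : Type := AwayPoly O S₀ ⧸ RingHom.ker (finalAct S₀ C)

/-- Its action. -/
def finalRingAct : FinalRing S₀ C →ₐ[O] Module.End O C :=
  Ideal.kerLiftAlg (finalAct S₀ C)

theorem finalRingAct_mk (a : AwayPoly O S₀) :
    finalRingAct S₀ C (Ideal.Quotient.mk _ a) = finalAct S₀ C a :=
  rfl

theorem finalRingAct_injective : Function.Injective (finalRingAct S₀ C) :=
  Ideal.kerLiftAlg_injective _

/-- The module structure. -/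
@[instance_reducible] def finalModule : Module (FinalRing S₀ C) C :=
  Module.compHom C (finalRingAct S₀ C).toRingHom

end Def

section Local

variable {O : Type} [CommRing O] [IsDomain O] [IsDiscreteValuationRing O] {L : ℕ} {S' : Set ℕ}
  (m : Ideal (AwayPoly O S')) [m.IsPrime] {ρ : Representation O (ZMod L)ˣ O} {S₀ : Set ℕ}
  (hS : S' ⊆ S₀) (C : Submodule (HeckePoly O) (CohLoc (awayMonoid m) ρ))
  [Module.Finite O C] [Module.Free O C]
  [Module.Finite O (CohLoc (awayMonoid m) ρ)] [Module.Free O (CohLoc (awayMonoid m) ρ)]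

/-- The prime of the ring. -/
abbrev finalPrime : Ideal (AwayPoly O S₀) := m.comap (restrictAway O hS)

omit [Module.Free O ↥C] [Module.Finite O (CohLoc (awayMonoid m) ρ)]
  [Module.Free O (CohLoc (awayMonoid m) ρ)] in
theorem finite_finalRing : Module.Finite O (FinalRing S₀ C) :=
  Module.Finite.of_injective (finalRingAct S₀ C).toLinearMap (finalRingAct_injective S₀ C)

omit [Module.Finite O ↥C] [Module.Free O ↥C] [Module.Finite O (CohLoc (awayMonoid m) ρ)] in
theorem isTorsionFree_finalRing : Module.IsTorsionFree O (FinalRing S₀ C) :=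
  Function.Injective.moduleIsTorsionFree (finalRingAct S₀ C).toLinearMap
    (finalRingAct_injective S₀ C) fun c x => map_smul (finalRingAct S₀ C).toLinearMap c x

theorem free_finalRing : Module.Free O (FinalRing S₀ C) :=
  haveI := finite_finalRing m C (S₀ := S₀)
  haveI := isTorsionFree_finalRing m C (S₀ := S₀)
  Module.free_of_finite_type_torsion_free'

include hS in
theorem isUnit_mk_finalRing {a : AwayPoly O S₀} (ha : a ∉ finalPrime m hS) :
    IsUnit (Ideal.Quotient.mk (RingHom.ker (finalAct S₀ C)) a) := by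
  have hmem : awayIncl O S₀ a ∈ awayMonoid m :=
    ⟨restrictAway O hS a, ha, awayIncl_restrictAway hS a⟩
  have hu : IsUnit (finalAct S₀ C a) := by
    have hb := (Module.End.isUnit_iff _).mp
      (IsLocalizedModule.map_units (LocalizedModule.mkLinearMap (awayMonoid m) (Coh1 ρ)) ⟨_, hmem⟩)
    let F : Module.End O (CohLoc (awayMonoid m) ρ) :=
      Algebra.lsmul O O _ (A := HeckePoly O) (awayIncl O S₀ a)
    obtain ⟨g, hg⟩ := TSide.exists_aeval_inverse F ((Module.End.isUnit_iff _).mpr hb)
    refine (Module.End.isUnit_iff _).mpr ⟨fun x y h => Subtype.ext (hb.1 (congrArg Subtype.val h)),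
      fun y => ⟨Polynomial.aeval (awayIncl O S₀ a) g • y, Subtype.ext ?_⟩⟩
    rw [Polynomial.aeval_algHom_apply] at hg
    exact LinearMap.congr_fun hg (y : CohLoc (awayMonoid m) ρ)
  obtain ⟨g, hg⟩ := TSide.exists_aeval_inverse (finalAct S₀ C a) hu
  rw [← map_one (finalAct S₀ C)] at hg
  refine IsUnit.of_mul_eq_one (Ideal.Quotient.mk _ (Polynomial.aeval a g)) ?_
  rw [← map_mul, ← map_one (Ideal.Quotient.mk _), Ideal.Quotient.eq, RingHom.mem_ker, map_sub,
    map_mul, ← Polynomial.aeval_algHom_apply, hg, sub_self]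

variable [Nontrivial C]

include hS in
theorem ker_finalAct_le : RingHom.ker (finalAct S₀ C) ≤ finalPrime m hS := fun a ha => by
  by_contra h
  obtain ⟨y, hy⟩ := exists_ne (0 : C)
  have hu := (isUnit_mk_finalRing m hS C h).map (finalRingAct S₀ C)
  rw [finalRingAct_mk, RingHom.mem_ker.mp ha] at hu
  exact hy (((Module.End.isUnit_iff _).mp hu).1 rfl)

include hS in
/-- The ring is local, with maximal ideal the image of the prime. -/
theorem isLocalRing_finalRing : IsLocalRing (FinalRing S₀ C) ∧ ∀ a : AwayPoly O S₀,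
    IsUnit (Ideal.Quotient.mk (RingHom.ker (finalAct S₀ C)) a) ↔ a ∉ finalPrime m hS := by
  have hP : (finalPrime m hS).IsPrime := Ideal.IsPrime.comap _
  have hle := ker_finalAct_le m hS C
  have : Nontrivial (FinalRing S₀ C) := Ideal.Quotient.nontrivial_iff.mpr fun h =>
    hP.ne_top (top_le_iff.mp (h.ge.trans hle))
  have hiff : ∀ a : AwayPoly O S₀,
      IsUnit (Ideal.Quotient.mk (RingHom.ker (finalAct S₀ C)) a) ↔ a ∉ finalPrime m hS := fun a =>
          by
    refine ⟨fun hu ha => hP.ne_top ((Ideal.eq_top_iff_one _).mpr ?_), isUnit_mk_finalRing m hS C⟩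
    obtain ⟨b, hb⟩ := hu.exists_right_inv
    obtain ⟨b, rfl⟩ := Ideal.Quotient.mk_surjective b
    rw [← map_mul, ← map_one (Ideal.Quotient.mk _), Ideal.Quotient.eq] at hb
    have := (finalPrime m hS).sub_mem ((finalPrime m hS).mul_mem_right b ha) (hle hb)
    simpa using this
  refine ⟨IsLocalRing.of_nonunits_add fun x y hx hy => ?_, hiff⟩
  obtain ⟨x, rfl⟩ := Ideal.Quotient.mk_surjective x
  obtain ⟨y, rfl⟩ := Ideal.Quotient.mk_surjective y
  rw [mem_nonunits_iff, hiff, not_not] at hx hy
  rw [← map_add, mem_nonunits_iff, hiff, not_not]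
  exact (finalPrime m hS).add_mem hx hy

end Local

section Reduced

variable {O : Type} [CommRing O] [IsDomain O] [IsDiscreteValuationRing O] [CharZero O]
  {M : ℕ} [NeZero M] {S₀ : Set ℕ} {P : Submonoid (HeckePoly O)}
  {ρ : Representation O (ZMod (2 * M))ˣ O} (C : Submodule (HeckePoly O) (CohLoc P ρ))

omit [IsDiscreteValuationRing O] in
/-- **The ring is reduced.** -/
theorem isReduced_finalRing (hρ : ∀ u, ρ u = 1) (hM : ¬ 2 ∣ M)
    (hS₀ : ∀ l : ℕ, l.Prime → l ∣ 2 * M → l ≠ 2 → l ∈ S₀) (hP : NonEisenstein (2 * M) P)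
    (hU : (MvPolynomial.X ⟨2, Nat.prime_two⟩ : HeckePoly O) ^ 2 - MvPolynomial.C (2 : O) ∈ P) :
    IsReduced (FinalRing S₀ C) := by
  have : Fact (2 : ℕ).Prime := ⟨Nat.prime_two⟩
  refine ⟨fun x ⟨k, hk⟩ => ?_⟩
  obtain ⟨a, rfl⟩ := Ideal.Quotient.mk_surjective x
  refine Ideal.Quotient.eq_zero_iff_mem.mpr (RingHom.mem_ker.mpr (LinearMap.ext fun y => ?_))
  refine Subtype.ext (awayIncl_smul_eq_zero_atkin (q := 2) hM hρ hS₀ P hP hU a (k := k) ?_)
  rw [← map_pow, Ideal.Quotient.eq_zero_iff_mem, RingHom.mem_ker] at hk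
  have := congrArg Subtype.val (LinearMap.congr_fun hk y)
  rw [finalAct_apply, Submodule.coe_smul, map_pow] at this
  exact this

end Reduced

section Points

variable {O : Type} [CommRing O] [IsDomain O] [IsDiscreteValuationRing O]
  [IsAdicComplete (maximalIdeal O) O] [Finite (ResidueField O)] [CharZero O] {L : ℕ} {S' : Set ℕ}
  (m : Ideal (AwayPoly O S')) [m.IsPrime] {ρ : Representation O (ZMod L)ˣ O} {S₀ : Set ℕ}
  (C : Submodule (HeckePoly O) (CohLoc (awayMonoid m) ρ))
  [Module.Finite O C] [Module.Free O C]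
  [Module.Finite O (CohLoc (awayMonoid m) ρ)] [Module.Free O (CohLoc (awayMonoid m) ρ)]

/-- **Enough points.** -/
theorem eq_zero_of_forall_point [IsReduced (FinalRing S₀ C)] (x : FinalRing S₀ C)
    (hx : ∀ (O' : Type) [CommRing O'] [IsDomain O'] [IsDiscreteValuationRing O']
      [IsAdicComplete (maximalIdeal O') O'] [Finite (ResidueField O')] [CharZero O']
      [Algebra O O'] [Module.Finite O O'] [IsLocalHom (algebraMap O O')]
      (θ : FinalRing S₀ C →ₐ[O] O'), θ x = 0) : x = 0 := by
  have := finite_finalRing m C (S₀ := S₀)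
  have := isTorsionFree_finalRing m C (S₀ := S₀)
  by_contra hne
  obtain ⟨O', i1, i2, i3, i4, i5, i6, i7, i8, i9, θ, hθ⟩ :=
    Engine.TRep.exists_point O (FinalRing S₀ C)
      (fun o z ho hz => (smul_eq_zero.mp ((Algebra.smul_def o z).trans hz)).resolve_left ho)
      (x := x) fun hn => hne (IsReduced.eq_zero x hn)
  exact hθ (hx O' θ)

end Points

end Fermat.Agent.TwoAdic.Final
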